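import Fermat.Agent.S37.Red.ONAux

/-!
# S37 / Red : the residue field of a valued function field is a function field
-/

set_option autoImplicit false

namespace Fermat.Agent.S37.Red

open AlgebraicCurve Fermat.Agent.S26 Polynomial IntermediateField

variable {K k : Type*} [Field K] [Field k] {A : ValuationSubring K} {π : A →+* k}
variable {F Ft : Type*} [Field F] [Field Ft] [Algebra K F] [Algebra k Ft]

open scoped IntermediateField.algebraAdjoinAdjoin in
/-- A field which is finite over `Ω(x)`, `x` transcendental, is a function field of one variable.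
(Copy of the proof of `S17.G.ff1_of_isFF`, file `S17/G/FromS27.lean`; do NOT import that file: it is heavy.) -/
theorem ff1_of_finiteDimensional {Ω 𝕃 : Type*} [Field Ω] [Field 𝕃] [Algebra Ω 𝕃] {x : 𝕃}
    (hx : Transcendental Ω x) [FiniteDimensional Ω⟮x⟯ 𝕃] : FF1 Ω 𝕃 where
  essFiniteType := by
    have h1 : Algebra.EssFiniteType Ω Ω⟮x⟯ :=
      IntermediateField.essFiniteType_iff.mpr (IntermediateField.fg_adjoin_of_finite (Set.finite_singleton x))
    exact Algebra.EssFiniteType.comp Ω Ω⟮x⟯ 𝕃
  trdeg_eq_one := by
    have halg : Algebra.IsAlgebraic (Algebra.adjoin Ω {x}) 𝕃 := by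
      refine ⟨fun y => ?_⟩
      have h1 : IsAlgebraic Ω⟮x⟯ y := Algebra.IsAlgebraic.isAlgebraic y
      exact (IsFractionRing.isAlgebraic_iff (Algebra.adjoin Ω {x}) Ω⟮x⟯ 𝕃).mpr h1
    apply le_antisymm
    · have := Algebra.IsAlgebraic.trdeg_le_cardinalMk Ω ({x} : Set 𝕃)
      simpa using this
    · have : Algebra.Transcendental Ω 𝕃 := ⟨⟨x, hx⟩⟩
      exact Cardinal.one_le_iff_pos.mpr (trdeg_pos _ _)

/-- `[Ft : k(yt)] ≤ [F : K(y)] < ∞`.
Proof: `y` is transcendental (`transcendental_of_red`), so `F / K(y)` is finite (`S26.finiteDimensional_adjoin_of_transcendental`), of degree `d`.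
If `Ft / k(yt)` were not finite-dimensional of degree `≤ d` there would be `d + 1` linearly independent elements `bt i`
(e.g. `Module.finite_of_finrank_pos`/`exists_linearIndependent...`/`Module.rank` argument: `LinearIndependent` families of every finite size ≤ rank); lift them (`V.exists_lift`);
`ONAux.linearIndependent_lift` gives `d + 1` independent elements of `F`: contradiction (`LinearIndependent.fintype_card_le_finrank`). -/
theorem VFF.finiteDimensional_res (V : VFF A π F Ft) [FF1 K F] {y : F} {yt : Ft} (hy : V.Red y yt)
    (ht : Transcendental k yt) : FiniteDimensional k⟮yt⟯ Ft := by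
  have hty : Transcendental K y := transcendental_of_red V hy ht
  have hfin : FiniteDimensional K⟮y⟯ F := finiteDimensional_adjoin_of_transcendental hty
  -- bound on the size of independent families
  have hbound : ∀ (n : ℕ) (bt : Fin n → Ft), LinearIndependent k⟮yt⟯ bt →
      n ≤ Module.finrank K⟮y⟯ F := by
    intro n bt hbt
    choose b hb using fun i => V.exists_lift (bt i)
    have := (ONAux.linearIndependent_lift hy ht bt hbt b hb).fintype_card_le_finrank
    simpa using this
  have hrank : Module.rank k⟮yt⟯ Ft ≤ (Module.finrank K⟮y⟯ F : ℕ) := by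
    apply rank_le
    intro s hs
    have h1 : LinearIndependent k⟮yt⟯ (fun i : Fin s.card => ((s.equivFin.symm i : s) : Ft)) :=
      hs.comp _ s.equivFin.symm.injective
    exact hbound _ _ h1
  exact Module.rank_lt_aleph0_iff.mp (lt_of_le_of_lt hrank (Cardinal.natCast_lt_aleph0))

/-- The residue field of a valued function field is a function field. -/
theorem VFF.ff1_res (V : VFF A π F Ft) [FF1 K F] {y : F} {yt : Ft} (hy : V.Red y yt)
    (ht : Transcendental k yt) : FF1 k Ft := by
  have := V.finiteDimensional_res hy ht
  exact ff1_of_finiteDimensional ht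

end Fermat.Agent.S37.Red
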