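import Fermat.Agent.S37.Red.Eval

/-!
# S37 / Red : functions without poles on a residue disc
-/

set_option autoImplicit false
set_option linter.unusedSectionVars false

namespace Fermat.Agent.S37.Red

open AlgebraicCurve Fermat.Agent.S26 Polynomial IntermediateField

variable {K k : Type*} [Field K] [Field k] {A : ValuationSubring K} {π : A →+* k}
variable {F Ft : Type*} [Field F] [Field Ft] [Algebra K F] [Algebra k Ft]
variable [IsAlgClosed K] [FF1 K F] [IsAlgClosed k] [FF1 k Ft]
variable {V : VFF A π F Ft} {y : F} {yt : Ft}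

/-- (L7) `f ∈ O` without poles in the residue disc of `c` ⇒ `q(y) f ∈ B_A(y)` for some `q ∈ A[X]` with `(red q)(c) ≠ 0`.
Proof: `exists_clear_poles` with `S = {a | a ∈ A ∧ res π a = c}`: `w` monic without roots in `S`, `w(y) f` integral over `K[y]`.  `w = c₀ q`, `q` primitive (`exists_primitive`);
`(q.map π).eval c ≠ 0` by `eval_map_ne_zero_of_no_root`; `q(y) f = c₀⁻¹ w(y) f` is integral over `K[y]` and lies in `O`: saturation. -/
theorem IsPreChart.exists_clear_disc (pc : IsPreChart V y yt) {f : F} (hf : f ∈ V.O) (c : k)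
    (hreg : ∀ v : Place K F, InDisc π y c v → Reg v f) :
    ∃ q : Polynomial A, (q.map π).eval c ≠ 0 ∧ IntA A y (aeval y (q.map A.subtype) * f) := by
  have hyT : Transcendental K y := transcendental_of_red V pc.red_y pc.trans
  obtain ⟨w, hwm, hw, hint⟩ := exists_clear_poles hyT f {a : K | a ∈ A ∧ res π a = c}
    (fun v hv hS => hreg v ⟨⟨hv, hS.1⟩, hS.2⟩)
  obtain ⟨c₀, q, hc₀, hwq, hq⟩ := exists_primitive π w hwm.ne_zero
  refine ⟨q, eval_map_ne_zero_of_no_root V.π_surjective q hq c fun a ha hac h0 => ?_, ?_⟩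
  · apply hw a ⟨ha, hac⟩
    rw [hwq, eval_mul, h0, mul_zero]
  · refine pc.sat ?_ (mul_mem (V.red_aeval pc.red_y q).mem hf)
    have h1 : aeval y (q.map A.subtype) * f = algebraMap K F c₀⁻¹ * (aeval y w * f) := by
      rw [hwq, map_mul, aeval_C, ← mul_assoc, ← mul_assoc, ← map_mul, inv_mul_cancel₀ hc₀,
        map_one, one_mul]
    rw [h1]
    exact (intK_algebraMap c₀⁻¹).mul hint

/-- the reduction of a function of `O` without poles in the disc of `c` is regular over `c`. -/
theorem IsPreChart.reg_red (pc : IsPreChart V y yt) {f : F} {ft : Ft} (hf : V.Red f ft) (c : k)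
    (hreg : ∀ v : Place K F, InDisc π y c v → Reg v f) {Q : Place k Ft} (hQ : Over yt c Q) :
    Reg Q ft := by
  obtain ⟨q, hqc, hu⟩ := pc.exists_clear_disc hf.mem c hreg
  have hqt : V.Red (aeval y (q.map A.subtype)) (aeval yt (q.map π)) := V.red_aeval pc.red_y q
  have h1 : Reg Q (aeval yt (q.map π) * ft) :=
    (IntA.intK_red V hu pc.red_y (hqt.mul hf)).reg Q hQ.1
  have h2 : val Q (aeval yt (q.map π)) = (q.map π).eval c := by
    rw [val_aeval Q hQ.1, hQ.2]
  have h3 : ¬ Van Q (aeval yt (q.map π)) := fun h => hqc (by rw [← h2, val_eq_zero_of_van Q h])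
  have h0 : aeval yt (q.map π) ≠ 0 := fun h => h3 (by rw [h]; exact van_zero Q)
  have h4 : ft = (aeval yt (q.map π))⁻¹ * (aeval yt (q.map π) * ft) := by
    rw [← mul_assoc, inv_mul_cancel₀ h0, one_mul]
  rw [h4]
  exact (reg_inv_of_not_van Q h3).mul Q h1

/-- (EV) evaluation: `f ∈ O` without poles in the disc of `c`, `v` in the disc, `Q` a centre of `v` ⇒ `ft` regular at `Q`, `f(v) ∈ A`, `ft(Q) = res (f(v))`. -/
theorem IsPreChart.val_red_eq (pc : IsPreChart V y yt) {f : F} {ft : Ft} (hf : V.Red f ft) (c : k)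
    (hreg : ∀ v : Place K F, InDisc π y c v → Reg v f) {v : Place K F} (hv : InDisc π y c v)
    {Q : Place k Ft} (hQ : Over yt c Q)
    (hQv : ∀ (b : F) (bt : Ft), IntA A y b → V.Red b bt → val Q bt = res π (val v b)) :
    Reg Q ft ∧ val v f ∈ A ∧ val Q ft = res π (val v f) := by
  have hQft : Reg Q ft := pc.reg_red hf c hreg hQ
  obtain ⟨q, hqc, hu⟩ := pc.exists_clear_disc hf.mem c hreg
  have hqt : V.Red (aeval y (q.map A.subtype)) (aeval yt (q.map π)) := V.red_aeval pc.red_y q
  have hvy : Reg v y := hv.1.1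
  have hvf : Reg v f := hreg v hv
  -- the value of `q(y)` at `v`
  have h1 : val v (aeval y (q.map A.subtype)) = (q.map A.subtype).eval (val v y) := val_aeval v hvy _
  have h2 : res π (val v (aeval y (q.map A.subtype))) = (q.map π).eval c := by
    rw [h1, res_eval q hv.1.2, hv.2]
  have h3 : res π (val v (aeval y (q.map A.subtype))) ≠ 0 := by rw [h2]; exact hqc
  obtain ⟨h4, h5⟩ := inv_mem_of_res_ne_zero V.π_surjective h3
  have h6 : val v (aeval y (q.map A.subtype)) ≠ 0 := by
    intro h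
    rw [h, res_zero] at h3
    exact h3 rfl
  -- the value of `u = q(y) f`
  have h7 : val v (aeval y (q.map A.subtype) * f) = val v (aeval y (q.map A.subtype)) * val v f :=
    val_mul v (hvy.aeval v _) hvf
  have h8 : val v (aeval y (q.map A.subtype) * f) ∈ A := hu.val_mem hv.1
  have h9 : val v f ∈ A := by
    have : val v f = (val v (aeval y (q.map A.subtype)))⁻¹ *
        val v (aeval y (q.map A.subtype) * f) := by
      rw [h7, ← mul_assoc, inv_mul_cancel₀ h6, one_mul]
    rw [this]
    exact mul_mem h5 h8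
  refine ⟨hQft, h9, ?_⟩
  have h10 := hQv _ _ hu (hqt.mul hf)
  rw [val_mul Q (hQ.1.aeval Q _) hQft, val_aeval Q hQ.1, hQ.2, h7, res_mul h4 h9, h2] at h10
  exact mul_left_cancel₀ hqc h10

/-- (L8) `f` a unit of `O` without zeros and poles in the residue disc of `c` ⇒ `red f` has no zeros and poles over `c`.
Proof: (L7) for `f`: `q(y) f = u`, so `(red q)(yt) ft = ut` is integral over `k[yt]`, hence regular at `Q | c`, and `ord_Q ((red q)(yt)) = 0` (`ord_aeval_eq_zero`): `ord_Q ft ≥ 0`.
The same for `f⁻¹`. -/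
theorem IsPreChart.ord_red_eq_zero (pc : IsPreChart V y yt) {f : F} {ft : Ft} (hf : V.Red f ft)
    (hft : ft ≠ 0) (c : k) (h : ∀ v : Place K F, InDisc π y c v → v.ord f = 0) :
    ∀ Q : Place k Ft, Over yt c Q → Q.ord ft = 0 := by
  intro Q hQ
  have h1 : Reg Q ft := pc.reg_red hf c (fun v hv => (reg_iff_ord v).2 (h v hv).ge) hQ
  have h2 : Reg Q ft⁻¹ := pc.reg_red (hf.inv hft) c
    (fun v hv => (reg_iff_ord v).2 (by rw [v.ord_inv, h v hv, neg_zero])) hQ
  rw [reg_iff_ord] at h1 h2
  rw [Q.ord_inv] at h2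
  omega

end Fermat.Agent.S37.Red
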