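import Fermat.Agent.S37.Red.FFInt

/-!
# S37 / Red : the order formula for the norm to `Ω(x)`, polynomial form, ANY characteristic

`Ω` algebraically closed, `𝕃/Ω` a function field, `x` transcendental, `n = [𝕃 : Ω(x)]`, `N = Algebra.norm Ω⟮x⟯`.

**Theorem.** For `g ≠ 0` integral over `Ω[x]`: `N g = G(x)` with `G ∈ Ω[X]` and for all `c : Ω`
`rootMultiplicity c G = ∑_{v | c} ord_v g`.

Proof (no separability, no Dedekind domains).
1. `N g` is integral over `Ω[x]` (`Algebra.isIntegral_norm`), lies in `Ω⟮x⟯ = Frac Ω[x]`, and `Ω[x] ≃ Ω[X]` is integrally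
   closed: `N g = G_g(x)`; `G_g` is unique (`x` transcendental), `G_{gh} = G_g G_h`, `G_{w(x)} = w ^ n`.  Put `μ(g) = rootMultiplicity c G_g`.
2. (units) if `ord_v g = 0` for all `v | c` then `μ(g) = 0`: `exists_clear_poles` for `f = g⁻¹`, `S = {c}` gives
   `h = w(x) g⁻¹` integral, `w(c) ≠ 0`, `G_g G_h = w ^ n`.
3. (non units) if `g` vanishes at some `v | c` then `μ(g) ≥ 1`: `N g = ± a₀ ^ r`, `a₀` the constant coefficient of the minimal polynomial
   of `g` over `Ω⟮x⟯` (`Algebra.norm_norm`, `Algebra.norm_algebraMap`, `PowerBasis.norm_gen_eq_coeff_zero_minpoly`), whose coefficients are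
   `a_i(x)`, `a_i ∈ Ω[X]`; evaluating `g ^ m + a_{m-1}(x) g ^ (m-1) + … + a₀(x) = 0` at `v` gives `a₀(c) = 0`.
4. for `v | c` choose `t_v` integral with `ord_v t_v = 1`, `ord_{v'} t_v = 0` for the other `v' | c` (`exists_intK_ord`).
   `x - c = ρ ∏ t_v ^ e_v` with `ρ` of order `0` over `c`; clear the poles of `ρ`: `(x - c) w(x) = u ∏ t_v ^ e_v`, `u` integral of order `0` over `c`.
   So `n = μ(x - c) = ∑ e_v μ(t_v)`, `μ(t_v) ≥ 1`, `∑ e_v = n` (`sum_ord_over`): `μ(t_v) = 1`.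
5. the same factorisation for `g`: `μ(g) = ∑ ord_v g`.
-/

set_option autoImplicit false
set_option linter.unusedSectionVars false
set_option linter.unusedVariables false

namespace Fermat.Agent.S37.Red

open AlgebraicCurve Fermat.Agent.S26 Polynomial IntermediateField
open scoped IntermediateField.algebraAdjoinAdjoin

namespace NormPoly

section basic

variable {Ω 𝕃 : Type*} [Field Ω] [Field 𝕃] [Algebra Ω 𝕃]

/-- `N g = G(x)`. -/
def IsNP (x g : 𝕃) (G : Polynomial Ω) : Prop :=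
  algebraMap Ω⟮x⟯ 𝕃 (Algebra.norm Ω⟮x⟯ g) = aeval x G

theorem IsNP.unique {x g : 𝕃} (hx : Transcendental Ω x) {G G' : Polynomial Ω}
    (h : IsNP x g G) (h' : IsNP x g G') : G = G' :=
  (transcendental_iff_injective.1 hx) (h.symm.trans h')

theorem IsNP.mul {x g h : 𝕃} {G H : Polynomial Ω} (hg : IsNP x g G) (hh : IsNP x h H) :
    IsNP x (g * h) (G * H) := by
  rw [IsNP, map_mul, map_mul, map_mul, hg, hh]

theorem isNP_one (x : 𝕃) : IsNP (Ω := Ω) x 1 1 := by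
  rw [IsNP, map_one, map_one, map_one]

theorem IsNP.pow {x g : 𝕃} {G : Polynomial Ω} (hg : IsNP x g G) (n : ℕ) :
    IsNP x (g ^ n) (G ^ n) := by
  rw [IsNP, map_pow, map_pow, map_pow, hg]

theorem isNP_prod {ι : Type*} (s : Finset ι) {x : 𝕃} (g : ι → 𝕃) (G : ι → Polynomial Ω)
    (h : ∀ i ∈ s, IsNP x (g i) (G i)) : IsNP x (∏ i ∈ s, g i) (∏ i ∈ s, G i) := by
  rw [IsNP, map_prod, map_prod, map_prod]
  exact Finset.prod_congr rfl h

theorem isNP_aeval (x : 𝕃) (w : Polynomial Ω) :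
    IsNP x (aeval x w) (w ^ Module.finrank Ω⟮x⟯ 𝕃) := by
  have h1 : aeval x w = algebraMap Ω⟮x⟯ 𝕃 (aeval (AdjoinSimple.gen Ω x) w) := by
    rw [← aeval_algebraMap_apply, AdjoinSimple.algebraMap_gen]
  rw [IsNP, h1, Algebra.norm_algebraMap, map_pow, map_pow, ← h1]

theorem IsNP.ne_zero {x g : 𝕃} [FiniteDimensional Ω⟮x⟯ 𝕃] (hg0 : g ≠ 0) {G : Polynomial Ω}
    (h : IsNP x g G) : G ≠ 0 := by
  rintro rfl
  rw [IsNP, map_zero, map_eq_zero, Algebra.norm_eq_zero_iff] at h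
  exact hg0 h

theorem rootMultiplicity_pow' (c : Ω) (p : Polynomial Ω) (hp : p ≠ 0) (n : ℕ) :
    rootMultiplicity c (p ^ n) = n * rootMultiplicity c p := by
  induction n with
  | zero => simp
  | succ n ih =>
    rw [pow_succ, rootMultiplicity_mul (mul_ne_zero (pow_ne_zero n hp) hp), ih]
    ring

theorem rootMultiplicity_prod_pow {ι : Type*} (s : Finset ι) (f : ι → Polynomial Ω) (a : ι → ℕ)
    (hf : ∀ i ∈ s, f i ≠ 0) (c : Ω) :
    rootMultiplicity c (∏ i ∈ s, f i ^ a i) = ∑ i ∈ s, a i * rootMultiplicity c (f i) := by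
  classical
  induction s using Finset.induction_on with
  | empty => simp
  | insert i s hi ih =>
    have h1 : f i ^ a i ≠ 0 := pow_ne_zero _ (hf i (Finset.mem_insert_self i s))
    have h2 : ∏ j ∈ s, f j ^ a j ≠ 0 :=
      Finset.prod_ne_zero_iff.2 fun j hj => pow_ne_zero _ (hf j (Finset.mem_insert_of_mem hj))
    rw [Finset.prod_insert hi, Finset.sum_insert hi, rootMultiplicity_mul (mul_ne_zero h1 h2),
      rootMultiplicity_pow' c _ (hf i (Finset.mem_insert_self i s)),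
      ih fun j hj => hf j (Finset.mem_insert_of_mem hj)]

theorem ord_prod_pow (v : Place Ω 𝕃) {ι : Type*} (s : Finset ι) (f : ι → 𝕃) (a : ι → ℕ)
    (hf : ∀ i ∈ s, f i ≠ 0) :
    v.ord (∏ i ∈ s, f i ^ a i) = ∑ i ∈ s, (a i : ℤ) * v.ord (f i) := by
  classical
  induction s using Finset.induction_on with
  | empty => simp [Place.ord_one]
  | insert i s hi ih =>
    have h1 : f i ^ a i ≠ 0 := pow_ne_zero _ (hf i (Finset.mem_insert_self i s))
    have h2 : ∏ j ∈ s, f j ^ a j ≠ 0 :=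
      Finset.prod_ne_zero_iff.2 fun j hj => pow_ne_zero _ (hf j (Finset.mem_insert_of_mem hj))
    rw [Finset.prod_insert hi, Finset.sum_insert hi, v.ord_mul h1 h2,
      Fermat.Agent.S24.FF.ord_pow, ih fun j hj => hf j (Finset.mem_insert_of_mem hj)]

/-- polynomials in `g` with coefficients in `Ω[x]` are regular where `x` and `g` are. -/
theorem reg_aeval_adjoin (v : Place Ω 𝕃) {x g : 𝕃} (hx : Reg v x) (hg : Reg v g)
    (P : Polynomial (Algebra.adjoin Ω {x})) : Reg v (aeval g P) := by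
  induction P using Polynomial.induction_on' with
  | add p q hp hq => rw [map_add]; exact Reg.add v hp hq
  | monomial n a =>
    rw [aeval_monomial]
    refine Reg.mul v ?_ (Reg.pow v hg n)
    obtain ⟨p, hp⟩ := Fermat.Agent.S24.FF.exists_aeval_eq Ω x a
    show Reg v (a : 𝕃)
    rw [← hp]
    exact Reg.aeval v hx p

end basic

variable {Ω 𝕃 : Type*} [Field Ω] [Field 𝕃] [Algebra Ω 𝕃]

/-- the norm of an integral element in terms of the constant coefficient of its minimal polynomial over `Ω[x]`. -/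
theorem norm_eq_of_isIntegral {x g : 𝕃} (hg : IsIntegral (Algebra.adjoin Ω {x}) g) :
    Algebra.norm Ω⟮x⟯ g = algebraMap (Algebra.adjoin Ω {x}) Ω⟮x⟯
      (((-1) ^ (minpoly Ω⟮x⟯ g).natDegree * (minpoly (Algebra.adjoin Ω {x}) g).coeff 0)
        ^ Module.finrank Ω⟮x⟯⟮g⟯ 𝕃) := by
  have hg' : IsIntegral Ω⟮x⟯ g := hg.tower_top
  have h1 := Algebra.PowerBasis.norm_gen_eq_coeff_zero_minpoly (adjoin.powerBasis hg')
  rw [adjoin.powerBasis_gen, adjoin.powerBasis_dim, minpoly_gen,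
    minpoly.isIntegrallyClosed_eq_field_fractions' Ω⟮x⟯ hg, coeff_map] at h1
  rw [Algebra.norm_eq_norm_adjoin, h1, map_pow, map_mul, map_pow, map_neg, map_one,
    minpoly.isIntegrallyClosed_eq_field_fractions' Ω⟮x⟯ hg]

end NormPoly

open NormPoly

variable {Ω 𝕃 : Type*} [Field Ω] [Field 𝕃] [Algebra Ω 𝕃] [IsAlgClosed Ω] [FF1 Ω 𝕃]

/-- step 1. -/
theorem exists_norm_eq_aeval {x g : 𝕃} (hx : Transcendental Ω x) (hg : IntK Ω x g) :
    ∃ G : Polynomial Ω, algebraMap Ω⟮x⟯ 𝕃 (Algebra.norm Ω⟮x⟯ g) = aeval x G := by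
  rw [norm_eq_of_isIntegral (intK_iff_isIntegral.1 hg)]
  obtain ⟨G, hG⟩ := Fermat.Agent.S24.FF.exists_aeval_eq Ω x
    (((-1) ^ (minpoly Ω⟮x⟯ g).natDegree * (minpoly (Algebra.adjoin Ω {x}) g).coeff 0)
        ^ Module.finrank Ω⟮x⟯⟮g⟯ 𝕃)
  exact ⟨G, hG.symm⟩

namespace NormPoly

theorem IsNP.eval_eq_val {x g : 𝕃} {c : Ω} {v : Place Ω 𝕃} (hv : Over x c v) {G : Polynomial Ω}
    (h : IsNP x g G) : G.eval c = val v (algebraMap Ω⟮x⟯ 𝕃 (Algebra.norm Ω⟮x⟯ g)) := by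
  rw [h, val_aeval v hv.1, hv.2]

/-- step 2 (units). -/
theorem eval_ne_zero_of_ord_eq_zero {x g : 𝕃} (hx : Transcendental Ω x) (hg0 : g ≠ 0) {c : Ω}
    (h0 : ∀ v : Place Ω 𝕃, Over x c v → v.ord g = 0) {G : Polynomial Ω} (h : IsNP x g G) :
    G.eval c ≠ 0 := by
  obtain ⟨w, -, hw, hint⟩ := exists_clear_poles hx g⁻¹ {c} (fun v hv hc => by
    rw [reg_iff_ord, v.ord_inv, h0 v ⟨hv, hc⟩, neg_zero])
  obtain ⟨H, hH⟩ := exists_norm_eq_aeval hx hint
  have h1 : IsNP x (g * (aeval x w * g⁻¹)) (G * H) := h.mul hH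
  have h2 : g * (aeval x w * g⁻¹) = aeval x w := by field_simp
  rw [h2] at h1
  have h3 := h1.unique hx (isNP_aeval x w)
  intro h4
  have h5 := congrArg (eval c) h3
  rw [eval_mul, h4, zero_mul, eval_pow] at h5
  exact pow_ne_zero _ (hw c rfl) h5.symm

/-- step 3 (non units). -/
theorem eval_eq_zero_of_van {x g : 𝕃} (hx : Transcendental Ω x) (hg : IntK Ω x g) {c : Ω}
    {v : Place Ω 𝕃} (hv : Over x c v) (hgv : Van v g) {G : Polynomial Ω} (h : IsNP x g G) :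
    G.eval c = 0 := by
  have hfd : FiniteDimensional Ω⟮x⟯ 𝕃 := finiteDimensional_adjoin_of_transcendental hx
  have hfd' : FiniteDimensional Ω⟮x⟯⟮g⟯ 𝕃 := FiniteDimensional.right Ω⟮x⟯ Ω⟮x⟯⟮g⟯ 𝕃
  have hg' := intK_iff_isIntegral.1 hg
  have hr : Module.finrank Ω⟮x⟯⟮g⟯ 𝕃 ≠ 0 := Module.finrank_pos.ne'
  -- the constant coefficient vanishes at `v`
  have ha : Van v (((minpoly (Algebra.adjoin Ω {x}) g).coeff 0 : Algebra.adjoin Ω {x}) : 𝕃) := by
    have h0 := minpoly.aeval (Algebra.adjoin Ω {x}) g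
    rw [← divX_mul_X_add (minpoly (Algebra.adjoin Ω {x}) g), map_add, map_mul, aeval_X,
      aeval_C] at h0
    have h1 : (((minpoly (Algebra.adjoin Ω {x}) g).coeff 0 : Algebra.adjoin Ω {x}) : 𝕃)
        = - (aeval g (minpoly (Algebra.adjoin Ω {x}) g).divX * g) :=
      eq_neg_of_add_eq_zero_right h0
    rw [h1]
    exact Van.neg v (Van.mul_left v (reg_aeval_adjoin v hv.1 (Van.reg v hgv) _) hgv)
  rw [h.eval_eq_val hv]
  apply val_eq_zero_of_van
  rw [norm_eq_of_isIntegral hg']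
  show Van v ((((-1) ^ (minpoly Ω⟮x⟯ g).natDegree * (minpoly (Algebra.adjoin Ω {x}) g).coeff 0)
        ^ Module.finrank Ω⟮x⟯⟮g⟯ 𝕃 : Algebra.adjoin Ω {x}) : 𝕃)
  push_cast
  rw [van_pow_iff v hr]
  exact Van.mul_left v (Reg.pow v (Reg.neg v (reg_one v)) _) ha

/-- steps 4 and 5: the factorisation. -/
theorem rootMultiplicity_eq_sum {x : 𝕃} (hx : Transcendental Ω x) (c : Ω)
    (T : Finset (Place Ω 𝕃)) (hT : ∀ v, v ∈ T ↔ Over x c v)
    (t : Place Ω 𝕃 → 𝕃) (Gt : Place Ω 𝕃 → Polynomial Ω)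
    (ht : ∀ v ∈ T, IntK Ω x (t v)) (ht0 : ∀ v ∈ T, t v ≠ 0)
    (hord1 : ∀ v ∈ T, v.ord (t v) = 1)
    (hord0 : ∀ v ∈ T, ∀ v' ∈ T, v' ≠ v → v'.ord (t v) = 0)
    (hGt : ∀ v ∈ T, IsNP x (t v) (Gt v))
    {g : 𝕃} (hg : IntK Ω x g) (hg0 : g ≠ 0) {G : Polynomial Ω} (hG : IsNP x g G) :
    rootMultiplicity c G = ∑ v ∈ T, (v.ord g).toNat * rootMultiplicity c (Gt v) := by
  classical
  have hfd : FiniteDimensional Ω⟮x⟯ 𝕃 := finiteDimensional_adjoin_of_transcendental hx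
  set a : Place Ω 𝕃 → ℕ := fun v => (v.ord g).toNat with ha
  have haord : ∀ v ∈ T, (a v : ℤ) = v.ord g := by
    intro v hv
    exact Int.toNat_of_nonneg ((reg_iff_ord v).1 (hg.reg v ((hT v).1 hv).1))
  set P : 𝕃 := ∏ v ∈ T, t v ^ a v with hP
  have hP0 : P ≠ 0 := Finset.prod_ne_zero_iff.2 fun v hv => pow_ne_zero _ (ht0 v hv)
  have hPint : IntK Ω x P := intK_prod _ _ fun v hv => (ht v hv).pow _
  have hPNP : IsNP x P (∏ v ∈ T, Gt v ^ a v) := isNP_prod _ _ _ fun v hv => (hGt v hv).pow _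
  have hPord : ∀ v' ∈ T, v'.ord P = v'.ord g := by
    intro v' hv'
    rw [hP, ord_prod_pow v' T t a ht0, Finset.sum_eq_single v', hord1 v' hv', mul_one,
      haord v' hv']
    · intro v hv hne
      rw [hord0 v hv v' hv' hne.symm, mul_zero]
    · intro h; exact absurd hv' h
  have hρ : ∀ v : Place Ω 𝕃, Over x c v → v.ord (g / P) = 0 := by
    intro v hv
    rw [Fermat.Agent.S24.FF.ord_div v hg0 hP0, hPord v ((hT v).2 hv), sub_self]
  obtain ⟨w, hwm, hw, hint⟩ := exists_clear_poles hx (g / P) {c} (fun v hv hc => by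
    rw [reg_iff_ord, hρ v ⟨hv, hc⟩])
  have hwc : w.eval c ≠ 0 := hw c rfl
  have hw0 : aeval x w ≠ 0 := by
    intro h
    exact hwm.ne_zero ((transcendental_iff_injective.1 hx) (h.trans (map_zero _).symm))
  have hu0 : aeval x w * (g / P) ≠ 0 := mul_ne_zero hw0 (div_ne_zero hg0 hP0)
  obtain ⟨Gu, hGu⟩ := exists_norm_eq_aeval hx hint
  have hGuc : Gu.eval c ≠ 0 := by
    refine eval_ne_zero_of_ord_eq_zero hx hu0 (fun v hv => ?_) hGu
    rw [v.ord_mul hw0 (div_ne_zero hg0 hP0), ord_aeval_eq_zero hv hwc, hρ v hv, add_zero]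
  have h1 : IsNP x (aeval x w * g) (w ^ Module.finrank Ω⟮x⟯ 𝕃 * G) := (isNP_aeval x w).mul hG
  have h2 : IsNP x (aeval x w * (g / P) * P) (Gu * ∏ v ∈ T, Gt v ^ a v) :=
    IsNP.mul hGu hPNP
  have h3 : aeval x w * (g / P) * P = aeval x w * g := by field_simp
  rw [h3] at h2
  have h4 := h1.unique hx h2
  have hG0 : G ≠ 0 := hG.ne_zero hg0
  have hGt0 : ∀ v ∈ T, Gt v ≠ 0 := fun v hv => (hGt v hv).ne_zero (ht0 v hv)
  have hGu0 : Gu ≠ 0 := fun h => hGuc (by rw [h, eval_zero])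
  have hwn0 : w ^ Module.finrank Ω⟮x⟯ 𝕃 ≠ 0 := pow_ne_zero _ hwm.ne_zero
  have h5 := congrArg (rootMultiplicity c) h4
  rw [rootMultiplicity_mul (mul_ne_zero hwn0 hG0),
    rootMultiplicity_mul (mul_ne_zero hGu0
      (Finset.prod_ne_zero_iff.2 fun v hv => pow_ne_zero _ (hGt0 v hv))),
    rootMultiplicity_prod_pow T Gt a hGt0 c,
    rootMultiplicity_eq_zero (p := Gu) hGuc,
    rootMultiplicity_eq_zero (p := w ^ Module.finrank Ω⟮x⟯ 𝕃)
      (by rw [IsRoot.def, eval_pow]; exact pow_ne_zero _ hwc), zero_add, zero_add] at h5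
  exact h5

end NormPoly

/-- **The order formula.** -/
theorem exists_norm_poly {x g : 𝕃} (hx : Transcendental Ω x) (hg : IntK Ω x g) (hg0 : g ≠ 0) :
    ∃ G : Polynomial Ω, G ≠ 0 ∧ algebraMap Ω⟮x⟯ 𝕃 (Algebra.norm Ω⟮x⟯ g) = aeval x G ∧
      ∀ c : Ω, (G.rootMultiplicity c : ℤ) = ∑ᶠ (v : Place Ω 𝕃) (_ : Over x c v), v.ord g := by
  classical
  have hfd : FiniteDimensional Ω⟮x⟯ 𝕃 := finiteDimensional_adjoin_of_transcendental hx
  obtain ⟨G, hG⟩ := exists_norm_eq_aeval hx hg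
  refine ⟨G, IsNP.ne_zero hg0 hG, hG, fun c => ?_⟩
  set T : Finset (Place Ω 𝕃) := (finite_over hx c).toFinset with hTdef
  have hT : ∀ v, v ∈ T ↔ Over x c v := fun v => (finite_over hx c).mem_toFinset
  have hsum : ∀ f : Place Ω 𝕃 → ℤ,
      ∑ᶠ (v : Place Ω 𝕃) (_ : Over x c v), f v = ∑ v ∈ T, f v := fun f =>
    finsum_mem_eq_finite_toFinset_sum f (finite_over hx c)
  -- the local parameters
  have hex : ∀ v : Place Ω 𝕃, ∃ z : 𝕃, IntK Ω x z ∧ z ≠ 0 ∧
      ∀ v' ∈ T, v'.ord z = ((if v' = v then 1 else 0 : ℕ) : ℤ) := fun v =>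
    exists_intK_ord hx T (fun v hv => ((hT v).1 hv).1)
      (fun v hv v' hv' h => (hT v').2 ⟨hv', h.trans ((hT v).1 hv).2⟩)
      (fun v' => if v' = v then 1 else 0)
  choose t ht ht0 hord using hex
  choose Gt hGt using fun v => exists_norm_eq_aeval hx (ht v)
  have hord1 : ∀ v ∈ T, v.ord (t v) = 1 := fun v hv => by
    rw [hord v v hv, if_pos rfl, Nat.cast_one]
  have hord0 : ∀ v ∈ T, ∀ v' ∈ T, v' ≠ v → v'.ord (t v) = 0 := fun v _ v' hv' hne => by
    rw [hord v v' hv', if_neg hne, Nat.cast_zero]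
  have key : ∀ {g : 𝕃}, IntK Ω x g → g ≠ 0 → ∀ {G : Polynomial Ω}, IsNP x g G →
      rootMultiplicity c G = ∑ v ∈ T, (v.ord g).toNat * rootMultiplicity c (Gt v) :=
    fun hg hg0 _ hG => rootMultiplicity_eq_sum hx c T hT t Gt (fun v _ => ht v)
      (fun v _ => ht0 v) hord1 hord0 (fun v _ => hGt v) hg hg0 hG
  -- `μ(t_v) ≥ 1`
  have hμ1 : ∀ v ∈ T, 1 ≤ rootMultiplicity c (Gt v) := by
    intro v hv
    have h0 : Gt v ≠ 0 := IsNP.ne_zero (ht0 v) (hGt v)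
    refine (rootMultiplicity_pos h0).2 ?_
    exact eval_eq_zero_of_van hx (ht v) ((hT v).1 hv)
      (van_of_ord_pos v (by rw [hord1 v hv]; exact one_pos)) (hGt v)
  -- `x - c`
  have hxc : x - algebraMap Ω 𝕃 c = aeval x (X - C c) := by simp
  have hxc0 : x - algebraMap Ω 𝕃 c ≠ 0 := by
    intro h
    apply hx
    rw [sub_eq_zero] at h
    rw [h]
    exact isAlgebraic_algebraMap c
  have hxcint : IntK Ω x (x - algebraMap Ω 𝕃 c) := intK_self.sub (intK_algebraMap c)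
  have h1 := key hxcint hxc0 (hxc ▸ isNP_aeval x (X - C c))
  rw [rootMultiplicity_X_sub_C_pow] at h1
  have he : ∀ v ∈ T, 1 ≤ (v.ord (x - algebraMap Ω 𝕃 c)).toNat := by
    intro v hv
    have := (over_iff_ord hx).1 ((hT v).1 hv)
    omega
  have h2 : (Module.finrank Ω⟮x⟯ 𝕃 : ℤ) = ∑ v ∈ T, ((v.ord (x - algebraMap Ω 𝕃 c)).toNat : ℤ) := by
    rw [← sum_ord_over hx c, hsum]
    refine Finset.sum_congr rfl fun v hv => ?_
    have := (over_iff_ord hx).1 ((hT v).1 hv)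
    omega
  have h3 : ∑ v ∈ T, (v.ord (x - algebraMap Ω 𝕃 c)).toNat
      = ∑ v ∈ T, (v.ord (x - algebraMap Ω 𝕃 c)).toNat * rootMultiplicity c (Gt v) := by
    rw [← h1]
    exact_mod_cast h2.symm
  have h4 := (Finset.sum_eq_sum_iff_of_le (fun v hv =>
    Nat.le_mul_of_pos_right _ (hμ1 v hv))).1 h3
  have hμ : ∀ v ∈ T, rootMultiplicity c (Gt v) = 1 := by
    intro v hv
    have h5 := h4 v hv
    have h6 := he v hv
    have h7 : (v.ord (x - algebraMap Ω 𝕃 c)).toNat * 1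
        = (v.ord (x - algebraMap Ω 𝕃 c)).toNat * rootMultiplicity c (Gt v) := by
      rw [mul_one]; exact h5
    exact (Nat.eq_of_mul_eq_mul_left (by omega) h7).symm
  rw [key hg hg0 hG, hsum, Nat.cast_sum]
  refine Finset.sum_congr rfl fun v hv => ?_
  rw [hμ v hv, mul_one]
  exact Int.toNat_of_nonneg ((reg_iff_ord v).1 (hg.reg v ((hT v).1 hv).1))

end Fermat.Agent.S37.Red
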