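import Fermat.Agent.S37.Red.ClsDeg

/-!
# S37 / Red : specialisation of principal divisors, the converse of KL, and the divisibility trick

* `IsChart.exists_center_ord` : for a Gauss unit `W` and `v₀` in the disc of `c` there is `Q | c` with
  `ord_Q (red W) = ∑_{v ~ v₀} ord_v W`;
* `IsChart.sum_ord_eq_zero_of_red_one`, `clsDeg_eq_zero_of_red_one` : functions which reduce to `1` have degree `0` on every residue class;
* `const_of_divisible` : if `W = W_k G_k` for all `k`, `p ^ k ∣ div W_k`, `G_k` a constant times a function reducing to `1`, then `W` is a constant times a function reducing to `1`.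
-/

set_option autoImplicit false

namespace Fermat.Agent.S37.Red

open AlgebraicCurve Fermat.Agent.S26 Polynomial IntermediateField

variable {K k : Type*} [Field K] [Field k] {A : ValuationSubring K} {π : A →+* k}
variable {F Ft : Type*} [Field F] [Field Ft] [Algebra K F] [Algebra k Ft]
variable [IsAlgClosed K] [FF1 K F] [IsAlgClosed k] [FF1 k Ft]
variable {V : VFF A π F Ft} {y : F} {yt : Ft}

/-- **Specialisation of principal divisors.** -/
theorem IsChart.exists_center_ord (hc : IsChart V y yt) {W : F} {Wt : Ft} (hW : V.Red W Wt)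
    (hWt : Wt ≠ 0) (c : k) {v₀ : Place K F} (hv₀d : InDisc π y c v₀) :
    ∃ Q : Place k Ft, Over yt c Q ∧
      Q.ord Wt = ∑ᶠ (v : Place K F) (_ : Rel A y v v₀), v.ord W := by
  classical
  have hπ := V.π_surjective
  have pc := hc.pre
  have hW0 : W ≠ 0 := hW.ne_zero hWt
  -- uniformisers
  have hZ' : ∀ Q : Place k Ft, ∃ (Z : F) (Zt : Ft), Over yt c Q → (IntA A y Z ∧ V.Red Z Zt ∧
      Q.ord Zt = 1 ∧ ∀ Q' : Place k Ft, Over yt c Q' → Q' ≠ Q → Q'.ord Zt = 0) := by
    intro Q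
    by_cases hQ : Over yt c Q
    · obtain ⟨Z, Zt, h⟩ := hc.exists_unif hQ
      exact ⟨Z, Zt, fun _ => h⟩
    · exact ⟨0, 0, fun h => absurd h hQ⟩
  choose Z Zt hZ using hZ'
  -- centres
  have hcen' : ∀ v : Place K F, ∃ Q : Place k Ft, InDisc π y c v → (Over yt c Q ∧
      ∀ (b : F) (bt : Ft), IntA A y b → V.Red b bt → val Q bt = res π (val v b)) := by
    intro v
    by_cases hv : InDisc π y c v
    · obtain ⟨Q, hQ, h⟩ := pc.exists_center hv.1
      rw [hv.2] at hQ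
      exact ⟨Q, fun _ => ⟨hQ, h⟩⟩
    · obtain ⟨Q, -⟩ := exists_over hc.trans c
      exact ⟨Q, fun h => absurd h hv⟩
  choose cen hcen using hcen'
  have hZt0 : ∀ Q : Place k Ft, Over yt c Q → Zt Q ≠ 0 := by
    intro Q hQ h0
    have := (hZ Q hQ).2.2.1
    rw [h0, Place.ord_zero] at this
    exact zero_ne_one this
  -- values of the uniformisers
  have key1 : ∀ v : Place K F, InDisc π y c v → res π (val v (Z (cen v))) = 0 := by
    intro v hv
    have hQ := (hcen v hv).1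
    rw [← (hcen v hv).2 _ _ (hZ _ hQ).1 (hZ _ hQ).2.1]
    exact val_eq_zero_of_van _ (van_of_ord_pos _ (by rw [(hZ _ hQ).2.2.1]; exact one_pos))
  have key2 : ∀ v : Place K F, InDisc π y c v → ∀ Q : Place k Ft, Over yt c Q → cen v ≠ Q →
      res π (val v (Z Q)) ≠ 0 := by
    intro v hv Q hQ hne
    rw [← (hcen v hv).2 _ _ (hZ _ hQ).1 (hZ _ hQ).2.1]
    have h0 := (hZ _ hQ).2.2.2 (cen v) (hcen v hv).1 hne
    have hreg : Reg (cen v) (Zt Q) := (reg_iff_ord _).2 h0.ge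
    rw [Ne, val_eq_zero_iff _ hreg, van_iff_ord]
    rintro (h | h)
    · exact hZt0 Q hQ h
    · omega
  have relIff : ∀ v v₀ : Place K F, InDisc π y c v → InDisc π y c v₀ →
      (Rel A y v v₀ ↔ cen v = cen v₀) := by
    intro v v₀ hv hv₀
    constructor
    · intro h
      by_contra hne
      have h1 := ((rel_iff_res hπ).1 h).2.2 (Z (cen v₀)) (hZ _ (hcen v₀ hv₀).1).1
      rw [key1 v₀ hv₀] at h1
      exact key2 v hv _ (hcen v₀ hv₀).1 hne h1
    · intro h
      refine pc.rel_of_center hv.1 hv₀.1 (Q := cen v) (hcen v hv).2 ?_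
      rw [h]
      exact (hcen v₀ hv₀).2
  -- local equations
  set g : Place K F → F := fun v => Z (cen v) - algebraMap K F (val v (Z (cen v))) with hg
  have hgred : ∀ v : Place K F, InDisc π y c v → V.Red (g v) (Zt (cen v)) := by
    intro v hv
    have hQ := (hcen v hv).1
    have h1 := (hZ _ hQ).2.1.sub (V.red_const ((hZ _ hQ).1.val_mem hv.1))
    rwa [key1 v hv, map_zero, sub_zero] at h1
  have hgord : ∀ v : Place K F, InDisc π y c v → v.ord (g v) = 1 ∧
      ∀ v' : Place K F, InDisc π y c v' → v' ≠ v → v'.ord (g v) = 0 := by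
    intro v hv
    have hQ := (hcen v hv).1
    exact pc.localEq hQ (hZ _ hQ).1 (hZ _ hQ).2.1 (hZ _ hQ).2.2.1 (hZ _ hQ).2.2.2 hv (key1 v hv)
  -- the support of `W` in the disc
  have hfin : {v : Place K F | InDisc π y c v ∧ v.ord W ≠ 0}.Finite :=
    (finite_ord_ne_zero (Ω := K) hW0).subset fun v hv => hv.2
  set S : Finset (Place K F) := hfin.toFinset with hS
  have hSmem : ∀ v, v ∈ S ↔ InDisc π y c v ∧ v.ord W ≠ 0 := fun v => by simp [hS]
  have hg0 : ∀ v ∈ S, g v ≠ 0 := fun v hv =>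
    (hgred v ((hSmem v).1 hv).1).ne_zero (hZt0 _ (hcen v ((hSmem v).1 hv).1).1)
  have hZ0 : ∀ v ∈ S, Zt (cen v) ≠ 0 := fun v hv => hZt0 _ (hcen v ((hSmem v).1 hv).1).1
  have hred' : V.Red (W * ∏ v ∈ S, g v ^ (- v.ord W)) (Wt * ∏ v ∈ S, Zt (cen v) ^ (- v.ord W)) :=
    hW.mul (V.red_prod S _ _ fun v hv => (hgred v ((hSmem v).1 hv).1).zpow (hZ0 v hv) _)
  have hP0 : ∏ v ∈ S, g v ^ (- v.ord W) ≠ 0 :=
    Finset.prod_ne_zero_iff.mpr fun v hv => zpow_ne_zero _ (hg0 v hv)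
  have hPt0 : ∏ v ∈ S, Zt (cen v) ^ (- v.ord W) ≠ 0 :=
    Finset.prod_ne_zero_iff.mpr fun v hv => zpow_ne_zero _ (hZ0 v hv)
  have hord' : ∀ v' : Place K F, InDisc π y c v' → v'.ord (W * ∏ v ∈ S, g v ^ (- v.ord W)) = 0 := by
    intro v' hv'
    rw [v'.ord_mul hW0 hP0, ord_prod_zpow v' S g hg0]
    have h1 : ∀ v ∈ S, - v.ord W * v'.ord (g v) = if v = v' then - v'.ord W else 0 := by
      intro v hv
      split_ifs with h
      · subst h
        rw [(hgord v hv').1, mul_one]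
      · rw [(hgord v ((hSmem v).1 hv).1).2 v' hv' (Ne.symm h), mul_zero]
    rw [Finset.sum_congr rfl h1, Finset.sum_ite_eq']
    split_ifs with h
    · ring
    · have : v'.ord W = 0 := by
        by_contra h0
        exact h ((hSmem v').2 ⟨hv', h0⟩)
      rw [this, add_zero]
  refine ⟨cen v₀, (hcen v₀ hv₀d).1, ?_⟩
  set Q := cen v₀ with hQdef
  have hQ : Over yt c Q := (hcen v₀ hv₀d).1
  have hfinal := pc.ord_red_eq_zero hred' (mul_ne_zero hWt hPt0) c hord' Q hQ
  rw [Q.ord_mul hWt hPt0, ord_prod_zpow Q S (fun v => Zt (cen v)) hZ0] at hfinal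
  have h2 : ∀ v ∈ S, - v.ord W * Q.ord (Zt (cen v)) = if cen v = Q then - v.ord W else 0 := by
    intro v hv
    have hQv := (hcen v ((hSmem v).1 hv).1).1
    split_ifs with h
    · rw [← h, (hZ _ hQv).2.2.1, mul_one]
    · rw [(hZ _ hQv).2.2.2 Q hQ (Ne.symm h), mul_zero]
  rw [Finset.sum_congr rfl h2, ← Finset.sum_filter, Finset.sum_neg_distrib] at hfinal
  have h3 : ∑ᶠ (v : Place K F) (_ : Rel A y v v₀), v.ord W
      = ∑ v ∈ S.filter (fun v => cen v = Q), v.ord W := by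
    refine finsum_mem_eq_sum_of_inter_support_eq (s := {v | Rel A y v v₀}) _ ?_
    ext v
    simp only [Set.mem_inter_iff, Set.mem_ofPred_eq, Function.mem_support, Finset.coe_filter,
      and_congr_left_iff]
    intro hv0
    constructor
    · intro hrel
      have hvd := hrel.inDisc hπ hv₀d
      exact ⟨(hSmem v).2 ⟨hvd, hv0⟩, (relIff v v₀ hvd hv₀d).1 hrel⟩
    · rintro ⟨hvS, hcv⟩
      exact (relIff v v₀ ((hSmem v).1 hvS).1 hv₀d).2 hcv
  rw [h3]
  linarith

/-- **Converse of KL.** -/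
theorem IsChart.sum_ord_eq_zero_of_red_one (hc : IsChart V y yt) {G : F} (hG : V.Red G 1)
    {v₀ : Place K F} (hv₀ : InChart A y v₀) :
    ∑ᶠ (v : Place K F) (_ : Rel A y v v₀), v.ord G = 0 := by
  obtain ⟨Q, -, hQ⟩ := hc.exists_center_ord hG one_ne_zero (res π (val v₀ y)) ⟨hv₀, rfl⟩
  rw [← hQ, Place.ord_one]

theorem clsDeg_eq_zero_of_red_one (hc : IsChart V y yt) {G : F} (hG : V.Red G 1)
    (D : Divisor K F) (hD : ∀ v : Place K F, D v = v.ord G) {v₀ : Place K F}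
    (hv₀ : InChart A y v₀) : clsDeg A y v₀ D = 0 := by
  rw [clsDeg_eq_finsum]
  simpa only [hD] using hc.sum_ord_eq_zero_of_red_one hG hv₀

/-- the sum of the orders over a residue class is additive. -/
theorem finsum_rel_ord_mul (y : F) (v₀ : Place K F) {f g : F} (hf : f ≠ 0) (hg : g ≠ 0) :
    ∑ᶠ (v : Place K F) (_ : Rel A y v v₀), v.ord (f * g)
      = (∑ᶠ (v : Place K F) (_ : Rel A y v v₀), v.ord f)
        + ∑ᶠ (v : Place K F) (_ : Rel A y v v₀), v.ord g := by
  have h1 : ∀ v : Place K F, v.ord (f * g) = v.ord f + v.ord g := fun v => v.ord_mul hf hg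
  simp_rw [h1]
  exact finsum_mem_add_distrib' (s := {v | Rel A y v v₀})
    ((finite_ord_ne_zero (Ω := K) hf).subset fun v hv => hv.2)
    ((finite_ord_ne_zero (Ω := K) hg).subset fun v hv => hv.2)

theorem finsum_rel_ord_const_mul (y : F) (v₀ : Place K F) {c : K} (hc : c ≠ 0) (g : F) :
    ∑ᶠ (v : Place K F) (_ : Rel A y v v₀), v.ord (algebraMap K F c * g)
      = ∑ᶠ (v : Place K F) (_ : Rel A y v v₀), v.ord g := by
  have h1 : ∀ v : Place K F, v.ord (algebraMap K F c * g) = v.ord g := by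
    intro v
    by_cases hg : g = 0
    · rw [hg, mul_zero]
    · rw [v.ord_mul (by simpa using hc) hg, Fermat.Agent.S24.FF.ord_algebraMap, zero_add]
  simp_rw [h1]

theorem dvd_finsum_rel_ord (y : F) (v₀ : Place K F) {f : F} (hf : f ≠ 0) (m : ℤ)
    (h : ∀ v : Place K F, m ∣ v.ord f) :
    m ∣ ∑ᶠ (v : Place K F) (_ : Rel A y v v₀), v.ord f := by
  classical
  have hfin : ({v | Rel A y v v₀} ∩ Function.support fun v : Place K F => v.ord f).Finite :=
    (finite_ord_ne_zero (Ω := K) hf).subset fun v hv => hv.2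
  have h1 : ∑ᶠ (v : Place K F) (_ : Rel A y v v₀), v.ord f = ∑ v ∈ hfin.toFinset, v.ord f :=
    finsum_mem_eq_sum (s := {v | Rel A y v v₀}) _ hfin
  rw [h1]
  exact Finset.dvd_sum fun v _ => h v

/-- **The divisibility trick.** -/
theorem const_of_divisible (V : VFF A π F Ft) {y : F} {yt : Ft} (h₀ : IsChart V y yt)
    (h₁ : IsChart V y⁻¹ yt⁻¹) {W : F} (hW : W ≠ 0) {p : ℕ} (hp : 2 ≤ p)
    (H : ∀ n : ℕ, ∃ W' G : F, W' ≠ 0 ∧ W = W' * G ∧ (∀ v : Place K F, (p ^ n : ℤ) ∣ v.ord W') ∧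
      ∃ c : K, c ≠ 0 ∧ V.Red (algebraMap K F c * G) 1) :
    ∃ c : K, c ≠ 0 ∧ V.Red (algebraMap K F c * W) 1 := by
  have key : ∀ (z : F) (zt : Ft), IsChart V z zt → ∀ v₀ : Place K F, InChart A z v₀ →
      ∑ᶠ (v : Place K F) (_ : Rel A z v v₀), v.ord W = 0 := by
    intro z zt hz v₀ hv₀
    have hdvd : ∀ n : ℕ, (p ^ n : ℤ) ∣ ∑ᶠ (v : Place K F) (_ : Rel A z v v₀), v.ord W := by
      intro n
      obtain ⟨W', G, hW', rfl, hdiv, c, hc, hG⟩ := H n
      have hG0 : G ≠ 0 := right_ne_zero_of_mul hW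
      rw [finsum_rel_ord_mul z v₀ hW' hG0, ← finsum_rel_ord_const_mul z v₀ hc G,
        hz.sum_ord_eq_zero_of_red_one hG hv₀, add_zero]
      exact dvd_finsum_rel_ord z v₀ hW' _ hdiv
    set s := ∑ᶠ (v : Place K F) (_ : Rel A z v v₀), v.ord W with hs
    by_contra hs0
    have h1 := Int.natAbs_dvd_natAbs.2 (hdvd s.natAbs)
    have h2 : p ^ s.natAbs ≤ s.natAbs := by
      have h3 := Nat.le_of_dvd (Int.natAbs_pos.2 hs0) h1
      simpa [Int.natAbs_pow] using h3
    exact absurd h2 (not_le.2 (Nat.lt_pow_self hp))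
  exact KL V h₀ h₁ hW (fun v₀ hv₀ => key y yt h₀ v₀ hv₀) (fun v₀ hv₀ => key _ _ h₁ v₀ hv₀.1)

end Fermat.Agent.S37.Red
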