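import Fermat.Agent.S37.Red.Defs

/-!
# S37 / Red : elementary API of `VFF`, `V.Red`, `res`, `IntK`, `IntA`

Everything here is formal (5-10 lines each).
* `ker V.red = m_O` and `ker π = m_A` because `red`, `π` are surjective ring homs from local rings onto fields.
* `IntK`, `IntA` are `RingHom.IsIntegralElem`: use `RingHom.IsIntegralElem.add/mul/neg/sub`,
  `RingHom.isIntegralElem_map`.
-/

set_option autoImplicit false
set_option linter.dupNamespace false

namespace Fermat.Agent.S37.Red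

open AlgebraicCurve Fermat.Agent.S26 Polynomial IntermediateField

variable {K k : Type*} [Field K] [Field k] {A : ValuationSubring K} {π : A →+* k}
variable {F Ft : Type*} [Field F] [Field Ft] [Algebra K F] [Algebra k Ft]

/-! ### `res` -/

theorem res_of_mem {c : K} (h : c ∈ A) : res π c = π ⟨c, h⟩ := by
  rw [res, dif_pos h]

theorem res_of_not_mem {c : K} (h : c ∉ A) : res π c = 0 := by
  rw [res, dif_neg h]

@[simp] theorem res_zero : res π 0 = 0 := by
  rw [res_of_mem (zero_mem A)]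
  exact map_zero π

@[simp] theorem res_one : res π 1 = 1 := by
  rw [res_of_mem (one_mem A)]
  exact map_one π

theorem res_add {c d : K} (hc : c ∈ A) (hd : d ∈ A) : res π (c + d) = res π c + res π d := by
  rw [res_of_mem hc, res_of_mem hd, res_of_mem (add_mem hc hd), ← map_add]
  rfl

theorem res_sub {c d : K} (hc : c ∈ A) (hd : d ∈ A) : res π (c - d) = res π c - res π d := by
  rw [res_of_mem hc, res_of_mem hd, res_of_mem (sub_mem hc hd), ← map_sub]
  rfl

theorem res_neg {c : K} (hc : c ∈ A) : res π (-c) = - res π c := by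
  rw [res_of_mem hc, res_of_mem (neg_mem hc), ← map_neg]
  rfl

theorem res_mul {c d : K} (hc : c ∈ A) (hd : d ∈ A) : res π (c * d) = res π c * res π d := by
  rw [res_of_mem hc, res_of_mem hd, res_of_mem (mul_mem hc hd), ← map_mul]
  rfl

theorem res_pow {c : K} (hc : c ∈ A) (n : ℕ) : res π (c ^ n) = res π c ^ n := by
  rw [res_of_mem hc, res_of_mem (pow_mem hc n), ← map_pow]
  rfl

theorem res_prod {ι : Type*} (s : Finset ι) (c : ι → K) (h : ∀ i ∈ s, c i ∈ A) :
    res π (∏ i ∈ s, c i) = ∏ i ∈ s, res π (c i) := by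
  classical
  induction s using Finset.induction_on with
  | empty => simp
  | insert a s ha ih =>
    rw [Finset.prod_insert ha, Finset.prod_insert ha,
      res_mul (h a (Finset.mem_insert_self a s))
        (prod_mem fun i hi => h i (Finset.mem_insert_of_mem hi)),
      ih fun i hi => h i (Finset.mem_insert_of_mem hi)]

theorem eval_map_subtype_eq (q : Polynomial A) (a : A) :
    (q.map A.subtype).eval (a : K) = ((q.eval a : A) : K) := by
  have h := Polynomial.eval_map_apply (p := q) A.subtype a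
  exact h

theorem eval_map_subtype_mem (q : Polynomial A) {a : K} (ha : a ∈ A) :
    (q.map A.subtype).eval a ∈ A := by
  have h := eval_map_subtype_eq q ⟨a, ha⟩
  rw [show ((⟨a, ha⟩ : A) : K) = a from rfl] at h
  rw [h]
  exact Subtype.property _

theorem res_eval (q : Polynomial A) {a : K} (ha : a ∈ A) :
    res π ((q.map A.subtype).eval a) = (q.map π).eval (res π a) := by
  have h := eval_map_subtype_eq q ⟨a, ha⟩
  rw [show ((⟨a, ha⟩ : A) : K) = a from rfl] at h
  rw [h, res_of_mem (Subtype.property _), res_of_mem ha, Polynomial.eval_map_apply]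

section surj

variable (hπ : Function.Surjective π)
include hπ

theorem exists_res_eq (c : k) : ∃ a : K, a ∈ A ∧ res π a = c := by
  obtain ⟨a, rfl⟩ := hπ c
  exact ⟨a, a.2, res_of_mem a.2⟩

theorem map_eq_zero_iff_not_isUnit (a : A) : π a = 0 ↔ ¬ IsUnit a := by
  constructor
  · intro h hu
    have := hu.map π
    rw [h] at this
    exact not_isUnit_zero this
  · intro h
    have h1 : RingHom.ker π = IsLocalRing.maximalIdeal A :=
      IsLocalRing.eq_maximalIdeal (RingHom.ker_isMaximal_of_surjective π hπ)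
    have h2 : a ∈ IsLocalRing.maximalIdeal A := (IsLocalRing.mem_maximalIdeal a).2 h
    rw [← h1] at h2
    exact h2

theorem res_eq_zero_iff {c : K} (hc : c ∈ A) : res π c = 0 ↔ c ∈ A.nonunits := by
  rw [res_of_mem hc, map_eq_zero_iff_not_isUnit hπ, ValuationSubring.mem_nonunits_iff_exists_mem_maximalIdeal]
  constructor
  · intro h
    exact ⟨hc, (IsLocalRing.mem_maximalIdeal _).2 h⟩
  · rintro ⟨_, h⟩
    exact (IsLocalRing.mem_maximalIdeal _).1 h

theorem res_eq_res_iff {c d : K} (hc : c ∈ A) (hd : d ∈ A) :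
    res π c = res π d ↔ c - d ∈ A.nonunits := by
  rw [← res_eq_zero_iff hπ (sub_mem hc hd), res_sub hc hd, sub_eq_zero]

/-- if `res c ≠ 0` then `c⁻¹ ∈ A`. -/
theorem inv_mem_of_res_ne_zero {c : K} (h : res π c ≠ 0) : c ∈ A ∧ c⁻¹ ∈ A := by
  have hc : c ∈ A := by
    by_contra hc
    exact h (res_of_not_mem hc)
  refine ⟨hc, ?_⟩
  rw [res_of_mem hc, Ne, map_eq_zero_iff_not_isUnit hπ, not_not] at h
  obtain ⟨u, hu⟩ := h
  have h1 : c * ((u⁻¹ : Aˣ) : A) = 1 := by
    have h2 : ((u : A) : K) = c := by rw [hu]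
    rw [← h2]
    exact_mod_cast congrArg (Subtype.val) u.mul_inv
  rw [← eq_inv_of_mul_eq_one_right h1]
  exact Subtype.property _

theorem res_inv {c : K} (h : res π c ≠ 0) : res π c⁻¹ = (res π c)⁻¹ := by
  obtain ⟨hc, hc'⟩ := inv_mem_of_res_ne_zero hπ h
  have hc0 : c ≠ 0 := by
    rintro rfl
    exact h res_zero
  refine eq_inv_of_mul_eq_one_left ?_
  rw [← res_mul hc' hc, inv_mul_cancel₀ hc0, res_one]

end surj

theorem mem_of_mem_nonunits {c : K} (h : c ∈ A.nonunits) : c ∈ A := by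
  exact A.nonunits_subset h

/-- `c ∉ A → c⁻¹ ∈ m_A`. -/
theorem inv_mem_nonunits_of_not_mem {c : K} (h : c ∉ A) : c⁻¹ ∈ A.nonunits := by
  rw [ValuationSubring.mem_nonunits_iff, map_inv₀]
  rw [← A.valuation_le_one_iff, not_le] at h
  exact inv_lt_one_of_one_lt₀ h

/-! ### `V.Red` -/

variable (V : VFF A π F Ft)

theorem VFF.Red.mem {V : VFF A π F Ft} {f : F} {g : Ft} (h : V.Red f g) : f ∈ V.O := h.1

theorem VFF.Red.unique {V : VFF A π F Ft} {f : F} {g g' : Ft} (h : V.Red f g) (h' : V.Red f g') :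
    g = g' := by
  obtain ⟨h1, rfl⟩ := h
  obtain ⟨h2, rfl⟩ := h'
  rfl

theorem VFF.exists_red {f : F} (hf : f ∈ V.O) : ∃ g : Ft, V.Red f g := ⟨_, hf, rfl⟩

theorem VFF.exists_lift (g : Ft) : ∃ f : F, V.Red f g := by
  obtain ⟨f, rfl⟩ := V.red_surjective g
  exact ⟨f, f.2, rfl⟩

theorem VFF.red_zero : V.Red 0 0 := by
  exact ⟨zero_mem _, map_zero V.red⟩

theorem VFF.red_one : V.Red 1 1 := by
  exact ⟨one_mem _, map_one V.red⟩

theorem VFF.Red.add {V : VFF A π F Ft} {f f' : F} {g g' : Ft} (h : V.Red f g) (h' : V.Red f' g') :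
    V.Red (f + f') (g + g') := by
  obtain ⟨h1, rfl⟩ := h
  obtain ⟨h2, rfl⟩ := h'
  exact ⟨add_mem h1 h2, map_add V.red ⟨f, h1⟩ ⟨f', h2⟩⟩

theorem VFF.Red.sub {V : VFF A π F Ft} {f f' : F} {g g' : Ft} (h : V.Red f g) (h' : V.Red f' g') :
    V.Red (f - f') (g - g') := by
  obtain ⟨h1, rfl⟩ := h
  obtain ⟨h2, rfl⟩ := h'
  exact ⟨sub_mem h1 h2, map_sub V.red ⟨f, h1⟩ ⟨f', h2⟩⟩

theorem VFF.Red.neg {V : VFF A π F Ft} {f : F} {g : Ft} (h : V.Red f g) : V.Red (-f) (-g) := by
  obtain ⟨h1, rfl⟩ := h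
  exact ⟨neg_mem h1, map_neg V.red ⟨f, h1⟩⟩

theorem VFF.Red.mul {V : VFF A π F Ft} {f f' : F} {g g' : Ft} (h : V.Red f g) (h' : V.Red f' g') :
    V.Red (f * f') (g * g') := by
  obtain ⟨h1, rfl⟩ := h
  obtain ⟨h2, rfl⟩ := h'
  exact ⟨mul_mem h1 h2, map_mul V.red ⟨f, h1⟩ ⟨f', h2⟩⟩

theorem VFF.Red.pow {V : VFF A π F Ft} {f : F} {g : Ft} (h : V.Red f g) (n : ℕ) :
    V.Red (f ^ n) (g ^ n) := by
  obtain ⟨h1, rfl⟩ := h
  exact ⟨pow_mem h1 n, map_pow V.red ⟨f, h1⟩ n⟩

theorem VFF.red_sum {ι : Type*} (s : Finset ι) (f : ι → F) (g : ι → Ft)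
    (h : ∀ i ∈ s, V.Red (f i) (g i)) : V.Red (∑ i ∈ s, f i) (∑ i ∈ s, g i) := by
  classical
  induction s using Finset.induction_on with
  | empty => simpa using V.red_zero
  | insert a s ha ih =>
    rw [Finset.sum_insert ha, Finset.sum_insert ha]
    exact (h a (Finset.mem_insert_self a s)).add (ih fun i hi => h i (Finset.mem_insert_of_mem hi))

theorem VFF.red_prod {ι : Type*} (s : Finset ι) (f : ι → F) (g : ι → Ft)
    (h : ∀ i ∈ s, V.Red (f i) (g i)) : V.Red (∏ i ∈ s, f i) (∏ i ∈ s, g i) := by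
  classical
  induction s using Finset.induction_on with
  | empty => simpa using V.red_one
  | insert a s ha ih =>
    rw [Finset.prod_insert ha, Finset.prod_insert ha]
    exact (h a (Finset.mem_insert_self a s)).mul (ih fun i hi => h i (Finset.mem_insert_of_mem hi))

/-- `ker red = m_O`. -/
theorem VFF.red_zero_iff {f : F} : V.Red f 0 ↔ f ∈ V.O.nonunits := by
  rw [ValuationSubring.mem_nonunits_iff_exists_mem_maximalIdeal]
  constructor
  · rintro ⟨h, h0⟩
    exact ⟨h, (IsLocalRing.mem_maximalIdeal _).2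
      ((map_eq_zero_iff_not_isUnit V.red_surjective _).1 h0)⟩
  · rintro ⟨h, h0⟩
    exact ⟨h, (map_eq_zero_iff_not_isUnit V.red_surjective _).2
      ((IsLocalRing.mem_maximalIdeal _).1 h0)⟩

theorem VFF.Red.ne_zero {V : VFF A π F Ft} {f : F} {g : Ft} (h : V.Red f g) (hg : g ≠ 0) : f ≠ 0 := by
  rintro rfl
  exact hg (h.unique V.red_zero)

theorem VFF.Red.inv {V : VFF A π F Ft} {f : F} {g : Ft} (h : V.Red f g) (hg : g ≠ 0) :
    V.Red f⁻¹ g⁻¹ := by
  have hf0 : f ≠ 0 := h.ne_zero hg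
  have hmem : f⁻¹ ∈ V.O := by
    by_contra hcon
    have h1 : f ∈ V.O.nonunits := by
      have := inv_mem_nonunits_of_not_mem hcon
      rwa [inv_inv] at this
    exact hg (h.unique (V.red_zero_iff.2 h1))
  obtain ⟨g', hg'⟩ := V.exists_red hmem
  have h1 : V.Red (f⁻¹ * f) (g' * g) := hg'.mul h
  rw [inv_mul_cancel₀ hf0] at h1
  have h2 : g' * g = 1 := h1.unique V.red_one
  rw [← eq_inv_of_mul_eq_one_left h2]
  exact hg'

theorem VFF.Red.zpow {V : VFF A π F Ft} {f : F} {g : Ft} (h : V.Red f g) (hg : g ≠ 0) (n : ℤ) :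
    V.Red (f ^ n) (g ^ n) := by
  cases n with
  | ofNat n =>
    simpa using h.pow n
  | negSucc n =>
    rw [zpow_negSucc, zpow_negSucc]
    exact (h.pow (n + 1)).inv (pow_ne_zero _ hg)

theorem VFF.Red.div {V : VFF A π F Ft} {f f' : F} {g g' : Ft} (h : V.Red f g) (h' : V.Red f' g')
    (hg' : g' ≠ 0) : V.Red (f / f') (g / g') := by
  rw [div_eq_mul_inv, div_eq_mul_inv]
  exact h.mul (h'.inv hg')

theorem VFF.red_inv_zero_of_not_mem {f : F} (hf : f ∉ V.O) : V.Red f⁻¹ 0 := by
  exact V.red_zero_iff.2 (inv_mem_nonunits_of_not_mem hf)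

theorem VFF.red_const {a : K} (ha : a ∈ A) :
    V.Red (algebraMap K F a) (algebraMap k Ft (res π a)) := by
  rw [res_of_mem ha]
  exact ⟨(V.algebraMap_mem_iff a).2 ha, V.red_algebraMap ⟨a, ha⟩ _⟩

theorem VFF.red_aeval {y : F} {yt : Ft} (hy : V.Red y yt) (q : Polynomial A) :
    V.Red (aeval y (q.map A.subtype)) (aeval yt (q.map π)) := by
  rw [aeval_eq_sum_range' (n := q.natDegree + 1)
      (lt_of_le_of_lt (natDegree_map_le) (Nat.lt_succ_self _)),
    aeval_eq_sum_range' (n := q.natDegree + 1)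
      (lt_of_le_of_lt (natDegree_map_le) (Nat.lt_succ_self _))]
  refine V.red_sum _ _ _ fun i _ => ?_
  rw [coeff_map, coeff_map, Algebra.smul_def, Algebra.smul_def]
  refine VFF.Red.mul ?_ (hy.pow i)
  have h := V.red_const (q.coeff i).2
  rw [res_of_mem (q.coeff i).2] at h
  exact h

theorem VFF.exists_scale' {f : F} (hf : f ≠ 0) :
    ∃ (c : K) (g : Ft), c ≠ 0 ∧ g ≠ 0 ∧ V.Red (algebraMap K F c * f) g := by
  obtain ⟨c, hc, h, hr⟩ := V.exists_scale f hf
  exact ⟨c, _, hc, hr, h, rfl⟩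

/-- an element of `m_O` is (an element of `m_A`) times (a unit of `O`). -/
theorem VFF.exists_eq_mul_of_red_zero {f : F} (h : V.Red f 0) (hf : f ≠ 0) :
    ∃ (a : K) (f' : F) (g' : Ft), a ∈ A.nonunits ∧ a ≠ 0 ∧ g' ≠ 0 ∧ V.Red f' g' ∧
      f = algebraMap K F a * f' := by
  obtain ⟨c, g, hc, hg, hr⟩ := V.exists_scale' hf
  have hcF : algebraMap K F c ≠ 0 := (_root_.map_ne_zero _).2 hc
  refine ⟨c⁻¹, algebraMap K F c * f, g, ?_, inv_ne_zero hc, hg, hr, ?_⟩
  · apply inv_mem_nonunits_of_not_mem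
    intro hcA
    have h1 := (V.red_const hcA).mul h
    rw [mul_zero] at h1
    exact hg (hr.unique h1)
  · rw [map_inv₀, inv_mul_cancel_left₀ hcF]

/-! ### `IntK`, `IntA` -/

/-- a valuation subring is integrally closed (relative form for `RingHom.IsIntegralElem`). -/
theorem mem_valuationSubring_of_isIntegralElem {R L : Type*} [CommRing R] [Field L]
    (O : ValuationSubring L) (f : R →+* L) (hf : ∀ r, f r ∈ O) {z : L} (hz : f.IsIntegralElem z) :
    z ∈ O := by
  obtain ⟨P, hP, hz⟩ := hz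
  let g : R →+* O := f.codRestrict O.toSubring hf
  have hg : (algebraMap O L).comp g = f := by
    ext r
    rfl
  have hint : IsIntegral O z := by
    refine ⟨P.map g, hP.map g, ?_⟩
    rw [eval₂_map, hg]
    exact hz
  obtain ⟨w, hw⟩ := (IsIntegrallyClosed.isIntegral_iff (R := O) (K := L)).1 hint
  rw [← hw]
  exact w.2

section IntK

variable {Ω 𝕃 : Type*} [Field Ω] [Field 𝕃] [Algebra Ω 𝕃] {x : 𝕃}

theorem intK_aeval (p : Polynomial Ω) : IntK Ω x (aeval x p) := by
  exact RingHom.isIntegralElem_map (evK Ω x) (x := p)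

theorem intK_self : IntK Ω x x := by
  have h := intK_aeval (Ω := Ω) (x := x) (X : Polynomial Ω)
  rwa [aeval_X] at h

theorem intK_algebraMap (c : Ω) : IntK Ω x (algebraMap Ω 𝕃 c) := by
  have h := intK_aeval (Ω := Ω) (x := x) (C c : Polynomial Ω)
  rwa [aeval_C] at h

theorem intK_zero : IntK Ω x (0 : 𝕃) := by
  exact RingHom.isIntegralElem_zero _

theorem intK_one : IntK Ω x (1 : 𝕃) := by
  exact RingHom.isIntegralElem_one _

theorem IntK.add {z w : 𝕃} (hz : IntK Ω x z) (hw : IntK Ω x w) : IntK Ω x (z + w) := by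
  exact RingHom.IsIntegralElem.add _ hz hw

theorem IntK.sub {z w : 𝕃} (hz : IntK Ω x z) (hw : IntK Ω x w) : IntK Ω x (z - w) := by
  exact RingHom.IsIntegralElem.sub _ hz hw

theorem IntK.neg {z : 𝕃} (hz : IntK Ω x z) : IntK Ω x (-z) := by
  exact RingHom.IsIntegralElem.neg _ hz

theorem IntK.mul {z w : 𝕃} (hz : IntK Ω x z) (hw : IntK Ω x w) : IntK Ω x (z * w) := by
  exact RingHom.IsIntegralElem.mul _ hz hw

theorem IntK.pow {z : 𝕃} (hz : IntK Ω x z) (n : ℕ) : IntK Ω x (z ^ n) := by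
  induction n with
  | zero => rw [pow_zero]; exact intK_one
  | succ n ih => rw [pow_succ]; exact ih.mul hz

theorem intK_prod {ι : Type*} (s : Finset ι) (z : ι → 𝕃) (h : ∀ i ∈ s, IntK Ω x (z i)) :
    IntK Ω x (∏ i ∈ s, z i) := by
  classical
  induction s using Finset.induction_on with
  | empty => rw [Finset.prod_empty]; exact intK_one
  | insert a s ha ih =>
    rw [Finset.prod_insert ha]
    exact (h a (Finset.mem_insert_self a s)).mul
      (ih fun i hi => h i (Finset.mem_insert_of_mem hi))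

/-- `IntK` in terms of Mathlib's `IsIntegral` over the subalgebra `Ω[x]`. -/
theorem intK_iff_isIntegral {z : 𝕃} : IntK Ω x z ↔ IsIntegral (Algebra.adjoin Ω {x}) z := by
  -- the map `Ω[X] → Ω[x]`
  let x' : Algebra.adjoin Ω {x} := ⟨x, Algebra.self_mem_adjoin_singleton Ω x⟩
  let φ : Polynomial Ω →+* Algebra.adjoin Ω {x} :=
    (aeval x' : Polynomial Ω →ₐ[Ω] Algebra.adjoin Ω {x}).toRingHom
  have hφ' : ∀ p : Polynomial Ω, ((φ p : Algebra.adjoin Ω {x}) : 𝕃) = aeval x p := by
    intro p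
    have h1 : ((φ p : Algebra.adjoin Ω {x}) : 𝕃)
        = (Algebra.adjoin Ω {x}).val (aeval x' p) := rfl
    rw [h1, ← aeval_algHom_apply]
    rfl
  have hφ : (algebraMap (Algebra.adjoin Ω {x}) 𝕃).comp φ = evK Ω x := by
    refine RingHom.ext fun p => ?_
    exact hφ' p
  have hsurj : Function.Surjective φ := by
    intro a
    have ha : (a : 𝕃) ∈ (aeval x : Polynomial Ω →ₐ[Ω] 𝕃).range := by
      rw [← Algebra.adjoin_singleton_eq_range_aeval]
      exact a.2
    obtain ⟨p, hp⟩ := ha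
    refine ⟨p, Subtype.ext ?_⟩
    rw [hφ' p]
    exact hp
  constructor
  · rintro ⟨P, hP, hz⟩
    refine ⟨P.map φ, hP.map φ, ?_⟩
    rw [eval₂_map, hφ]
    exact hz
  · rintro ⟨P, hP, hz⟩
    obtain ⟨Q, hQP, -, hQ⟩ :=
      lifts_and_natDegree_eq_and_monic (mem_lifts_of_surjective hsurj P) hP
    refine ⟨Q, hQ, ?_⟩
    rw [← hφ, ← eval₂_map, hQP]
    exact hz

/-- `O_v` is integrally closed and contains `Ω[x]`. -/
theorem IntK.reg {z : 𝕃} (hz : IntK Ω x z) (v : Place Ω 𝕃) (hv : Reg v x) : Reg v z := by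
  exact mem_valuationSubring_of_isIntegralElem v.toValuationSubring (evK Ω x)
    (fun p => Reg.aeval v hv p) hz

end IntK

section IntA

variable {y : F}

theorem intA_aeval (q : Polynomial A) : IntA A y (aeval y (q.map A.subtype)) := by
  exact RingHom.isIntegralElem_map (evA A y) (x := q)

theorem intA_self : IntA A y y := by
  have h := intA_aeval (A := A) (y := y) (X : Polynomial A)
  rwa [Polynomial.map_X, aeval_X] at h

theorem intA_algebraMap {a : K} (ha : a ∈ A) : IntA A y (algebraMap K F a) := by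
  have h := intA_aeval (A := A) (y := y) (C (⟨a, ha⟩ : A) : Polynomial A)
  rwa [Polynomial.map_C, aeval_C] at h

theorem intA_zero : IntA A y (0 : F) := by
  exact RingHom.isIntegralElem_zero _

theorem intA_one : IntA A y (1 : F) := by
  exact RingHom.isIntegralElem_one _

theorem IntA.add {b c : F} (hb : IntA A y b) (hc : IntA A y c) : IntA A y (b + c) := by
  exact RingHom.IsIntegralElem.add _ hb hc

theorem IntA.sub {b c : F} (hb : IntA A y b) (hc : IntA A y c) : IntA A y (b - c) := by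
  exact RingHom.IsIntegralElem.sub _ hb hc

theorem IntA.neg {b : F} (hb : IntA A y b) : IntA A y (-b) := by
  exact RingHom.IsIntegralElem.neg _ hb

theorem IntA.mul {b c : F} (hb : IntA A y b) (hc : IntA A y c) : IntA A y (b * c) := by
  exact RingHom.IsIntegralElem.mul _ hb hc

theorem IntA.pow {b : F} (hb : IntA A y b) (n : ℕ) : IntA A y (b ^ n) := by
  induction n with
  | zero => rw [pow_zero]; exact intA_one
  | succ n ih => rw [pow_succ]; exact ih.mul hb

theorem intA_prod {ι : Type*} (s : Finset ι) (b : ι → F) (h : ∀ i ∈ s, IntA A y (b i)) :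
    IntA A y (∏ i ∈ s, b i) := by
  classical
  induction s using Finset.induction_on with
  | empty => rw [Finset.prod_empty]; exact intA_one
  | insert a s ha ih =>
    rw [Finset.prod_insert ha]
    exact (h a (Finset.mem_insert_self a s)).mul
      (ih fun i hi => h i (Finset.mem_insert_of_mem hi))

theorem IntA.intK {b : F} (hb : IntA A y b) : IntK K y b := by
  exact RingHom.IsIntegralElem.of_comp (f := mapRingHom A.subtype) (g := evK K y) hb

/-- `O` is integrally closed and contains `A[y]`. -/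
theorem IntA.mem_O {b : F} (hb : IntA A y b) (hy : y ∈ V.O) : b ∈ V.O := by
  obtain ⟨yt, hyt⟩ := V.exists_red hy
  exact mem_valuationSubring_of_isIntegralElem V.O (evA A y)
    (fun q => (V.red_aeval hyt q).mem) hb

/-- apply `red` to an integral equation. -/
theorem IntA.intK_red {b : F} {yt bt : Ft} (hb : IntA A y b) (hy : V.Red y yt) (hbt : V.Red b bt) :
    IntK k yt bt := by
  obtain ⟨P, hP, hz⟩ := hb
  refine ⟨P.map (mapRingHom π), hP.map _, ?_⟩
  rw [eval₂_map, eval₂_eq_sum_range]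
  rw [eval₂_eq_sum_range] at hz
  have h1 : V.Red (∑ i ∈ Finset.range (P.natDegree + 1), evA A y (P.coeff i) * b ^ i)
      (∑ i ∈ Finset.range (P.natDegree + 1),
        ((evK k yt).comp (mapRingHom π)) (P.coeff i) * bt ^ i) := by
    refine V.red_sum _ _ _ fun i _ => ?_
    exact (V.red_aeval hy (P.coeff i)).mul (hbt.pow i)
  rw [hz] at h1
  exact h1.unique V.red_zero

end IntA

end Fermat.Agent.S37.Red
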