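import Fermat.Agent.S37.Red.Eval

/-!
# S37 / Red : the centre of a place on the special fibre
-/

set_option autoImplicit false

namespace Fermat.Agent.S37.Red

open AlgebraicCurve Fermat.Agent.S26 Polynomial IntermediateField

variable {K k : Type*} [Field K] [Field k] {A : ValuationSubring K} {π : A →+* k}
variable {F Ft : Type*} [Field F] [Field Ft] [Algebra K F] [Algebra k Ft]
variable [IsAlgClosed K] [FF1 K F] [IsAlgClosed k] [FF1 k Ft]
variable {V : VFF A π F Ft} {y : F} {yt : Ft}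

/-- the subring `{red b | b ∈ B_A(y)}` of `Ft`. -/
def centerRing (V : VFF A π F Ft) (y : F) : Subring Ft where
  carrier := {bt | ∃ b, IntA A y b ∧ V.Red b bt}
  mul_mem' := by
    rintro _ _ ⟨b, hb, h⟩ ⟨b', hb', h'⟩
    exact ⟨b * b', hb.mul hb', h.mul h'⟩
  one_mem' := ⟨1, intA_one, V.red_one⟩
  add_mem' := by
    rintro _ _ ⟨b, hb, h⟩ ⟨b', hb', h'⟩
    exact ⟨b + b', hb.add hb', h.add h'⟩
  zero_mem' := ⟨0, intA_zero, V.red_zero⟩
  neg_mem' := by
    rintro _ ⟨b, hb, h⟩
    exact ⟨-b, hb.neg, h.neg⟩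

/-- (C1) For `v` in the chart there is a place `Q` of `Ft` with `bt(Q) = res (b(v))` for all `b ∈ B_A(y)`, `bt = red b`.
Proof: `R = {bt | ∃ b, IntA A y b ∧ V.Red b bt}` is a subring of `Ft` containing `k` (`π` surjective) and `yt`; `χ : R → k`, `bt ↦ res (val v b)` is a well defined
(`res_val_congr`) ring hom with `χ 1 = 1`; `I = ker χ ≠ ⊤`.  Mathlib `Ideal.image_subset_nonunits_valuationSubring I` gives a valuation subring `B ⊇ R` with `I ⊆ B.nonunits`; `B ≠ ⊤` since
`0 ≠ yt - χ yt ∈ I`; so `B` is a place `Q` (`S26.exists_place_of_valuationSubring`).  For `bt ∈ R`: `bt - χ bt ∈ I`, i.e. `Van Q (bt - χ bt)`, so `val Q bt = χ bt` (`val_eq_of_van`).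
No normality needed. -/
theorem IsPreChart.exists_center (pc : IsPreChart V y yt) {v : Place K F} (hv : InChart A y v) :
    ∃ Q : Place k Ft, Over yt (res π (val v y)) Q ∧
      ∀ (b : F) (bt : Ft), IntA A y b → V.Red b bt → val Q bt = res π (val v b) := by
  classical
  set R := centerRing V y with hR
  have hex : ∀ r : R, ∃ b, IntA A y b ∧ V.Red b (r : Ft) := fun r => r.2
  choose β hβ hβr using hex
  have hχ : ∀ (r : R) (b : F), IntA A y b → V.Red b (r : Ft) →
      res π (val v (β r)) = res π (val v b) :=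
    fun r b hb h => pc.res_val_congr (hβ r) hb (hβr r) h hv
  let χ : R →+* k :=
    { toFun := fun r => res π (val v (β r))
      map_one' := by
        rw [hχ 1 1 intA_one V.red_one, val_one, res_one]
      map_mul' := fun r s => by
        rw [hχ (r * s) (β r * β s) ((hβ r).mul (hβ s)) ((hβr r).mul (hβr s)),
          val_mul v ((hβ r).reg hv) ((hβ s).reg hv),
          res_mul ((hβ r).val_mem hv) ((hβ s).val_mem hv)]
      map_zero' := by
        rw [hχ 0 0 intA_zero V.red_zero, val_zero, res_zero]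
      map_add' := fun r s => by
        rw [hχ (r + s) (β r + β s) ((hβ r).add (hβ s)) ((hβr r).add (hβr s)),
          val_add v ((hβ r).reg hv) ((hβ s).reg hv),
          res_add ((hβ r).val_mem hv) ((hβ s).val_mem hv)] }
  have hχ' : ∀ (r : R) (b : F), IntA A y b → V.Red b (r : Ft) → χ r = res π (val v b) := hχ
  have hI : RingHom.ker χ ≠ ⊤ := RingHom.ker_ne_top χ
  obtain ⟨B, hRB, hIB⟩ := Ideal.image_subset_nonunits_valuationSubring (RingHom.ker χ) hI
  -- constants
  have hconst : ∀ c : k, ∃ h : algebraMap k Ft c ∈ R, χ ⟨_, h⟩ = c := by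
    intro c
    obtain ⟨a, ha, rfl⟩ := exists_res_eq V.π_surjective c
    refine ⟨⟨algebraMap K F a, intA_algebraMap ha, V.red_const ha⟩, ?_⟩
    rw [hχ' _ (algebraMap K F a) (intA_algebraMap ha) (V.red_const ha), val_algebraMap]
  have hnon : ∀ r : R, (r : Ft) - algebraMap k Ft (χ r) ∈ B.nonunits := by
    intro r
    obtain ⟨h, hc⟩ := hconst (χ r)
    refine hIB ⟨r - ⟨_, h⟩, ?_, rfl⟩
    rw [SetLike.mem_coe, RingHom.mem_ker, map_sub, hc, sub_self]
  have hinv : ∀ f : Ft, f ≠ 0 → f ∈ B.nonunits → f⁻¹ ∉ B := by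
    intro f hf0 hf h2
    rw [ValuationSubring.mem_nonunits_iff] at hf
    rw [← B.valuation_le_one_iff, map_inv₀] at h2
    have h3 : B.valuation f ≠ 0 := (Valuation.ne_zero_iff _).mpr hf0
    exact absurd h2 (not_le.mpr ((one_lt_inv₀ (zero_lt_iff.mpr h3)).mpr hf))
  have hyR : yt ∈ R := ⟨y, intA_self, pc.red_y⟩
  have hBtop : B ≠ ⊤ := by
    intro htop
    have h0 : yt - algebraMap k Ft (χ ⟨yt, hyR⟩) ≠ 0 := by
      intro h0
      apply pc.trans
      rw [sub_eq_zero.mp h0]
      exact isAlgebraic_algebraMap _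
    refine hinv _ h0 (hnon ⟨yt, hyR⟩) ?_
    rw [htop]
    exact ValuationSubring.mem_top _
  obtain ⟨Q, hQ⟩ := exists_place_of_valuationSubring B (fun c => hRB (hconst c).1) hBtop
  have hvan : ∀ f : Ft, f ∈ B.nonunits → Van Q f := by
    intro f hf
    rcases eq_or_ne f 0 with rfl | hf0
    · exact van_zero Q
    · have h1 : ¬ Reg Q f⁻¹ := by
        intro h
        refine hinv f hf0 hf ?_
        rw [← hQ]
        exact h
      have := van_inv_of_not_reg Q h1
      rwa [inv_inv] at this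
  have hval : ∀ r : R, val Q (r : Ft) = χ r := fun r => val_eq_of_van Q (hvan _ (hnon r))
  refine ⟨Q, ⟨?_, ?_⟩, ?_⟩
  · show yt ∈ Q.toValuationSubring
    rw [hQ]
    exact hRB hyR
  · rw [hval ⟨yt, hyR⟩]
    exact hχ' _ y intA_self pc.red_y
  · intro b bt hb hbt
    rw [hval ⟨bt, ⟨b, hb, hbt⟩⟩]
    exact hχ' _ b hb hbt

end Fermat.Agent.S37.Red
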