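import Fermat.Agent.S37.Red.KL

/-!
# S37 / Red : the degree of a divisor on a residue class, and theorem KL in divisor form
-/

set_option autoImplicit false

namespace Fermat.Agent.S37.Red

open AlgebraicCurve Fermat.Agent.S26 Polynomial IntermediateField

section

variable {K : Type*} [Field K] (A : ValuationSubring K) {F : Type*} [Field F] [Algebra K F]

open Classical in
/-- The degree of a divisor on the residue class of `v₀` in the chart `y`. -/
noncomputable def clsDeg (y : F) (v₀ : Place K F) : Divisor K F →+ ℤ :=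
  Finsupp.liftAddHom fun v => if Rel A y v v₀ then AddMonoidHom.id ℤ else 0

open Classical in
theorem clsDeg_single (y : F) (v₀ v : Place K F) (n : ℤ) :
    clsDeg A y v₀ (Finsupp.single v n) = if Rel A y v v₀ then n else 0 := by
  rw [clsDeg, Finsupp.liftAddHom_apply_single]
  split_ifs <;> rfl

theorem clsDeg_single_of_rel {y : F} {v₀ v : Place K F} (h : Rel A y v v₀) (n : ℤ) :
    clsDeg A y v₀ (Finsupp.single v n) = n := by
  rw [clsDeg_single, if_pos h]

theorem clsDeg_single_of_not_rel {y : F} {v₀ v : Place K F} (h : ¬ Rel A y v v₀) (n : ℤ) :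
    clsDeg A y v₀ (Finsupp.single v n) = 0 := by
  rw [clsDeg_single, if_neg h]

theorem clsDeg_eq_finsum (y : F) (v₀ : Place K F) (D : Divisor K F) :
    clsDeg A y v₀ D = ∑ᶠ (v : Place K F) (_ : Rel A y v v₀), D v := by
  classical
  have h1 : clsDeg A y v₀ D = ∑ v ∈ D.support, if Rel A y v v₀ then D v else 0 := by
    rw [clsDeg, Finsupp.liftAddHom_apply, Finsupp.sum]
    refine Finset.sum_congr rfl fun v _ => ?_
    split_ifs <;> rfl
  rw [h1]
  have h2 : ∀ v : Place K F, (∑ᶠ (_ : Rel A y v v₀), D v) = if Rel A y v v₀ then D v else 0 :=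
    fun v => finsum_eq_if
  simp_rw [h2]
  rw [finsum_eq_sum_of_support_subset]
  intro v hv
  simp only [Function.mem_support, ne_eq, ite_eq_right_iff, Classical.not_imp] at hv
  simpa using hv.2

end

variable {K k : Type*} [Field K] [Field k] {A : ValuationSubring K} {π : A →+* k}
variable {F Ft : Type*} [Field F] [Field Ft] [Algebra K F] [Algebra k Ft]
variable [IsAlgClosed K] [FF1 K F] [IsAlgClosed k] [FF1 k Ft]

/-- **Theorem KL**, divisor form. -/
theorem KL' (V : VFF A π F Ft) {y : F} {yt : Ft} (h₀ : IsChart V y yt) (h₁ : IsChart V y⁻¹ yt⁻¹)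
    {W : F} (hW : W ≠ 0) (D : Divisor K F) (hD : ∀ v : Place K F, D v = v.ord W)
    (H₀ : ∀ v₀ : Place K F, InChart A y v₀ → clsDeg A y v₀ D = 0)
    (H₁ : ∀ v₀ : Place K F, InDisc π y⁻¹ 0 v₀ → clsDeg A y⁻¹ v₀ D = 0) :
    ∃ c : K, c ≠ 0 ∧ V.Red (algebraMap K F c * W) 1 := by
  refine KL V h₀ h₁ hW (fun v₀ hv₀ => ?_) (fun v₀ hv₀ => ?_)
  · have := H₀ v₀ hv₀
    rw [clsDeg_eq_finsum] at this
    simpa only [hD] using this
  · have := H₁ v₀ hv₀
    rw [clsDeg_eq_finsum] at this
    simpa only [hD] using this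

end Fermat.Agent.S37.Red
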