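import Fermat.Agent.S37.Red.Eval
import Fermat.Agent.S37.Red.NormPoly

/-!
# S37 / Red : counting zeros in a residue disc
-/

set_option autoImplicit false

namespace Fermat.Agent.S37.Red

open AlgebraicCurve Fermat.Agent.S26 Polynomial IntermediateField

variable {K k : Type*} [Field K] [Field k] {A : ValuationSubring K} {π : A →+* k}
variable {F Ft : Type*} [Field F] [Field Ft] [Algebra K F] [Algebra k Ft]
variable [IsAlgClosed K] [FF1 K F] [IsAlgClosed k] [FF1 k Ft]
variable {V : VFF A π F Ft} {y : F} {yt : Ft}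

/-- (L5) For `g ∈ B_A(y)` with `gt = red g ≠ 0`: the number of zeros of `g` in the residue disc of `c` equals the number of zeros of `gt` over `c`.
Proof. `exists_norm_poly` for `(F, y, g)`: `N g = G(y)`; for `(Ft, yt, gt)` (`IntA.intK_red`): `N gt = Gt(yt)`.  By `IsPreChart.red_norm`, `G(y) ∈ O` and `red (G(y)) = Gt(yt)`;
by `aeval_mem_O_iff`, `G = q.map A.subtype`; by `VFF.red_aeval` and transcendence of `yt`, `q.map π = Gt ≠ 0`.  Then
`∑_{v ∈ disc c} ord_v g = ∑_{a ∈ A, res a = c} ∑_{v | a} ord_v g = ∑_{a} rootMultiplicity a G = rootMultiplicity c Gt = ∑_{Q | c} ord_Q gt`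
(`finsum_rootMultiplicity_eq`; the first equality: the places of the disc are partitioned by `a = val v y`; only finitely many `v` have `ord_v g ≠ 0`: `S26.finite_ord_ne_zero`). -/
theorem IsPreChart.sum_ord_disc (pc : IsPreChart V y yt) {g : F} {gt : Ft} (hg : IntA A y g)
    (hgt : V.Red g gt) (hgt0 : gt ≠ 0) (c : k) :
    ∑ᶠ (v : Place K F) (_ : InDisc π y c v), v.ord g = ∑ᶠ (Q : Place k Ft) (_ : Over yt c Q), Q.ord gt := by
  classical
  have hy : Transcendental K y := transcendental_of_red V pc.red_y pc.trans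
  have hg0 : g ≠ 0 := hgt.ne_zero hgt0
  obtain ⟨G, hG0, hGN, hG⟩ := exists_norm_poly hy hg.intK hg0
  obtain ⟨Gt, hGt0, hGtN, hGt⟩ := exists_norm_poly pc.trans (hg.intK_red V pc.red_y hgt) hgt0
  have hN := pc.red_norm hgt
  rw [hGN, hGtN] at hN
  obtain ⟨q, hq⟩ := (aeval_mem_O_iff V pc.red_y pc.trans G).1 hN.mem
  have hq' : q.map π = Gt := by
    have h1 := V.red_aeval pc.red_y q
    rw [hq] at h1
    exact (transcendental_iff_injective.1 pc.trans) (h1.unique hN)
  rw [← hGt c, ← hq', ← finsum_rootMultiplicity_eq V.π_surjective q (by rw [hq']; exact hGt0) c, hq]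
  -- the finite set of zeros of `g` in the disc
  set S : Finset (Place K F) := (finite_ord_ne_zero hg0).toFinset.filter (fun v => InDisc π y c v)
    with hS
  have hmemS : ∀ v, v ∈ S ↔ v.ord g ≠ 0 ∧ InDisc π y c v := by
    intro v
    simp [hS]
  set T : Finset K := S.image (fun v => val v y) with hT
  have hL : ∑ᶠ (v : Place K F) (_ : InDisc π y c v), v.ord g = ∑ v ∈ S, v.ord g := by
    refine finsum_mem_eq_sum_of_subset (s := {v | InDisc π y c v}) (fun v : Place K F => v.ord g) ?_ ?_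
    · rintro v ⟨h1, h2⟩
      exact Finset.mem_coe.2 ((hmemS v).2 ⟨h2, h1⟩)
    · intro v hv
      exact ((hmemS v).1 (Finset.mem_coe.1 hv)).2
  have hfib : ∀ a : K, a ∈ A → res π a = c →
      (G.rootMultiplicity a : ℤ) = ∑ v ∈ S with val v y = a, v.ord g := by
    intro a ha hac
    rw [hG a]
    refine finsum_mem_eq_sum_of_subset (s := {v | Over y a v}) (fun v : Place K F => v.ord g) ?_ ?_
    · rintro v ⟨h1, h2⟩
      have h1' : Over y a v := h1
      refine Finset.mem_coe.2 (Finset.mem_filter.2 ⟨(hmemS v).2 ⟨h2, ⟨h1'.1, ?_⟩, ?_⟩, h1'.2⟩)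
      · rw [h1'.2]; exact ha
      · rw [h1'.2]; exact hac
    · intro v hv
      obtain ⟨hv1, hv2⟩ := Finset.mem_filter.1 (Finset.mem_coe.1 hv)
      exact ⟨((hmemS v).1 hv1).2.1.1, hv2⟩
  have hTP : ∀ a ∈ T, a ∈ A ∧ res π a = c := by
    intro a ha
    obtain ⟨v, hv, rfl⟩ := Finset.mem_image.1 ha
    exact ⟨((hmemS v).1 hv).2.1.2, ((hmemS v).1 hv).2.2⟩
  have hR : ∑ᶠ (a : K) (_ : a ∈ A ∧ res π a = c), G.rootMultiplicity a
      = ∑ a ∈ T, G.rootMultiplicity a := by
    refine finsum_mem_eq_sum_of_subset (s := {a | a ∈ A ∧ res π a = c})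
      (fun a : K => G.rootMultiplicity a) ?_ ?_
    · rintro a ⟨h1, h2⟩
      have h1' : a ∈ A ∧ res π a = c := h1
      have h3 : (G.rootMultiplicity a : ℤ) ≠ 0 := by exact_mod_cast h2
      rw [hfib a h1'.1 h1'.2] at h3
      obtain ⟨v, hv, -⟩ := Finset.exists_ne_zero_of_sum_ne_zero h3
      obtain ⟨hv1, hv2⟩ := Finset.mem_filter.1 hv
      exact Finset.mem_coe.2 (Finset.mem_image.2 ⟨v, hv1, hv2⟩)
    · intro a ha
      exact hTP a (Finset.mem_coe.1 ha)
  rw [hL, hR, Nat.cast_sum,
    ← Finset.sum_fiberwise_of_maps_to (s := S) (t := T) (g := fun v => val v y)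
      (fun v hv => Finset.mem_image_of_mem _ hv)]
  exact Finset.sum_congr rfl (fun a ha => (hfib a (hTP a ha).1 (hTP a ha).2).symm)

/-- (L6) **local equations.** If `Zt = red Z` has a simple zero at `Q | c` and no other zero over `c`, then for every `v` in the disc of `c` with `res (Z(v)) = 0` the function
`Z - Z(v)` has a simple zero at `v` and no other zero in the disc of `c`.
Proof: `g = Z - Z(v) ∈ B_A(y)`, `red g = Zt` (as `Z(v) ∈ m_A`), `∑_{Q' | c} ord_{Q'} Zt = 1`; by `sum_ord_disc` `∑_{v' ∈ disc} ord_{v'} g = 1`, all terms are `≥ 0` (`IntA.reg`) and `ord_v g ≥ 1`. -/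
theorem IsPreChart.localEq (pc : IsPreChart V y yt) {c : k} {Q : Place k Ft} (hQ : Over yt c Q)
    {Z : F} {Zt : Ft} (hZ : IntA A y Z) (hZt : V.Red Z Zt) (h1 : Q.ord Zt = 1)
    (h0 : ∀ Q' : Place k Ft, Over yt c Q' → Q' ≠ Q → Q'.ord Zt = 0)
    {v : Place K F} (hv : InDisc π y c v) (hvZ : res π (val v Z) = 0) :
    v.ord (Z - algebraMap K F (val v Z)) = 1 ∧
      ∀ v' : Place K F, InDisc π y c v' → v' ≠ v → v'.ord (Z - algebraMap K F (val v Z)) = 0 := by
  classical
  set a : K := val v Z with ha_def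
  set g : F := Z - algebraMap K F a with hg_def
  have ha : a ∈ A := hZ.val_mem hv.1
  have hg : IntA A y g := hZ.sub (intA_algebraMap ha)
  have hgt : V.Red g Zt := by
    have h := hZt.sub (V.red_const ha)
    rwa [hvZ, map_zero, sub_zero] at h
  have hZt0 : Zt ≠ 0 := by
    intro h
    rw [h, Place.ord_zero] at h1
    exact zero_ne_one h1
  have hg0 : g ≠ 0 := hgt.ne_zero hZt0
  -- the right-hand side
  have hR : ∑ᶠ (Q' : Place k Ft) (_ : Over yt c Q'), Q'.ord Zt = 1 := by
    rw [finsum_eq_single _ Q, finsum_eq_if, if_pos hQ, h1]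
    intro Q' hQ'
    rw [finsum_eq_if]
    split_ifs with h
    · exact h0 Q' h hQ'
    · rfl
  have hsum := pc.sum_ord_disc hg hgt hZt0 c
  rw [hR] at hsum
  -- the left-hand side as a finite sum
  let f : Place K F → ℤ := fun v' => if InDisc π y c v' then v'.ord g else 0
  have hf_eq : ∑ᶠ (v' : Place K F) (_ : InDisc π y c v'), v'.ord g = ∑ᶠ v', f v' :=
    finsum_congr fun v' => finsum_eq_if
  rw [hf_eq] at hsum
  have hfin : (Function.support f).Finite := by
    refine (finite_ord_ne_zero (Ω := K) hg0).subset ?_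
    intro v' hv'
    simp only [Function.mem_support, f] at hv'
    split_ifs at hv' with h
    · exact hv'
    · exact absurd rfl hv'
  have hnn : ∀ v', 0 ≤ f v' := by
    intro v'
    simp only [f]
    split_ifs with h
    · exact (reg_iff_ord v').mp (hg.reg h.1)
    · exact le_rfl
  have hfv : f v = v.ord g := if_pos hv
  have hv1 : 1 ≤ f v := by
    rw [hfv]
    have : 0 < v.ord g := ord_pos_of_van v (van_sub_val v (hZ.reg hv.1)) hg0
    omega
  have hvs : v ∈ hfin.toFinset := by
    rw [Set.Finite.mem_toFinset, Function.mem_support]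
    omega
  rw [finsum_eq_sum_of_support_toFinset_subset f hfin (Finset.Subset.refl _),
    ← Finset.add_sum_erase _ f hvs] at hsum
  have hnn' : 0 ≤ ∑ x ∈ hfin.toFinset.erase v, f x := Finset.sum_nonneg fun x _ => hnn x
  have hE : ∑ x ∈ hfin.toFinset.erase v, f x = 0 := by omega
  refine ⟨by rw [← hfv]; omega, fun v' hv' hne => ?_⟩
  have hfv' : f v' = v'.ord g := if_pos hv'
  rw [← hfv']
  by_cases hs : v' ∈ hfin.toFinset
  · exact (Finset.sum_eq_zero_iff_of_nonneg fun x _ => hnn x).mp hE v'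
      (Finset.mem_erase.mpr ⟨hne, hs⟩)
  · rw [Set.Finite.mem_toFinset, Function.mem_support, not_not] at hs
    exact hs

end Fermat.Agent.S37.Red
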