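import Fermat.Agent.S37.Red.Val

/-!
# S37 / Red : valued function fields, charts, residue classes of places (definitions)

Setting.  `K` a field with a valuation subring `A`, residue map `π : A →+* k` (surjective, `k` a field);
`F/K` and `Ft/k` function fields.  A `VFF A π F Ft` is a valuation subring `O` of `F` ("Gauss valuation ring")
with a surjective reduction map `red : O →+* Ft` extending `π`, with the same value group as `A`
(`exists_scale`).

* `V.Red f g`      : `f ∈ O` and `red f = g`   (relational form, no subtypes);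
* `res π c : k`    : `π c` for `c ∈ A`, junk `0` otherwise;
* `IntK Ω x z`     : `z` is integral over `Ω[x]`;
* `IntA A y b`     : `b` is integral over `A[y]`   (`b ∈ B_A(y)`);
* `InChart A y v`  : `y` is regular at `v` and `y(v) ∈ A`;
* `Rel A y v v'`   : `v, v'` in the chart and `b(v) - b(v') ∈ m_A` for all `b ∈ B_A(y)`;
* `IsPreChart V y yt` : `red y = yt` transcendental, (DEG) `[F : K(y)] ≤ [Ft : k(yt)]`;
* `IsChart V y yt` : `IsPreChart` + (N2) normality.
-/

set_option autoImplicit false

namespace Fermat.Agent.S37.Red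

open AlgebraicCurve Fermat.Agent.S26 Polynomial IntermediateField

/-- A valued function field. -/
structure VFF {K k : Type*} [Field K] [Field k] (A : ValuationSubring K) (π : A →+* k)
    (F Ft : Type*) [Field F] [Field Ft] [Algebra K F] [Algebra k Ft] where
  /-- the valuation ring -/
  O : ValuationSubring F
  /-- the reduction map -/
  red : O →+* Ft
  π_surjective : Function.Surjective π
  red_surjective : Function.Surjective red
  algebraMap_mem_iff : ∀ a : K, algebraMap K F a ∈ O ↔ a ∈ A
  red_algebraMap : ∀ (a : A) (h : algebraMap K F (a : K) ∈ O), red ⟨_, h⟩ = algebraMap k Ft (π a)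
  exists_scale : ∀ f : F, f ≠ 0 →
    ∃ c : K, c ≠ 0 ∧ ∃ h : algebraMap K F c * f ∈ O, red ⟨_, h⟩ ≠ 0

section

variable {K k : Type*} [Field K] [Field k] {A : ValuationSubring K} {π : A →+* k}
variable {F Ft : Type*} [Field F] [Field Ft] [Algebra K F] [Algebra k Ft]

/-- `f ∈ O` and `red f = g`. -/
def VFF.Red (V : VFF A π F Ft) (f : F) (g : Ft) : Prop := ∃ h : f ∈ V.O, V.red ⟨f, h⟩ = g

open Classical in
/-- `π c` for `c ∈ A` (junk `0` otherwise). -/
noncomputable def res (π : A →+* k) (c : K) : k := if h : c ∈ A then π ⟨c, h⟩ else 0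

end

section

variable (Ω : Type*) {𝕃 : Type*} [Field Ω] [Field 𝕃] [Algebra Ω 𝕃]

/-- `Ω[X] → 𝕃`, `X ↦ x`. -/
noncomputable def evK (x : 𝕃) : Polynomial Ω →+* 𝕃 := (aeval x : Polynomial Ω →ₐ[Ω] 𝕃).toRingHom

@[simp] theorem evK_apply (x : 𝕃) (p : Polynomial Ω) : evK Ω x p = aeval x p := rfl

/-- `z` is integral over `Ω[x]`. -/
def IntK (x z : 𝕃) : Prop := (evK Ω x).IsIntegralElem z

end

section

variable {K : Type*} [Field K] (A : ValuationSubring K) {F : Type*} [Field F] [Algebra K F]

/-- `A[X] → F`, `X ↦ y`. -/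
noncomputable def evA (y : F) : Polynomial A →+* F := (evK K y).comp (mapRingHom A.subtype)

@[simp] theorem evA_apply (y : F) (p : Polynomial A) : evA A y p = aeval y (p.map A.subtype) := rfl

/-- `b` is integral over `A[y]`, i.e. `b ∈ B_A(y)`. -/
def IntA (y b : F) : Prop := (evA A y).IsIntegralElem b

/-- `v` lies in the chart `y`: `y` is regular at `v` and `y(v) ∈ A`. -/
def InChart (y : F) (v : Place K F) : Prop := Reg v y ∧ val v y ∈ A

/-- `v` and `v'` lie in the chart `y` and have the same reduction:
`b(v) - b(v') ∈ m_A` for all `b ∈ B_A(y)`. -/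
def Rel (y : F) (v v' : Place K F) : Prop :=
  InChart A y v ∧ InChart A y v' ∧ ∀ b : F, IntA A y b → val v b - val v' b ∈ A.nonunits

end

section

variable {K k : Type*} [Field K] [Field k] {A : ValuationSubring K} {π : A →+* k}
variable {F Ft : Type*} [Field F] [Field Ft] [Algebra K F] [Algebra k Ft]

/-- `y` is a coordinate with (DEG) full residue degree (no normality yet). -/
structure IsPreChart (V : VFF A π F Ft) (y : F) (yt : Ft) : Prop where
  red_y : V.Red y yt
  trans : Transcendental k yt
  deg : Module.finrank K⟮y⟯ F ≤ Module.finrank k⟮yt⟯ Ft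

/-- `y` is a good coordinate: (DEG) full residue degree and (N2) normal special fibre on `yt ≠ ∞`. -/
structure IsChart (V : VFF A π F Ft) (y : F) (yt : Ft) : Prop where
  red_y : V.Red y yt
  trans : Transcendental k yt
  deg : Module.finrank K⟮y⟯ F ≤ Module.finrank k⟮yt⟯ Ft
  normal : ∀ h : Ft, IntK k yt h → ∃ b : F, IntA A y b ∧ V.Red b h

theorem IsChart.pre {V : VFF A π F Ft} {y : F} {yt : Ft} (h : IsChart V y yt) : IsPreChart V y yt :=
  ⟨h.red_y, h.trans, h.deg⟩

/-- the residue disc of `c : k` in the chart `y`. -/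
def InDisc (π : A →+* k) (y : F) (c : k) (v : Place K F) : Prop := InChart A y v ∧ res π (val v y) = c

/-- the fibre of `yt` over `c`. -/
def Over (yt : Ft) (c : k) (Q : Place k Ft) : Prop := Reg Q yt ∧ val Q yt = c

end

end Fermat.Agent.S37.Red
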