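import Fermat.Agent.S37.Red.ON

/-!
# S37 / Red : values of integral functions at the places of a chart
-/

set_option autoImplicit false

namespace Fermat.Agent.S37.Red

open AlgebraicCurve Fermat.Agent.S26 Polynomial IntermediateField

variable {K k : Type*} [Field K] [Field k] {A : ValuationSubring K} {π : A →+* k}
variable {F Ft : Type*} [Field F] [Field Ft] [Algebra K F] [Algebra k Ft]

theorem Eval_zero_mem_nonunits : (0 : K) ∈ A.nonunits := by
  rw [ValuationSubring.mem_nonunits_iff, map_zero]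
  exact zero_lt_one

theorem Eval_neg_mem_nonunits {a : K} (ha : a ∈ A.nonunits) : -a ∈ A.nonunits := by
  rw [ValuationSubring.mem_nonunits_iff] at ha ⊢
  rwa [Valuation.map_neg]

theorem Eval_add_mem_nonunits {a b : K} (ha : a ∈ A.nonunits) (hb : b ∈ A.nonunits) :
    a + b ∈ A.nonunits := by
  rw [ValuationSubring.mem_nonunits_iff] at ha hb ⊢
  exact Valuation.map_add_lt _ ha hb

variable [IsAlgClosed K] [FF1 K F]

/-- (E1) `b ∈ B_A(y)`, `y(v) ∈ A` ⇒ `b` regular at `v` and `b(v) ∈ A`.
Proof: `IntK.reg`; apply the ring hom `valHom v : O_v → K` to an integral equation of `b` over `A[y]`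
(`val v (q(y)) = q(y(v)) ∈ A`): `b(v)` is integral over `A`, and `A` is integrally closed in `K`. -/
theorem IntA.reg_and_val_mem {y b : F} (hb : IntA A y b) {v : Place K F} (hv : InChart A y v) :
    Reg v b ∧ val v b ∈ A := by
  have hreg : Reg v b := hb.intK.reg v hv.1
  refine ⟨hreg, ?_⟩
  obtain ⟨p, hp, hpb⟩ := hb
  have hcoef : ∀ q : Polynomial A, Reg v (evA A y q) := fun q => Reg.aeval v hv.1 _
  have hval : ∀ q : Polynomial A, val v (evA A y q) =
      algebraMap A K (q.eval ⟨val v y, hv.2⟩) := by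
    intro q
    rw [evA_apply, val_aeval v hv.1, Polynomial.eval_map]
    exact (Polynomial.hom_eval₂ q (RingHom.id A) A.subtype ⟨val v y, hv.2⟩).symm
  have h1 := congrArg (val v) hpb
  rw [Polynomial.eval₂_eq_sum_range, val_zero,
    val_sum v _ _ fun i _ => Reg.mul v (hcoef _) (Reg.pow v hreg i)] at h1
  have hint : IsIntegral A (val v b) := by
    refine ⟨p.map (Polynomial.evalRingHom ⟨val v y, hv.2⟩), hp.map _, ?_⟩
    rw [Polynomial.eval₂_map, Polynomial.eval₂_eq_sum_range, ← h1]
    refine Finset.sum_congr rfl fun i _ => ?_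
    rw [val_mul v (hcoef _) (Reg.pow v hreg i), val_pow v hreg, hval]
    rfl
  obtain ⟨a, ha⟩ := IsIntegrallyClosed.isIntegral_iff.mp hint
  rw [← ha]
  exact a.2

theorem IntA.reg {y b : F} (hb : IntA A y b) {v : Place K F} (hv : InChart A y v) : Reg v b :=
  (hb.reg_and_val_mem hv).1

theorem IntA.val_mem {y b : F} (hb : IntA A y b) {v : Place K F} (hv : InChart A y v) : val v b ∈ A :=
  (hb.reg_and_val_mem hv).2

variable [FF1 k Ft] {V : VFF A π F Ft} {y : F} {yt : Ft}

/-- (E2) `b ∈ B_A(y) ∩ m_O` ⇒ `b(v) ∈ m_A`.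
Proof: `b = a b'`, `a ∈ m_A`, `b'` a unit of `O` (`VFF.exists_eq_mul_of_red_zero`); `b' = a⁻¹ b` is integral over `K[y]`, so over `A[y]` by
saturation; `b(v) = a b'(v)`. -/
theorem IsPreChart.val_mem_nonunits (pc : IsPreChart V y yt) {b : F} (hb : IntA A y b)
    (h0 : V.Red b 0) {v : Place K F} (hv : InChart A y v) : val v b ∈ A.nonunits := by
  rcases eq_or_ne b 0 with rfl | hb0
  · rw [val_zero]
    exact Eval_zero_mem_nonunits
  obtain ⟨a, f', g', ha, ha0, -, hf', hbf⟩ := V.exists_eq_mul_of_red_zero h0 hb0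
  have hf'eq : f' = algebraMap K F a⁻¹ * b := by
    rw [hbf, ← mul_assoc, ← map_mul, inv_mul_cancel₀ ha0, map_one, one_mul]
  have hf'K : IntK K y f' := by
    rw [hf'eq]
    exact (intK_algebraMap a⁻¹).mul hb.intK
  have hf'A : IntA A y f' := pc.sat hf'K hf'.mem
  have haA : a ∈ A := mem_of_mem_nonunits ha
  rw [hbf, val_mul v (reg_algebraMap v a) (hf'A.reg hv), val_algebraMap,
    ← res_eq_zero_iff V.π_surjective (mul_mem haA (hf'A.val_mem hv)),
    res_mul haA (hf'A.val_mem hv), (res_eq_zero_iff V.π_surjective haA).mpr ha, zero_mul]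

/-- (E3) the residue of `b(v)` only depends on `red b`. -/
theorem IsPreChart.res_val_congr (pc : IsPreChart V y yt) {b b' : F} {bt : Ft} (hb : IntA A y b)
    (hb' : IntA A y b') (h : V.Red b bt) (h' : V.Red b' bt) {v : Place K F} (hv : InChart A y v) :
    res π (val v b) = res π (val v b') := by
  rw [res_eq_res_iff V.π_surjective (hb.val_mem hv) (hb'.val_mem hv),
    ← val_sub v (hb.reg hv) (hb'.reg hv)]
  refine pc.val_mem_nonunits (hb.sub hb') ?_ hv
  have := h.sub h'
  rwa [sub_self] at this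

/-- every place lies in the chart `y` or in the residue disc of `0` of the chart `y⁻¹`. -/
theorem inChart_or_inDisc_inv (hπ : Function.Surjective π) (y : F) (v : Place K F) :
    InChart A y v ∨ InDisc π y⁻¹ 0 v := by
  by_cases hreg : Reg v y
  · by_cases hA : val v y ∈ A
    · exact Or.inl ⟨hreg, hA⟩
    · right
      have hnv : ¬ Van v y := by
        intro hvan
        apply hA
        rw [val_eq_zero_of_van v hvan]
        exact A.zero_mem
      have h1 : val v y⁻¹ ∈ A.nonunits := by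
        rw [val_inv v hreg]
        exact inv_mem_nonunits_of_not_mem hA
      have h2 : val v y⁻¹ ∈ A := mem_of_mem_nonunits h1
      exact ⟨⟨reg_inv_of_not_van v hnv, h2⟩, (res_eq_zero_iff hπ h2).mpr h1⟩
  · right
    have hvan := van_inv_of_not_reg v hreg
    refine ⟨⟨hvan.reg, ?_⟩, ?_⟩
    · rw [val_eq_zero_of_van v hvan]
      exact A.zero_mem
    · rw [val_eq_zero_of_van v hvan, res_zero]

theorem rel_refl {y : F} {v : Place K F} (hv : InChart A y v) : Rel A y v v := by
  refine ⟨hv, hv, fun b _ => ?_⟩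
  rw [sub_self]
  exact Eval_zero_mem_nonunits

theorem Rel.symm {y : F} {v v' : Place K F} (h : Rel A y v v') : Rel A y v' v := by
  refine ⟨h.2.1, h.1, fun b hb => ?_⟩
  have := Eval_neg_mem_nonunits (h.2.2 b hb)
  rwa [neg_sub] at this

theorem Rel.trans {y : F} {v v' v'' : Place K F} (h : Rel A y v v') (h' : Rel A y v' v'') :
    Rel A y v v'' := by
  refine ⟨h.1, h'.2.1, fun b hb => ?_⟩
  have := Eval_add_mem_nonunits (h.2.2 b hb) (h'.2.2 b hb)
  rwa [sub_add_sub_cancel] at this

/-- `Rel` in terms of `res`. -/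
theorem rel_iff_res (hπ : Function.Surjective π) {y : F} {v v' : Place K F} :
    Rel A y v v' ↔ InChart A y v ∧ InChart A y v' ∧
      ∀ b : F, IntA A y b → res π (val v b) = res π (val v' b) := by
  constructor
  · rintro ⟨h1, h2, h3⟩
    exact ⟨h1, h2, fun b hb =>
      (res_eq_res_iff hπ (hb.val_mem h1) (hb.val_mem h2)).mpr (h3 b hb)⟩
  · rintro ⟨h1, h2, h3⟩
    exact ⟨h1, h2, fun b hb =>
      (res_eq_res_iff hπ (hb.val_mem h1) (hb.val_mem h2)).mp (h3 b hb)⟩

theorem Rel.inDisc (hπ : Function.Surjective π) {y : F} {v v' : Place K F} (h : Rel A y v v') {c : k}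
    (hv' : InDisc π y c v') : InDisc π y c v := by
  refine ⟨h.1, ?_⟩
  rw [((rel_iff_res hπ).mp h).2.2 y intA_self]
  exact hv'.2

end Fermat.Agent.S37.Red
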