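import Fermat.Agent.S37.Red.Basic

/-!
# S37 / Red : integral closure of `Ω[x]` in a function field, in terms of places (any characteristic)

`Ω` algebraically closed, `𝕃/Ω` a function field (`S26.FF1`), `x : 𝕃` transcendental.
`Over x c v` : `x` is regular at `v` and `x(v) = c`.
-/

set_option autoImplicit false
set_option linter.unusedSectionVars false

namespace Fermat.Agent.S37.Red

open AlgebraicCurve Fermat.Agent.S26 Polynomial IntermediateField

variable {Ω 𝕃 : Type*} [Field Ω] [Field 𝕃] [Algebra Ω 𝕃] [IsAlgClosed Ω] [FF1 Ω 𝕃]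

/-- (F1) A function which is regular at all places where `x` is regular is integral over `Ω[x]`.
Proof: Mathlib `iInf_valuationSubring_superset` (the integral closure of a subring of a field is the intersection of
the valuation subrings containing it), with `s = range (algebraMap Ω 𝕃) ∪ {x}`; a valuation subring containing `Ω`
is `⊤` or a place (`S26.exists_place_of_valuationSubring`). Then `intK_iff_isIntegral`. -/
theorem intK_of_forall_reg {x z : 𝕃} (h : ∀ v : Place Ω 𝕃, Reg v x → Reg v z) : IntK Ω x z := by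
  set s : Set 𝕃 := Set.range (algebraMap Ω 𝕃) ∪ {x} with hs
  have hz : z ∈ (⨅ V : {V : ValuationSubring 𝕃 // s ⊆ V.toSubring}, V.1.toSubring) := by
    rw [Subring.mem_iInf]
    rintro ⟨W, hW⟩
    by_cases htop : W = ⊤
    · subst htop
      exact Subring.mem_top z
    · obtain ⟨v, rfl⟩ := exists_place_of_valuationSubring (Ω := Ω) W
        (fun a => hW (Or.inl ⟨a, rfl⟩)) htop
      exact h v (hW (Or.inr rfl))
  rw [iInf_valuationSubring_superset] at hz
  obtain ⟨p, hp, hpz⟩ : IsIntegral (Subring.closure s) z := hz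
  have hle : Subring.closure s ≤ (evK Ω x).range := by
    rw [Subring.closure_le]
    rintro a (⟨c, rfl⟩ | rfl)
    · exact ⟨C c, by simp⟩
    · exact ⟨X, by simp⟩
  have hl : p.map (algebraMap (Subring.closure s) 𝕃) ∈ lifts (evK Ω x) := by
    rw [lifts_iff_coeff_lifts]
    intro n
    rw [coeff_map]
    exact hle (p.coeff n).2
  obtain ⟨q, hq, -, hqm⟩ := lifts_and_degree_eq_and_monic hl (hp.map _)
  refine ⟨q, hqm, ?_⟩
  rw [← eval_map, hq, eval_map]
  exact hpz

theorem intK_iff_forall_reg {x z : 𝕃} : IntK Ω x z ↔ ∀ v : Place Ω 𝕃, Reg v x → Reg v z :=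
  ⟨fun h v hv => h.reg v hv, intK_of_forall_reg⟩

theorem over_iff {x : 𝕃} {c : Ω} {v : Place Ω 𝕃} : Over x c v ↔ Van v (x - algebraMap Ω 𝕃 c) := by
  constructor
  · rintro ⟨h1, h2⟩
    exact (val_eq_iff v h1).1 h2
  · intro h
    have h1 : Reg v x := by
      have := (h.reg v).add v (reg_algebraMap v c)
      rwa [sub_add_cancel] at this
    exact ⟨h1, (val_eq_iff v h1).2 h⟩

theorem FFInt.sub_ne_zero {x : 𝕃} (hx : Transcendental Ω x) (c : Ω) : x - algebraMap Ω 𝕃 c ≠ 0 := by
  intro h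
  apply hx
  rw [sub_eq_zero.1 h]
  exact isAlgebraic_algebraMap c

theorem FFInt.transcendental_sub {x : 𝕃} (hx : Transcendental Ω x) (c : Ω) :
    Transcendental Ω (x - algebraMap Ω 𝕃 c) := by
  intro h
  apply hx
  have := h.add (isAlgebraic_algebraMap (A := 𝕃) c)
  rwa [sub_add_cancel] at this

theorem over_iff_ord {x : 𝕃} (hx : Transcendental Ω x) {c : Ω} {v : Place Ω 𝕃} :
    Over x c v ↔ 0 < v.ord (x - algebraMap Ω 𝕃 c) := by
  rw [over_iff, van_iff_ord]
  constructor
  · rintro (h | h)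
    · exact absurd h (FFInt.sub_ne_zero hx c)
    · exact h
  · exact Or.inr

/-- the fibre of `x` over `c` is finite (`S26.finite_ord_pos`). -/
theorem finite_over {x : 𝕃} (hx : Transcendental Ω x) (c : Ω) : {v : Place Ω 𝕃 | Over x c v}.Finite := by
  refine (finite_ord_pos (Ω := Ω) (FFInt.sub_ne_zero hx c)).subset ?_
  intro v hv
  exact (over_iff_ord hx).1 hv

/-- the fibre of `x` over `c` is nonempty (`S26.exists_ord_pos`). -/
theorem exists_over {x : 𝕃} (hx : Transcendental Ω x) (c : Ω) : ∃ v : Place Ω 𝕃, Over x c v := by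
  obtain ⟨v, hv⟩ := exists_ord_pos (FFInt.transcendental_sub hx c)
  exact ⟨v, (over_iff_ord hx).2 hv⟩

/-- `∑_{v | c} e_v = [𝕃 : Ω(x)]`  (`S26.sum_zeros_eq_finrank` for `x - c`, `S26.deg_eq_one_of_isAlgClosed`,
`S24.FF.adjoin_simple_sub_algebraMap`). -/
theorem sum_ord_over {x : 𝕃} (hx : Transcendental Ω x) (c : Ω) :
    ∑ᶠ (v : Place Ω 𝕃) (_ : Over x c v), v.ord (x - algebraMap Ω 𝕃 c) = Module.finrank Ω⟮x⟯ 𝕃 := by
  have h := sum_zeros_eq_finrank (FFInt.transcendental_sub hx c)
  rw [Fermat.Agent.S24.FF.adjoin_simple_sub_algebraMap] at h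
  rw [← h, finsum_subtype_eq_finsum_cond
    (f := fun v : Place Ω 𝕃 => v.ord (x - algebraMap Ω 𝕃 c) * (v.deg : ℤ))
    (fun v : Place Ω 𝕃 => 0 < v.ord (x - algebraMap Ω 𝕃 c))]
  refine finsum_congr (fun v => ?_)
  rw [deg_eq_one_of_isAlgClosed v, Nat.cast_one, mul_one]
  exact finsum_congr_Prop (propext (over_iff_ord hx)) (fun _ => rfl)

/-- (clearing poles) If `f` is regular at all places `v` with `x(v) ∈ S`, then `w(x) f` is integral over `Ω[x]` for
some monic `w` without roots in `S`.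
Proof: `w = ∏_{v : x regular at v, ord_v f < 0} (X - x(v)) ^ (- ord_v f)` (finite product: `S26.finite_ord_ne_zero`),
then `intK_of_forall_reg`. -/
theorem exists_clear_poles {x : 𝕃} (hx : Transcendental Ω x) (f : 𝕃) (S : Set Ω)
    (h : ∀ v : Place Ω 𝕃, Reg v x → val v x ∈ S → Reg v f) :
    ∃ w : Polynomial Ω, w.Monic ∧ (∀ c ∈ S, w.eval c ≠ 0) ∧ IntK Ω x (aeval x w * f) := by
  classical
  rcases eq_or_ne f 0 with rfl | hf0
  · exact ⟨1, monic_one, fun c _ => by simp, by rw [mul_zero]; exact intK_zero⟩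
  set P : Finset (Place Ω 𝕃) :=
    (finite_ord_ne_zero (Ω := Ω) hf0).toFinset.filter (fun v => Reg v x ∧ v.ord f < 0) with hP
  have hmemP : ∀ v : Place Ω 𝕃, v ∈ P ↔ Reg v x ∧ v.ord f < 0 := by
    intro v
    rw [hP, Finset.mem_filter, Set.Finite.mem_toFinset, Set.mem_ofPred_eq]
    constructor
    · exact fun h => h.2
    · exact fun h => ⟨by have := h.2; omega, h⟩
  refine ⟨∏ v ∈ P, (X - C (val v x)) ^ (- v.ord f).toNat,
    monic_prod_of_monic _ _ fun v _ => (monic_X_sub_C _).pow _, ?_, ?_⟩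
  · intro c hc
    rw [eval_prod, Finset.prod_ne_zero_iff]
    intro v hv
    rw [eval_pow, eval_sub, eval_X, eval_C]
    refine pow_ne_zero _ (sub_ne_zero.2 ?_)
    rintro rfl
    have h1 := (hmemP v).1 hv
    have h2 := (reg_iff_ord v).1 (h v h1.1 hc)
    omega
  · refine intK_of_forall_reg fun v hv => ?_
    by_cases hvf : Reg v f
    · exact Reg.mul v (Reg.aeval v hv _) hvf
    · have hlt : v.ord f < 0 := by
        rw [reg_iff_ord] at hvf
        omega
      have hvP : v ∈ P := (hmemP v).2 ⟨hv, hlt⟩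
      rw [← Finset.mul_prod_erase P _ hvP, map_mul, mul_right_comm]
      refine Reg.mul v ?_ (Reg.aeval v hv _)
      have hne : x - algebraMap Ω 𝕃 (val v x) ≠ 0 := by
        intro h0
        apply hx
        rw [sub_eq_zero.1 h0]
        exact isAlgebraic_algebraMap _
      have hpos : 0 < v.ord (x - algebraMap Ω 𝕃 (val v x)) :=
        ord_pos_of_van v (van_sub_val v hv) hne
      rw [map_pow, map_sub, aeval_X, aeval_C, reg_iff_ord, v.ord_mul (pow_ne_zero _ hne) hf0,
        Fermat.Agent.S24.FF.ord_pow]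
      have h3 : (((- v.ord f).toNat : ℕ) : ℤ) = - v.ord f := Int.toNat_of_nonneg (by omega)
      rw [h3]
      nlinarith

/-- Elements of the integral closure with prescribed orders on a finite union `T` of full fibres of `x`.
Proof: `S26.exists_ord_eq` gives `f` with the prescribed orders on `T`; apply `exists_clear_poles` with
`S = {x(v) | v ∈ T}`; `w(x)` has order `0` at the places of `T`. -/
theorem exists_intK_ord {x : 𝕃} (hx : Transcendental Ω x) (T : Finset (Place Ω 𝕃))
    (hT : ∀ v ∈ T, Reg v x)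
    (hfull : ∀ v ∈ T, ∀ v' : Place Ω 𝕃, Reg v' x → val v' x = val v x → v' ∈ T)
    (n : Place Ω 𝕃 → ℕ) :
    ∃ z : 𝕃, IntK Ω x z ∧ z ≠ 0 ∧ ∀ v ∈ T, v.ord z = n v := by
  obtain ⟨f, hf0, hf⟩ := exists_ord_eq (Ω := Ω) T (fun v => (n v : ℤ))
  obtain ⟨w, hwm, hwS, hwI⟩ := exists_clear_poles hx f {c | ∃ v ∈ T, val v x = c} (by
    rintro v hv ⟨v₀, hv₀, h⟩
    have hvT : v ∈ T := hfull v₀ hv₀ v hv h.symm
    rw [reg_iff_ord, hf v hvT]
    exact Int.natCast_nonneg _)
  have hw0 : aeval x w ≠ 0 := fun h0 => hwm.ne_zero ((transcendental_iff.1 hx) w h0)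
  refine ⟨aeval x w * f, hwI, mul_ne_zero hw0 hf0, fun v hv => ?_⟩
  have h1 : v.ord (aeval x w) = 0 := by
    refine ord_eq_zero_of_reg_of_not_van v (Reg.aeval v (hT v hv) w) fun hvan => ?_
    have h2 := val_eq_zero_of_van v hvan
    rw [val_aeval v (hT v hv)] at h2
    exact hwS _ ⟨v, hv, rfl⟩ h2
  rw [v.ord_mul hw0 hf0, h1, hf v hv, zero_add]

/-- order of `w(x)` at a place over `c` when `w(c) ≠ 0`. -/
theorem ord_aeval_eq_zero {x : 𝕃} {c : Ω} {v : Place Ω 𝕃} (hv : Over x c v) {w : Polynomial Ω}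
    (hw : w.eval c ≠ 0) : v.ord (aeval x w) = 0 := by
  refine ord_eq_zero_of_reg_of_not_van v (hv.1.aeval v w) ?_
  intro h
  have := (val_eq_zero_iff v (hv.1.aeval v w)).2 h
  rw [val_aeval v hv.1, hv.2] at this
  exact hw this

end Fermat.Agent.S37.Red
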