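import Fermat.Agent.S37.Red.Basic

/-!
# S37 / Red : polynomials over a valuation ring, the Gauss valuation on `K(y)`

`A` a valuation subring of `K`, `π : A →+* k`.  A polynomial `q : A[X]` is *primitive* if `q.map π ≠ 0`.
-/

set_option autoImplicit false

namespace Fermat.Agent.S37.Red

open AlgebraicCurve Fermat.Agent.S26 Polynomial IntermediateField

variable {K k : Type*} [Field K] [Field k] {A : ValuationSubring K} {π : A →+* k}

/-- (G1) every nonzero polynomial over `K` is a constant times a primitive polynomial over `A`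
(divide by a coefficient of maximal valuation; a unit of `A` is not killed by `π`). -/
theorem exists_primitive (π : A →+* k) (p : Polynomial K) (hp : p ≠ 0) :
    ∃ (c : K) (q : Polynomial A), c ≠ 0 ∧ p = C c * q.map A.subtype ∧ q.map π ≠ 0 := by
  have hne : p.support.Nonempty := by
    rwa [Finset.nonempty_iff_ne_empty, Ne, Polynomial.support_eq_empty]
  obtain ⟨i, hi, hmax⟩ := Finset.exists_max_image p.support (fun j => A.valuation (p.coeff j)) hne
  have hc : p.coeff i ≠ 0 := Polynomial.mem_support_iff.mp hi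
  have hmem : ∀ j, (p.coeff i)⁻¹ * p.coeff j ∈ A := by
    intro j
    by_cases hj : p.coeff j = 0
    · rw [hj, mul_zero]; exact A.zero_mem
    · have h1 := hmax j (Polynomial.mem_support_iff.mpr hj)
      rw [← A.valuation_le_one_iff, map_mul, map_inv₀]
      have h0 : A.valuation (p.coeff i) ≠ 0 := (A.valuation.ne_zero_iff).mpr hc
      rw [inv_mul_le_iff₀ (zero_lt_iff.mpr h0), mul_one]
      exact h1
  have hl : C (p.coeff i)⁻¹ * p ∈ Polynomial.lifts A.subtype := by
    rw [Polynomial.lifts_iff_coeff_lifts]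
    intro j
    rw [Polynomial.coeff_C_mul]
    exact ⟨⟨_, hmem j⟩, rfl⟩
  obtain ⟨q, hq⟩ := hl
  refine ⟨p.coeff i, q, hc, ?_, ?_⟩
  · have hq' : q.map A.subtype = C (p.coeff i)⁻¹ * p := hq
    rw [hq', ← mul_assoc, ← C_mul, mul_inv_cancel₀ hc, C_1, one_mul]
  · intro h0
    have hq' : q.map A.subtype = C (p.coeff i)⁻¹ * p := hq
    have h1 : q.coeff i = 1 := by
      apply Subtype.ext
      have := congrArg (fun r => r.coeff i) hq'
      simp only [coeff_map, coeff_C_mul] at this
      rw [inv_mul_cancel₀ hc] at this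
      exact this
    have h2 := congrArg (fun r => r.coeff i) h0
    simp only [coeff_map, h1, map_one, coeff_zero] at h2
    exact one_ne_zero h2

theorem gauss_map_subtype_injective : Function.Injective (Polynomial.map A.subtype) :=
  Polynomial.map_injective _ Subtype.val_injective

/-- Gauss lemma: if `C d * r` has coefficients in `A` with `r` primitive then `d ∈ A`. -/
theorem gauss_mem_of_C_mul_primitive (hπ : Function.Surjective π) {d : K} {q r : Polynomial A}
    (hr : r.map π ≠ 0) (h : q.map A.subtype = C d * r.map A.subtype) : d ∈ A := by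
  obtain ⟨i, hi⟩ : ∃ i, (r.map π).coeff i ≠ 0 := by
    by_contra hcon
    push Not at hcon
    exact hr (Polynomial.ext (by simpa using hcon))
  rw [coeff_map] at hi
  have h1 : res π ((r.coeff i : A) : K) ≠ 0 := by
    rw [res_of_mem (r.coeff i).2]; exact hi
  obtain ⟨-, h2⟩ := inv_mem_of_res_ne_zero hπ h1
  have h3 := congrArg (fun s => s.coeff i) h
  simp only [coeff_map, coeff_C_mul] at h3
  have hne : ((r.coeff i : A) : K) ≠ 0 := by
    intro h0
    apply h1
    rw [h0, res_zero]
  have h4 : d = ((q.coeff i : A) : K) * ((r.coeff i : A) : K)⁻¹ := by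
    have h3' : ((q.coeff i : A) : K) = d * ((r.coeff i : A) : K) := h3
    rw [h3', mul_assoc, mul_inv_cancel₀ hne, mul_one]
  rw [h4]
  exact A.mul_mem _ _ (q.coeff i).2 h2

open Classical in
theorem gauss_card_filter_roots_eq [IsAlgClosed K] (hπ : Function.Surjective π) (c : k) (n : ℕ) :
    ∀ q : Polynomial A, q.natDegree = n → q.map π ≠ 0 →
    Multiset.card (Multiset.filter (fun a : K => a ∈ A ∧ res π a = c) (q.map A.subtype).roots)
      = (q.map π).rootMultiplicity c := by
  induction n with
  | zero =>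
    intro q hn hq
    rw [Polynomial.eq_C_of_natDegree_eq_zero hn]
    simp
  | succ n ih =>
    intro q hn hq
    have hq0 : q ≠ 0 := by
      rintro rfl
      simp at hq
    have hP0 : q.map A.subtype ≠ 0 := by
      intro h
      apply hq0
      apply gauss_map_subtype_injective
      rw [h, Polynomial.map_zero]
    have hdeg : (q.map A.subtype).natDegree = n + 1 := by
      rw [natDegree_map_eq_of_injective Subtype.val_injective, hn]
    have hdeg' : (q.map A.subtype).degree ≠ 0 := by
      intro h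
      have h' : (q.map A.subtype).natDegree = 0 := natDegree_eq_of_degree_eq_some h
      omega
    obtain ⟨a, ha⟩ := IsAlgClosed.exists_root _ hdeg'
    by_cases haA : a ∈ A
    · -- root in `A`
      have hroot : q.IsRoot ⟨a, haA⟩ := by
        apply Subtype.val_injective
        have : (q.map A.subtype).eval (A.subtype ⟨a, haA⟩) = A.subtype (q.eval ⟨a, haA⟩) :=
          Polynomial.eval_map_apply _ _
        have h2 : A.subtype (q.eval ⟨a, haA⟩) = 0 := by
          rw [← this]; exact ha
        exact h2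
      obtain ⟨q', rfl⟩ := Polynomial.dvd_iff_isRoot.mpr hroot
      have hq'0 : q' ≠ 0 := right_ne_zero_of_mul hq0
      have hq'n : q'.natDegree = n := by
        rw [natDegree_mul (X_sub_C_ne_zero _) hq'0, natDegree_X_sub_C] at hn
        omega
      have hmapπ : ((X - C (⟨a, haA⟩ : A)) * q').map π = (X - C (res π a)) * q'.map π := by
        rw [Polynomial.map_mul, Polynomial.map_sub, map_X, map_C, res_of_mem haA]
      have hmapK : ((X - C (⟨a, haA⟩ : A)) * q').map A.subtype = (X - C a) * q'.map A.subtype := by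
        rw [Polynomial.map_mul, Polynomial.map_sub, map_X, map_C]
        rfl
      rw [hmapπ] at hq ⊢
      rw [hmapK] at hP0 ⊢
      have hq'π : q'.map π ≠ 0 := right_ne_zero_of_mul hq
      rw [roots_mul hP0, roots_X_sub_C, Multiset.filter_add, Multiset.card_add, ih q' hq'n hq'π,
        rootMultiplicity_mul hq, rootMultiplicity_X_sub_C, Multiset.filter_singleton]
      congr 1
      by_cases hc : res π a = c
      · rw [if_pos ⟨haA, hc⟩, if_pos hc.symm]; rfl
      · rw [if_neg (fun h => hc h.2), if_neg (fun h => hc h.symm)]; rfl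
    · -- root outside `A`
      have hb : a⁻¹ ∈ A.nonunits := inv_mem_nonunits_of_not_mem haA
      have hbA : a⁻¹ ∈ A := mem_of_mem_nonunits hb
      have ha0 : a ≠ 0 := by
        rintro rfl
        exact haA A.zero_mem
      have hπb : π ⟨a⁻¹, hbA⟩ = 0 := by
        rw [← res_of_mem hbA, res_eq_zero_iff hπ hbA]; exact hb
      obtain ⟨P', hP'⟩ := Polynomial.dvd_iff_isRoot.mpr ha
      have hP'0 : P' ≠ 0 := by
        rintro rfl
        rw [mul_zero] at hP'
        exact hP0 hP'
      obtain ⟨d, r, hd, hr, hrπ⟩ := exists_primitive π P' hP'0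
      set L : Polynomial A := 1 - C (⟨a⁻¹, hbA⟩ : A) * X with hL
      have hLK : L.map A.subtype = C (-a⁻¹) * (X - C a) := by
        rw [hL, Polynomial.map_sub, Polynomial.map_one, Polynomial.map_mul, map_X, map_C]
        have : A.subtype ⟨a⁻¹, hbA⟩ = a⁻¹ := rfl
        rw [this, mul_sub, ← C_mul, neg_mul, inv_mul_cancel₀ ha0, C_neg, C_neg, C_1]
        ring
      have hLπ : L.map π = 1 := by
        rw [hL, Polynomial.map_sub, Polynomial.map_one, Polynomial.map_mul, map_X, map_C, hπb]
        simp
      have hLrπ : (L * r).map π ≠ 0 := by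
        rw [Polynomial.map_mul, hLπ, one_mul]; exact hrπ
      have hfac : q.map A.subtype = C (-a * d) * (L * r).map A.subtype := by
        rw [hP', hr, Polynomial.map_mul, hLK, C_mul]
        have : C (-a) * C (-a⁻¹) = (1 : Polynomial K) := by
          rw [← C_mul, neg_mul_neg, mul_inv_cancel₀ ha0, C_1]
        calc (X - C a) * (C d * r.map A.subtype)
            = (C (-a) * C (-a⁻¹)) * ((X - C a) * (C d * r.map A.subtype)) := by rw [this, one_mul]
          _ = _ := by ring
      have hdA : -a * d ∈ A := gauss_mem_of_C_mul_primitive hπ hLrπ hfac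
      have hqeq : q = C (⟨-a * d, hdA⟩ : A) * (L * r) := by
        apply gauss_map_subtype_injective
        rw [hfac, Polynomial.map_mul (p := C (⟨-a * d, hdA⟩ : A)), map_C]
        rfl
      have had : -a * d ≠ 0 := mul_ne_zero (neg_ne_zero.mpr ha0) hd
      have hqπ : q.map π = C (π ⟨-a * d, hdA⟩) * r.map π := by
        rw [hqeq, Polynomial.map_mul, map_C, Polynomial.map_mul, hLπ, one_mul]
      have hr0 : r ≠ 0 := by
        rintro rfl
        simp at hrπ
      have hrK0 : r.map A.subtype ≠ 0 := by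
        intro h
        apply hr0
        apply gauss_map_subtype_injective
        rw [h, Polynomial.map_zero]
      have hrn : r.natDegree = n := by
        have h1 : (q.map A.subtype).natDegree = 1 + P'.natDegree := by
          rw [hP', natDegree_mul (X_sub_C_ne_zero _) hP'0, natDegree_X_sub_C]
        have h2 : P'.natDegree = r.natDegree := by
          rw [hr, natDegree_C_mul hd, natDegree_map_eq_of_injective Subtype.val_injective]
        omega
      have hroots : (q.map A.subtype).roots = {a} + (r.map A.subtype).roots := by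
        rw [hP', roots_mul (by rw [← hP']; exact hP0), roots_X_sub_C, hr, roots_C_mul _ hd]
      rw [hroots, Multiset.filter_add, Multiset.card_add, ih r hrn hrπ, Multiset.filter_singleton,
        if_neg (fun h => haA h.1), hqπ]
      rw [hqπ] at hq
      rw [rootMultiplicity_mul hq, rootMultiplicity_C]
      rfl

/-- (G2) **root count**: a primitive polynomial has as many roots in the residue class of `c` as its reduction has at `c`.
Proof: induction on the degree, splitting off a root `a`: if `a ∈ A` divide by `X - a` in `A[X]`; if `a ∉ A` write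
`q = u (1 - a⁻¹ X) r` with `r` primitive, `u ∈ A` by the Gauss lemma. -/
theorem finsum_rootMultiplicity_eq [IsAlgClosed K] (hπ : Function.Surjective π) (q : Polynomial A)
    (hq : q.map π ≠ 0) (c : k) :
    ∑ᶠ (a : K) (_ : a ∈ A ∧ res π a = c), (q.map A.subtype).rootMultiplicity a
      = (q.map π).rootMultiplicity c := by
  classical
  rw [← gauss_card_filter_roots_eq hπ c _ q rfl hq]
  have h1 : ∀ a : K, (∑ᶠ (_ : a ∈ A ∧ res π a = c), (q.map A.subtype).rootMultiplicity a)
      = Multiset.count a
        (Multiset.filter (fun a : K => a ∈ A ∧ res π a = c) (q.map A.subtype).roots) := by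
    intro a
    rw [finsum_eq_if, Multiset.count_filter, count_roots]
  simp_rw [h1]
  rw [finsum_eq_sum_of_support_subset (s := (Multiset.filter (fun a : K => a ∈ A ∧ res π a = c)
    (q.map A.subtype).roots).toFinset)]
  · exact Multiset.toFinset_sum_count_eq _
  · intro a ha
    rw [Function.mem_support, Multiset.count_ne_zero] at ha
    simpa using ha

/-- consequence: no root in the residue class ⇒ the reduction does not vanish at `c`. -/
theorem eval_map_ne_zero_of_no_root [IsAlgClosed K] (hπ : Function.Surjective π) (q : Polynomial A)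
    (hq : q.map π ≠ 0) (c : k)
    (h : ∀ a : K, a ∈ A → res π a = c → (q.map A.subtype).eval a ≠ 0) : (q.map π).eval c ≠ 0 := by
  classical
  have h1 := finsum_rootMultiplicity_eq hπ q hq c
  have h2 : ∑ᶠ (a : K) (_ : a ∈ A ∧ res π a = c), (q.map A.subtype).rootMultiplicity a = 0 := by
    apply finsum_eq_zero_of_forall_eq_zero
    intro a
    rw [finsum_eq_if]
    split_ifs with ha
    · exact rootMultiplicity_eq_zero (h a ha.1 ha.2)
    · rfl
  rw [h2] at h1
  intro h0
  have := (rootMultiplicity_pos hq).mpr h0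
  omega

variable {F Ft : Type*} [Field F] [Field Ft] [Algebra K F] [Algebra k Ft] (V : VFF A π F Ft)
variable {y : F} {yt : Ft}

/-- a primitive polynomial in `y` is a unit of `O`. -/
theorem aeval_map_ne_zero (ht : Transcendental k yt) {q : Polynomial A} (hq : q.map π ≠ 0) :
    aeval yt (q.map π) ≠ 0 := fun h => hq ((transcendental_iff.mp ht) _ h)

theorem transcendental_of_red (hy : V.Red y yt) (ht : Transcendental k yt) : Transcendental K y := by
  rw [transcendental_iff]
  intro p hp
  by_contra hp0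
  obtain ⟨c, q, hc, hpq, hq⟩ := exists_primitive π p hp0
  rw [hpq, map_mul, aeval_C] at hp
  have h0 : aeval y (q.map A.subtype) = 0 := by
    rcases mul_eq_zero.mp hp with h | h
    · exact absurd ((map_eq_zero _).mp h) hc
    · exact h
  have h1 := V.red_aeval hy q
  rw [h0] at h1
  exact aeval_map_ne_zero ht hq (h1.unique V.red_zero)

/-- (G4) `K[y] ∩ O = A[y]`. -/
theorem aeval_mem_O_iff (hy : V.Red y yt) (ht : Transcendental k yt) (p : Polynomial K) :
    aeval y p ∈ V.O ↔ ∃ q : Polynomial A, q.map A.subtype = p := by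
  constructor
  · intro h
    by_cases hp0 : p = 0
    · exact ⟨0, by rw [hp0, Polynomial.map_zero]⟩
    obtain ⟨c, q, hc, hpq, hq⟩ := exists_primitive π p hp0
    have h1 := V.red_aeval hy q
    have h2 := (h1.inv (aeval_map_ne_zero ht hq)).mem
    have h3 : aeval y (q.map A.subtype) ≠ 0 := h1.ne_zero (aeval_map_ne_zero ht hq)
    have h4 : algebraMap K F c ∈ V.O := by
      have : algebraMap K F c = aeval y p * (aeval y (q.map A.subtype))⁻¹ := by
        rw [hpq, map_mul, aeval_C, mul_assoc, mul_inv_cancel₀ h3, mul_one]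
      rw [this]
      exact V.O.mul_mem _ _ h h2
    have hcA : c ∈ A := (V.algebraMap_mem_iff c).mp h4
    refine ⟨C ⟨c, hcA⟩ * q, ?_⟩
    rw [Polynomial.map_mul, map_C, hpq]
    rfl
  · rintro ⟨q, rfl⟩
    exact (V.red_aeval hy q).mem

/-- structure of the nonzero elements of `K(y)`. -/
theorem gauss_exists_eq_primitive_div (π : A →+* k) {e : F} (he : e ∈ K⟮y⟯) (he0 : e ≠ 0) :
    ∃ (c : K) (q₁ q₂ : Polynomial A), c ≠ 0 ∧ q₁.map π ≠ 0 ∧ q₂.map π ≠ 0 ∧
      e = algebraMap K F c * (aeval y (q₁.map A.subtype) / aeval y (q₂.map A.subtype)) := by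
  obtain ⟨r, s, hrs⟩ := (mem_adjoin_simple_iff K e).mp he
  have hr0 : r ≠ 0 := by
    rintro rfl
    apply he0
    rw [hrs, map_zero, zero_div]
  have hs0 : s ≠ 0 := by
    rintro rfl
    apply he0
    rw [hrs, map_zero, div_zero]
  obtain ⟨c₁, q₁, hc₁, hr, hq₁⟩ := exists_primitive π r hr0
  obtain ⟨c₂, q₂, hc₂, hs, hq₂⟩ := exists_primitive π s hs0
  refine ⟨c₁ / c₂, q₁, q₂, div_ne_zero hc₁ hc₂, hq₁, hq₂, ?_⟩
  rw [hrs, hr, hs, map_mul, map_mul, aeval_C, aeval_C, map_div₀, mul_div_mul_comm]

theorem gauss_aeval_mem_adjoin_simple {Ω 𝕃 : Type*} [Field Ω] [Field 𝕃] [Algebra Ω 𝕃] (x : 𝕃)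
    (p : Polynomial Ω) : aeval x p ∈ Ω⟮x⟯ := by
  rw [mem_adjoin_simple_iff]
  exact ⟨p, 1, by simp⟩

/-- every nonzero element of `K(y)` can be scaled by an element of `K` to a unit of `O`
(this is `V.exists_scale'`; recorded for convenience with the reduction in `k(yt)`). -/
theorem exists_scale_adjoin (hy : V.Red y yt) (ht : Transcendental k yt) (e : K⟮y⟯) (he : e ≠ 0) :
    ∃ (c : K) (et : k⟮yt⟯), c ≠ 0 ∧ et ≠ 0 ∧ V.Red (algebraMap K F c * (e : F)) (et : Ft) := by
  have he0 : (e : F) ≠ 0 := fun h => he (Subtype.ext h)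
  obtain ⟨c, q₁, q₂, hc, hq₁, hq₂, heq⟩ := gauss_exists_eq_primitive_div π e.2 he0
  have h1 := aeval_map_ne_zero ht hq₁
  have h2 := aeval_map_ne_zero ht hq₂
  refine ⟨c⁻¹, ⟨aeval yt (q₁.map π) / aeval yt (q₂.map π),
    div_mem (gauss_aeval_mem_adjoin_simple _ _) (gauss_aeval_mem_adjoin_simple _ _)⟩, inv_ne_zero hc, ?_, ?_⟩
  · intro h
    exact div_ne_zero h1 h2 (congrArg Subtype.val h)
  · rw [heq, ← mul_assoc, ← map_mul, inv_mul_cancel₀ hc, map_one, one_mul]
    exact (V.red_aeval hy q₁).div (V.red_aeval hy q₂) h2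

/-- (G5) `red` maps `K(y) ∩ O` into `k(yt)`.  (`e = c q₁(y) / q₂(y)`, `q₁, q₂` primitive; `e ∈ O ↔ c ∈ A`.) -/
theorem exists_red_adjoin (hy : V.Red y yt) (ht : Transcendental k yt) (e : K⟮y⟯) (he : (e : F) ∈ V.O) :
    ∃ et : k⟮yt⟯, V.Red (e : F) (et : Ft) := by
  by_cases he0 : e = 0
  · refine ⟨0, ?_⟩
    rw [he0]
    exact V.red_zero
  obtain ⟨c, et, hc, het, hred⟩ := exists_scale_adjoin V hy ht e he0
  have het' : (et : Ft) ≠ 0 := fun h => het (Subtype.ext h)
  have he0' : (e : F) ≠ 0 := fun h => he0 (Subtype.ext h)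
  have hcF : algebraMap K F c ≠ 0 := fun h => hc ((map_eq_zero _).mp h)
  -- `c⁻¹ = e * (c e)⁻¹ ∈ O`
  have h1 : algebraMap K F c⁻¹ ∈ V.O := by
    have : algebraMap K F c⁻¹ = (e : F) * (algebraMap K F c * (e : F))⁻¹ := by
      rw [map_inv₀]
      field_simp
    rw [this]
    exact V.O.mul_mem _ _ he (hred.inv het').mem
  have hcA : c⁻¹ ∈ A := (V.algebraMap_mem_iff _).mp h1
  refine ⟨⟨algebraMap k Ft (res π c⁻¹) * et, mul_mem (IntermediateField.algebraMap_mem _ _) et.2⟩, ?_⟩
  have h2 := (V.red_const hcA).mul hred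
  rwa [← mul_assoc, ← map_mul, inv_mul_cancel₀ hc, map_one, one_mul] at h2

set_option linter.unusedVariables false in
/-- every element of `k(yt)` lifts to `K(y) ∩ O`. -/
theorem exists_lift_adjoin (hy : V.Red y yt) (ht : Transcendental k yt) (et : k⟮yt⟯) :
    ∃ e : K⟮y⟯, V.Red (e : F) (et : Ft) := by
  obtain ⟨r, s, hrs⟩ := (mem_adjoin_simple_iff k (et : Ft)).mp et.2
  by_cases hs : aeval yt s = 0
  · refine ⟨0, ?_⟩
    rw [hrs, hs, div_zero]
    exact V.red_zero
  obtain ⟨r', rfl⟩ := Polynomial.map_surjective π V.π_surjective r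
  obtain ⟨s', rfl⟩ := Polynomial.map_surjective π V.π_surjective s
  refine ⟨⟨aeval y (r'.map A.subtype) / aeval y (s'.map A.subtype),
    div_mem (gauss_aeval_mem_adjoin_simple _ _) (gauss_aeval_mem_adjoin_simple _ _)⟩, ?_⟩
  rw [hrs]
  exact (V.red_aeval hy r').div (V.red_aeval hy s') hs

/-- the chart `y⁻¹`. -/
theorem IsPreChart.inv {V : VFF A π F Ft} (h : IsPreChart V y yt) : IsPreChart V y⁻¹ yt⁻¹ := by
  have hyt : yt ≠ 0 := by
    rintro rfl
    exact h.trans isAlgebraic_zero
  refine ⟨h.red_y.inv hyt, transcendental_inv h.trans, ?_⟩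
  rw [adjoin_simple_inv_eq, adjoin_simple_inv_eq]
  exact h.deg

theorem gauss_adjoin_simple_sub_const {Ω 𝕃 : Type*} [Field Ω] [Field 𝕃] [Algebra Ω 𝕃] (x : 𝕃) (c : Ω) :
    Ω⟮x - algebraMap Ω 𝕃 c⟯ = Ω⟮x⟯ := by
  apply le_antisymm
  · rw [adjoin_simple_le_iff]
    exact sub_mem (mem_adjoin_simple_self Ω x) (IntermediateField.algebraMap_mem _ c)
  · rw [adjoin_simple_le_iff]
    have := add_mem (mem_adjoin_simple_self Ω (x - algebraMap Ω 𝕃 c))
      (IntermediateField.algebraMap_mem Ω⟮x - algebraMap Ω 𝕃 c⟯ c)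
    rwa [sub_add_cancel] at this

/-- the chart `y - a`, `a ∈ A`. -/
theorem IsPreChart.sub_const {V : VFF A π F Ft} (h : IsPreChart V y yt) {a : K} (ha : a ∈ A) :
    IsPreChart V (y - algebraMap K F a) (yt - algebraMap k Ft (res π a)) := by
  refine ⟨h.red_y.sub (V.red_const ha), ?_, ?_⟩
  · intro halg
    apply h.trans
    have := halg.add (isAlgebraic_algebraMap (A := Ft) (res π a))
    rwa [sub_add_cancel] at this
  · rw [gauss_adjoin_simple_sub_const, gauss_adjoin_simple_sub_const]
    exact h.deg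

end Fermat.Agent.S37.Red
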