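import Fermat.Agent.S37.Red.Local

/-!
# S37 / Red : THEOREM KL
-/

set_option autoImplicit false

namespace Fermat.Agent.S37.Red

open AlgebraicCurve Fermat.Agent.S26 Polynomial IntermediateField

variable {K k : Type*} [Field K] [Field k] {A : ValuationSubring K} {π : A →+* k}
variable {F Ft : Type*} [Field F] [Field Ft] [Algebra K F] [Algebra k Ft]
variable [IsAlgClosed K] [FF1 K F] [IsAlgClosed k] [FF1 k Ft]

/-- **Theorem KL.**  `V` a valued function field with two good charts `y`, `y⁻¹`.  If the orders of `W ≠ 0` sum to `0` on every residue class of places, then `W` is a constant times a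
function which reduces to `1`.

Proof.  Scale `W` (`VFF.exists_scale'`; constants have order `0`): `red W = Wt ≠ 0`.  A place `Q` of `Ft` is over `c = yt(Q)` in the chart `yt`, or over `0` in the chart `yt⁻¹` (`van_inv_of_not_reg`).
By `IsChart.ord_red_eq_zero_of_classes`, `ord_Q Wt = 0` for all `Q`; so `Wt` is a nonzero constant (`S26.mem_range_algebraMap_of_forall_ord_nonneg`); divide by a lift of it. -/
theorem KL (V : VFF A π F Ft) {y : F} {yt : Ft} (h₀ : IsChart V y yt) (h₁ : IsChart V y⁻¹ yt⁻¹)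
    {W : F} (hW : W ≠ 0)
    (H₀ : ∀ v₀ : Place K F, InChart A y v₀ → ∑ᶠ (v : Place K F) (_ : Rel A y v v₀), v.ord W = 0)
    (H₁ : ∀ v₀ : Place K F, InDisc π y⁻¹ 0 v₀ →
      ∑ᶠ (v : Place K F) (_ : Rel A y⁻¹ v v₀), v.ord W = 0) :
    ∃ c : K, c ≠ 0 ∧ V.Red (algebraMap K F c * W) 1 := by
  obtain ⟨c, Wt, hc, hWt, hred⟩ := V.exists_scale' hW
  have hcF : algebraMap K F c ≠ 0 := by simpa using hc
  have hord : ∀ v : Place K F, v.ord (algebraMap K F c * W) = v.ord W := by
    intro v
    rw [v.ord_mul hcF hW, Fermat.Agent.S24.FF.ord_algebraMap, zero_add]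
  have hQ : ∀ Q : Place k Ft, Q.ord Wt = 0 := by
    intro Q
    by_cases hreg : Reg Q yt
    · refine h₀.ord_red_eq_zero_of_classes hred hWt (val Q yt) ?_ Q ⟨hreg, rfl⟩
      intro v₀ hv₀
      simp only [hord]
      exact H₀ v₀ hv₀.1
    · have hvan := van_inv_of_not_reg Q hreg
      refine h₁.ord_red_eq_zero_of_classes hred hWt 0 ?_ Q ⟨hvan.reg, val_eq_zero_of_van Q hvan⟩
      intro v₀ hv₀
      simp only [hord]
      exact H₁ v₀ hv₀
  obtain ⟨d, hd⟩ := mem_range_algebraMap_of_forall_ord_nonneg (Ω := k) (f := Wt)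
    (fun v => (hQ v).ge)
  have hd0 : d ≠ 0 := by
    rintro rfl
    exact hWt (by rw [← hd, map_zero])
  obtain ⟨a, ha, had⟩ := exists_res_eq V.π_surjective d
  have ha0 : a ≠ 0 := by
    rintro rfl
    exact hd0 (by rw [← had, res_zero])
  have h1 := V.red_const ha
  rw [had, hd] at h1
  have h2 := (h1.inv hWt).mul hred
  rw [inv_mul_cancel₀ hWt, ← mul_assoc, ← map_inv₀, ← map_mul] at h2
  exact ⟨a⁻¹ * c, mul_ne_zero (inv_ne_zero ha0) hc, h2⟩

end Fermat.Agent.S37.Red
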