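import Fermat.Agent.S37.Red.Center
import Fermat.Agent.S37.Red.Count
import Fermat.Agent.S37.Red.Fibre

/-!
# S37 / Red : theorem KL over one point `c` of the base line
-/

set_option autoImplicit false

namespace Fermat.Agent.S37.Red

open AlgebraicCurve Fermat.Agent.S26 Polynomial IntermediateField

theorem ord_prod_zpow {Ω 𝕃 : Type*} [Field Ω] [Field 𝕃] [Algebra Ω 𝕃] (P : Place Ω 𝕃) {J : Type*}
    (s : Finset J) (u : J → 𝕃) (hu : ∀ j ∈ s, u j ≠ 0) (n : J → ℤ) :
    P.ord (∏ j ∈ s, u j ^ n j) = ∑ j ∈ s, n j * P.ord (u j) := by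
  classical
  induction s using Finset.induction_on with
  | empty => simp
  | insert a s ha ih =>
    have h1 : ∀ j ∈ s, u j ≠ 0 := fun j hj => hu j (Finset.mem_insert_of_mem hj)
    rw [Finset.prod_insert ha, Finset.sum_insert ha,
      P.ord_mul (zpow_ne_zero _ (hu a (Finset.mem_insert_self a s)))
        (Finset.prod_ne_zero_iff.mpr fun j hj => zpow_ne_zero _ (h1 j hj)), P.ord_zpow, ih h1]

variable {K k : Type*} [Field K] [Field k] {A : ValuationSubring K} {π : A →+* k}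
variable {F Ft : Type*} [Field F] [Field Ft] [Algebra K F] [Algebra k Ft]
variable [IsAlgClosed K] [FF1 K F] [IsAlgClosed k] [FF1 k Ft]
variable {V : VFF A π F Ft} {y : F} {yt : Ft}

/-- (Z) uniformisers: for every `Q | c` there is `Z ∈ B_A(y)` whose reduction has a simple zero at `Q` and no other zero over `c`.
(`exists_intK_ord` for `T =` the fibre over `c` (`finite_over`), then (N2).) -/
theorem IsChart.exists_unif (hc : IsChart V y yt) {c : k} {Q : Place k Ft} (hQ : Over yt c Q) :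
    ∃ (Z : F) (Zt : Ft), IntA A y Z ∧ V.Red Z Zt ∧ Q.ord Zt = 1 ∧
      ∀ Q' : Place k Ft, Over yt c Q' → Q' ≠ Q → Q'.ord Zt = 0 := by
  classical
  obtain ⟨Zt, hint, -, hord⟩ := exists_intK_ord hc.trans (finite_over hc.trans c).toFinset
    (fun v hv => ((finite_over hc.trans c).mem_toFinset.1 hv).1)
    (fun v hv v' hv' hvv' => (finite_over hc.trans c).mem_toFinset.2
      ⟨hv', hvv'.trans ((finite_over hc.trans c).mem_toFinset.1 hv).2⟩)
    (fun Q' => if Q' = Q then 1 else 0)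
  obtain ⟨Z, hZ, hred⟩ := hc.normal Zt hint
  refine ⟨Z, Zt, hZ, hred, ?_, fun Q' hQ' hne => ?_⟩
  · simpa using hord Q ((finite_over hc.trans c).mem_toFinset.2 hQ)
  · simpa [hne] using hord Q' ((finite_over hc.trans c).mem_toFinset.2 hQ')

/-- two places of the disc of `c` with the same centre are related. -/
theorem IsPreChart.rel_of_center (pc : IsPreChart V y yt) {v v' : Place K F} (hv : InChart A y v)
    (hv' : InChart A y v') {Q : Place k Ft}
    (hQv : ∀ (b : F) (bt : Ft), IntA A y b → V.Red b bt → val Q bt = res π (val v b))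
    (hQv' : ∀ (b : F) (bt : Ft), IntA A y b → V.Red b bt → val Q bt = res π (val v' b)) :
    Rel A y v v' := by
  refine (rel_iff_res V.π_surjective).2 ⟨hv, hv', fun b hb => ?_⟩
  obtain ⟨bt, hbt⟩ := V.exists_red (IntA.mem_O V hb pc.red_y.mem)
  exact (hQv b bt hb hbt).symm.trans (hQv' b bt hb hbt)

/-- (L9) **KL over `c`.**  Let `W` be a unit of `O`.  If the orders of `W` sum to `0` on every residue class contained in the disc of `c`, then `red W` has no zero and no pole over `c`.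

Proof.  `T` = the (finite) fibre of `yt` over `c`; for `Q ∈ T` choose `(Z_Q, Zt_Q)` by `exists_unif`; for `v` in the disc choose a centre `Q(v) ∈ T` (`exists_center`).
Then `res (Z_Q(v)) = Zt_Q(Q(v))` is `0` iff `Q = Q(v)`.  Hence for `v, v₀` in the disc: `Rel A y v v₀ ↔ Q(v) = Q(v₀)` (⇐ `rel_of_center`; ⇒ test on `b = Z_{Q(v₀)}`); and `Rel A y v v₀` forces `v` into the disc (`Rel.inDisc`).
`S` = the finite set of `v` in the disc with `ord_v W ≠ 0`; `g_v = Z_{Q(v)} - Z_{Q(v)}(v)`, `red g_v = Zt_{Q(v)}`; by `localEq`, `ord_{v'} g_v = δ_{v v'}` on the disc.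
`W' = W ∏_{v ∈ S} g_v ^ (- ord_v W)` has order `0` on the disc, and `red W' = Wt ∏_{Q ∈ T} Zt_Q ^ (- N_Q)`, `N_Q = ∑_{v ∈ S, Q(v) = Q} ord_v W = 0` by hypothesis.  So `red W' = Wt`; conclude by `ord_red_eq_zero`. -/
theorem IsChart.ord_red_eq_zero_of_classes (hc : IsChart V y yt) {W : F} {Wt : Ft} (hW : V.Red W Wt)
    (hWt : Wt ≠ 0) (c : k)
    (H : ∀ v₀ : Place K F, InDisc π y c v₀ → ∑ᶠ (v : Place K F) (_ : Rel A y v v₀), v.ord W = 0) :
    ∀ Q : Place k Ft, Over yt c Q → Q.ord Wt = 0 := by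
  classical
  have hπ := V.π_surjective
  have pc := hc.pre
  have hW0 : W ≠ 0 := hW.ne_zero hWt
  -- uniformisers
  have hZ' : ∀ Q : Place k Ft, ∃ (Z : F) (Zt : Ft), Over yt c Q → (IntA A y Z ∧ V.Red Z Zt ∧
      Q.ord Zt = 1 ∧ ∀ Q' : Place k Ft, Over yt c Q' → Q' ≠ Q → Q'.ord Zt = 0) := by
    intro Q
    by_cases hQ : Over yt c Q
    · obtain ⟨Z, Zt, h⟩ := hc.exists_unif hQ
      exact ⟨Z, Zt, fun _ => h⟩
    · exact ⟨0, 0, fun h => absurd h hQ⟩
  choose Z Zt hZ using hZ'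
  -- centres
  have hcen' : ∀ v : Place K F, ∃ Q : Place k Ft, InDisc π y c v → (Over yt c Q ∧
      ∀ (b : F) (bt : Ft), IntA A y b → V.Red b bt → val Q bt = res π (val v b)) := by
    intro v
    by_cases hv : InDisc π y c v
    · obtain ⟨Q, hQ, h⟩ := pc.exists_center hv.1
      rw [hv.2] at hQ
      exact ⟨Q, fun _ => ⟨hQ, h⟩⟩
    · obtain ⟨Q, -⟩ := exists_over hc.trans c
      exact ⟨Q, fun h => absurd h hv⟩
  choose cen hcen using hcen'
  have hZt0 : ∀ Q : Place k Ft, Over yt c Q → Zt Q ≠ 0 := by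
    intro Q hQ h0
    have := (hZ Q hQ).2.2.1
    rw [h0, Place.ord_zero] at this
    exact zero_ne_one this
  -- values of the uniformisers
  have key1 : ∀ v : Place K F, InDisc π y c v → res π (val v (Z (cen v))) = 0 := by
    intro v hv
    have hQ := (hcen v hv).1
    rw [← (hcen v hv).2 _ _ (hZ _ hQ).1 (hZ _ hQ).2.1]
    exact val_eq_zero_of_van _ (van_of_ord_pos _ (by rw [(hZ _ hQ).2.2.1]; exact one_pos))
  have key2 : ∀ v : Place K F, InDisc π y c v → ∀ Q : Place k Ft, Over yt c Q → cen v ≠ Q →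
      res π (val v (Z Q)) ≠ 0 := by
    intro v hv Q hQ hne
    rw [← (hcen v hv).2 _ _ (hZ _ hQ).1 (hZ _ hQ).2.1]
    have h0 := (hZ _ hQ).2.2.2 (cen v) (hcen v hv).1 hne
    have hreg : Reg (cen v) (Zt Q) := (reg_iff_ord _).2 h0.ge
    rw [Ne, val_eq_zero_iff _ hreg, van_iff_ord]
    rintro (h | h)
    · exact hZt0 Q hQ h
    · omega
  have relIff : ∀ v v₀ : Place K F, InDisc π y c v → InDisc π y c v₀ →
      (Rel A y v v₀ ↔ cen v = cen v₀) := by
    intro v v₀ hv hv₀
    constructor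
    · intro h
      by_contra hne
      have h1 := ((rel_iff_res hπ).1 h).2.2 (Z (cen v₀)) (hZ _ (hcen v₀ hv₀).1).1
      rw [key1 v₀ hv₀] at h1
      exact key2 v hv _ (hcen v₀ hv₀).1 hne h1
    · intro h
      refine pc.rel_of_center hv.1 hv₀.1 (Q := cen v) (hcen v hv).2 ?_
      rw [h]
      exact (hcen v₀ hv₀).2
  -- local equations
  set g : Place K F → F := fun v => Z (cen v) - algebraMap K F (val v (Z (cen v))) with hg
  have hgred : ∀ v : Place K F, InDisc π y c v → V.Red (g v) (Zt (cen v)) := by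
    intro v hv
    have hQ := (hcen v hv).1
    have h1 := (hZ _ hQ).2.1.sub (V.red_const ((hZ _ hQ).1.val_mem hv.1))
    rwa [key1 v hv, map_zero, sub_zero] at h1
  have hgord : ∀ v : Place K F, InDisc π y c v → v.ord (g v) = 1 ∧
      ∀ v' : Place K F, InDisc π y c v' → v' ≠ v → v'.ord (g v) = 0 := by
    intro v hv
    have hQ := (hcen v hv).1
    exact pc.localEq hQ (hZ _ hQ).1 (hZ _ hQ).2.1 (hZ _ hQ).2.2.1 (hZ _ hQ).2.2.2 hv (key1 v hv)
  -- the support of `W` in the disc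
  have hfin : {v : Place K F | InDisc π y c v ∧ v.ord W ≠ 0}.Finite :=
    (finite_ord_ne_zero (Ω := K) hW0).subset fun v hv => hv.2
  set S : Finset (Place K F) := hfin.toFinset with hS
  have hSmem : ∀ v, v ∈ S ↔ InDisc π y c v ∧ v.ord W ≠ 0 := fun v => by simp [hS]
  have hg0 : ∀ v ∈ S, g v ≠ 0 := fun v hv =>
    (hgred v ((hSmem v).1 hv).1).ne_zero (hZt0 _ (hcen v ((hSmem v).1 hv).1).1)
  have hZ0 : ∀ v ∈ S, Zt (cen v) ≠ 0 := fun v hv => hZt0 _ (hcen v ((hSmem v).1 hv).1).1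
  have hred' : V.Red (W * ∏ v ∈ S, g v ^ (- v.ord W)) (Wt * ∏ v ∈ S, Zt (cen v) ^ (- v.ord W)) :=
    hW.mul (V.red_prod S _ _ fun v hv => (hgred v ((hSmem v).1 hv).1).zpow (hZ0 v hv) _)
  have hP0 : ∏ v ∈ S, g v ^ (- v.ord W) ≠ 0 :=
    Finset.prod_ne_zero_iff.mpr fun v hv => zpow_ne_zero _ (hg0 v hv)
  have hPt0 : ∏ v ∈ S, Zt (cen v) ^ (- v.ord W) ≠ 0 :=
    Finset.prod_ne_zero_iff.mpr fun v hv => zpow_ne_zero _ (hZ0 v hv)
  have hord' : ∀ v' : Place K F, InDisc π y c v' → v'.ord (W * ∏ v ∈ S, g v ^ (- v.ord W)) = 0 := by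
    intro v' hv'
    rw [v'.ord_mul hW0 hP0, ord_prod_zpow v' S g hg0]
    have h1 : ∀ v ∈ S, - v.ord W * v'.ord (g v) = if v = v' then - v'.ord W else 0 := by
      intro v hv
      split_ifs with h
      · subst h
        rw [(hgord v hv').1, mul_one]
      · rw [(hgord v ((hSmem v).1 hv).1).2 v' hv' (Ne.symm h), mul_zero]
    rw [Finset.sum_congr rfl h1, Finset.sum_ite_eq']
    split_ifs with h
    · ring
    · have : v'.ord W = 0 := by
        by_contra h0
        exact h ((hSmem v').2 ⟨hv', h0⟩)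
      rw [this, add_zero]
  intro Q hQ
  have hfinal := pc.ord_red_eq_zero hred' (mul_ne_zero hWt hPt0) c hord' Q hQ
  rw [Q.ord_mul hWt hPt0, ord_prod_zpow Q S (fun v => Zt (cen v)) hZ0] at hfinal
  have h2 : ∀ v ∈ S, - v.ord W * Q.ord (Zt (cen v)) = if cen v = Q then - v.ord W else 0 := by
    intro v hv
    have hQv := (hcen v ((hSmem v).1 hv).1).1
    split_ifs with h
    · rw [← h, (hZ _ hQv).2.2.1, mul_one]
    · rw [(hZ _ hQv).2.2.2 Q hQ (Ne.symm h), mul_zero]
  rw [Finset.sum_congr rfl h2, ← Finset.sum_filter, Finset.sum_neg_distrib] at hfinal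
  have h3 : ∑ v ∈ S.filter (fun v => cen v = Q), v.ord W = 0 := by
    by_cases hne : (S.filter (fun v => cen v = Q)).Nonempty
    · obtain ⟨v₀, hv₀⟩ := hne
      rw [Finset.mem_filter] at hv₀
      have hv₀d := ((hSmem v₀).1 hv₀.1).1
      rw [← H v₀ hv₀d]
      symm
      refine finsum_mem_eq_sum_of_inter_support_eq (s := {v | Rel A y v v₀}) _ ?_
      ext v
      simp only [Set.mem_inter_iff, Set.mem_ofPred_eq, Function.mem_support, Finset.coe_filter,
        and_congr_left_iff]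
      intro hv0
      constructor
      · intro hrel
        have hvd := hrel.inDisc hπ hv₀d
        exact ⟨(hSmem v).2 ⟨hvd, hv0⟩, ((relIff v v₀ hvd hv₀d).1 hrel).trans hv₀.2⟩
      · rintro ⟨hvS, hcv⟩
        exact (relIff v v₀ ((hSmem v).1 hvS).1 hv₀d).2 (hcv.trans hv₀.2.symm)
    · rw [Finset.not_nonempty_iff_eq_empty.1 hne, Finset.sum_empty]
  rw [h3, neg_zero, add_zero] at hfinal
  exact hfinal

end Fermat.Agent.S37.Red
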