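import Fermat.Agent.S37.Red.Gauss
import Fermat.Agent.S37.Red.FFInt

/-!
# S37 / Red : orthonormality lemmas (helpers for `ON.lean`, (O1) and (O2))
-/

set_option autoImplicit false

namespace Fermat.Agent.S37.Red.ONAux

open AlgebraicCurve Fermat.Agent.S26 Polynomial IntermediateField

variable {K k : Type*} [Field K] [Field k] {A : ValuationSubring K} {π : A →+* k}
variable {F Ft : Type*} [Field F] [Field Ft] [Algebra K F] [Algebra k Ft]
variable {V : VFF A π F Ft} {y : F} {yt : Ft}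

/-- if all coordinates are in `O`, the reduction of a combination is the combination of the reductions. -/
theorem red_comb (hy : V.Red y yt) (ht : Transcendental k yt) {n : ℕ}
    (bt : Fin n → Ft) (b : Fin n → F) (hb : ∀ i, V.Red (b i) (bt i))
    (e : Fin n → K⟮y⟯) (he : ∀ i, (e i : F) ∈ V.O) :
    ∃ et : Fin n → k⟮yt⟯, (∀ i, V.Red (e i : F) (et i : Ft)) ∧
      V.Red (∑ i, e i • b i) (∑ i, et i • bt i) := by
  choose et het using fun i => exists_red_adjoin V hy ht (e i) (he i)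
  refine ⟨et, het, ?_⟩
  refine V.red_sum _ _ _ fun i _ => ?_
  have := (het i).mul (hb i)
  simpa [IntermediateField.smul_def] using this

/-- the coordinates of an element of `O` are in `O`. -/
theorem coord_mem (hy : V.Red y yt) (ht : Transcendental k yt) {n : ℕ}
    (bt : Fin n → Ft) (hbt : LinearIndependent k⟮yt⟯ bt) (b : Fin n → F)
    (hb : ∀ i, V.Red (b i) (bt i)) (e : Fin n → K⟮y⟯) (hf : (∑ i, e i • b i) ∈ V.O) (i : Fin n) :
    (e i : F) ∈ V.O := by
  classical
  obtain ⟨j, -, hj⟩ := Finset.exists_max_image (Finset.univ : Finset (Fin n))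
    (fun i => V.O.valuation (e i : F)) ⟨i, Finset.mem_univ i⟩
  by_cases hjO : (e j : F) ∈ V.O
  · rw [← ValuationSubring.valuation_le_one_iff] at hjO ⊢
    exact (hj i (Finset.mem_univ i)).trans hjO
  exfalso
  have hj0 : (e j : F) ≠ 0 := fun h => hjO (h ▸ V.O.zero_mem)
  have hj0' : e j ≠ 0 := fun h => hj0 (by rw [h]; rfl)
  have hinv : V.Red ((e j : F)⁻¹) 0 := V.red_inv_zero_of_not_mem hjO
  obtain ⟨ft, hft⟩ := V.exists_red hf
  have h1 : V.Red ((e j : F)⁻¹ * ∑ i, e i • b i) 0 := by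
    simpa using hinv.mul hft
  have hmem : ∀ l, (((e j)⁻¹ * e l : K⟮y⟯) : F) ∈ V.O := by
    intro l
    rw [← ValuationSubring.valuation_le_one_iff]
    have hl := hj l (Finset.mem_univ l)
    have hvj : V.O.valuation (e j : F) ≠ 0 := (Valuation.ne_zero_iff _).2 hj0
    push_cast
    rw [map_mul, map_inv₀]
    exact (inv_mul_le_one₀ (zero_lt_iff.2 hvj)).2 hl
  obtain ⟨et, het, hsum⟩ := red_comb hy ht bt b hb (fun l => (e j)⁻¹ * e l) hmem
  have h2 : (∑ l, ((e j)⁻¹ * e l) • b l) = (e j : F)⁻¹ * ∑ i, e i • b i := by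
    rw [Finset.mul_sum]
    refine Finset.sum_congr rfl fun l _ => ?_
    simp only [IntermediateField.smul_def, smul_eq_mul]
    push_cast
    ring
  rw [h2] at hsum
  have h3 : ∑ l, et l • bt l = 0 := hsum.unique h1
  have h4 : et j = 0 := (Fintype.linearIndependent_iff.1 hbt) et h3 j
  have h5 : V.Red (((e j)⁻¹ * e j : K⟮y⟯) : F) 1 := by
    rw [inv_mul_cancel₀ hj0']
    simpa using V.red_one
  have h6 : ((et j : k⟮yt⟯) : Ft) = 1 := (het j).unique h5
  rw [h4] at h6
  simp at h6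

/-- coordinates commute with reduction. -/
theorem red_coord (hy : V.Red y yt) (ht : Transcendental k yt) {n : ℕ}
    (bt : Fin n → Ft) (hbt : LinearIndependent k⟮yt⟯ bt) (b : Fin n → F)
    (hb : ∀ i, V.Red (b i) (bt i)) (e : Fin n → K⟮y⟯) {ft : Ft}
    (hf : V.Red (∑ i, e i • b i) ft) :
    ∃ et : Fin n → k⟮yt⟯, (∀ i, V.Red (e i : F) (et i : Ft)) ∧ ft = ∑ i, et i • bt i := by
  obtain ⟨et, het, hsum⟩ := red_comb hy ht bt b hb e (coord_mem hy ht bt hbt b hb e hf.mem)
  exact ⟨et, het, hf.unique hsum⟩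

/-- lifts of linearly independent elements are linearly independent. -/
theorem linearIndependent_lift (hy : V.Red y yt) (ht : Transcendental k yt) {n : ℕ}
    (bt : Fin n → Ft) (hbt : LinearIndependent k⟮yt⟯ bt) (b : Fin n → F)
    (hb : ∀ i, V.Red (b i) (bt i)) : LinearIndependent K⟮y⟯ b := by
  rw [Fintype.linearIndependent_iff]
  intro e he j
  by_contra hj
  have h0 : (∑ l, ((e j)⁻¹ * e l) • b l) = 0 := by
    have : (∑ l, ((e j)⁻¹ * e l) • b l) = (e j)⁻¹ • ∑ l, e l • b l := by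
      rw [Finset.smul_sum]
      exact Finset.sum_congr rfl fun l _ => mul_smul _ _ _
    rw [this, he, smul_zero]
  obtain ⟨et, het, hsum⟩ := red_coord hy ht bt hbt b hb (fun l => (e j)⁻¹ * e l) (ft := 0)
    (by rw [h0]; exact V.red_zero)
  have h4 : et j = 0 := (Fintype.linearIndependent_iff.1 hbt) et hsum.symm j
  have h5 : V.Red (((e j)⁻¹ * e j : K⟮y⟯) : F) 1 := by
    rw [inv_mul_cancel₀ hj]
    simpa using V.red_one
  have h6 : ((et j : k⟮yt⟯) : Ft) = 1 := (het j).unique h5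
  rw [h4] at h6
  simp at h6

end Fermat.Agent.S37.Red.ONAux
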