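import Fermat.Agent.S37.Red.Gauss
import Fermat.Agent.S37.Red.FFInt
import Fermat.Agent.S37.Red.ONAux

/-!
# S37 / Red : orthonormal bases, compatibility of norm and trace with reduction, saturation

`V : VFF A π F Ft`, `pc : IsPreChart V y yt`, `E = K⟮y⟯`, `Et = k⟮yt⟯`.

* (O1) there are bases `b` of `F/E`, `bt` of `Ft/Et` with `red (b i) = bt i`:
  take a basis `bt` of `Ft/Et` (finite: `S26.finiteDimensional_adjoin_of_transcendental`), lift it to `b i ∈ O`.  `b` is `E`-linearly independent: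
  in a nontrivial relation `∑ e_i b_i = 0` divide by the coefficient `e_j` of maximal valuation (`e_i / e_j ∈ O` for all `i`, since `O` is a valuation ring) and reduce,
  using (G5): a nontrivial relation between the `bt i`.  By (DEG) `b` is a basis.
* (O2) coordinates: if `red f = ft` then `red (b.repr f i) = bt.repr ft i` (same argument: if some coordinate is not in `O` divide by the largest one and reduce: contradiction).
* (O3) so `leftMulMatrix b f` has entries in `E ∩ O` and reduces to `leftMulMatrix bt ft`; `det`, `trace`, `charpoly` commute with ring homs.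
* (O4) saturation: `z ∈ O` integral over `K[y]` ⇒ integral over `A[y]`.  `z` is a root of `χ = charpoly (leftMulMatrix b z)` (monic, coefficients in `E ∩ O`), so `z` is integral over the
  valuation ring `O_E = O.comap (algebraMap E F)` of `E`; hence (`minpoly.isIntegrallyClosed_eq_field_fractions'`) the coefficients of `minpoly E z` lie in `O_E`; in the same way they lie in (the image of) `K[y]`
  (a PID, integrally closed, fraction field `E`); by (G4) they are in `A[y]`.
-/

set_option autoImplicit false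

namespace Fermat.Agent.S37.Red

open AlgebraicCurve Fermat.Agent.S26 Polynomial IntermediateField

variable {K k : Type*} [Field K] [Field k] {A : ValuationSubring K} {π : A →+* k}
variable {F Ft : Type*} [Field F] [Field Ft] [Algebra K F] [Algebra k Ft] [FF1 K F] [FF1 k Ft]
variable {V : VFF A π F Ft} {y : F} {yt : Ft}

/-- An orthonormal basis. -/
structure ONBasis (V : VFF A π F Ft) (y : F) (yt : Ft) where
  n : ℕ
  b : Module.Basis (Fin n) K⟮y⟯ F
  bt : Module.Basis (Fin n) k⟮yt⟯ Ft
  red_b : ∀ i, V.Red (b i) (bt i)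

/-- lifts of a given basis of `Ft / k(yt)` form a basis of `F / K(y)`. -/
theorem IsPreChart.exists_basis_of_lift (pc : IsPreChart V y yt) {n : ℕ}
    (bt : Module.Basis (Fin n) k⟮yt⟯ Ft) (b : Fin n → F) (hb : ∀ i, V.Red (b i) (bt i)) :
    ∃ bb : Module.Basis (Fin n) K⟮y⟯ F, ∀ i, bb i = b i := by
  have hfd : FiniteDimensional K⟮y⟯ F :=
    finiteDimensional_adjoin_of_transcendental (transcendental_of_red V pc.red_y pc.trans)
  have hli : LinearIndependent K⟮y⟯ b :=
    ONAux.linearIndependent_lift pc.red_y pc.trans bt bt.linearIndependent b hb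
  have h1 : Fintype.card (Fin n) ≤ Module.finrank K⟮y⟯ F := hli.fintype_card_le_finrank
  have h2 : Module.finrank k⟮yt⟯ Ft = Fintype.card (Fin n) := Module.finrank_eq_card_basis bt
  have h3 : Fintype.card (Fin n) = Module.finrank K⟮y⟯ F := le_antisymm h1 (h2 ▸ pc.deg)
  rcases Nat.eq_zero_or_pos n with rfl | hn
  · have : Nonempty (Fin 0) := by
      have hpos : 0 < Module.finrank K⟮y⟯ F := Module.finrank_pos
      rw [← h3] at hpos
      exact Fintype.card_pos_iff.1 hpos
    exact (IsEmpty.false this.some).elim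
  · have : Nonempty (Fin n) := ⟨⟨0, hn⟩⟩
    exact ⟨basisOfLinearIndependentOfCardEqFinrank hli h3, fun i => by simp⟩

/-- (O1) -/
theorem IsPreChart.nonempty_ONBasis (pc : IsPreChart V y yt) : Nonempty (ONBasis V y yt) := by
  have hfd : FiniteDimensional k⟮yt⟯ Ft := finiteDimensional_adjoin_of_transcendental pc.trans
  let bt := Module.finBasis k⟮yt⟯ Ft
  choose b hb using fun i => V.exists_lift (bt i)
  obtain ⟨bb, hbb⟩ := pc.exists_basis_of_lift bt b hb
  exact ⟨⟨_, bb, bt, fun i => by rw [hbb i]; exact hb i⟩⟩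

/-- (DEG) is an equality. -/
theorem IsPreChart.finrank_eq (pc : IsPreChart V y yt) :
    Module.finrank K⟮y⟯ F = Module.finrank k⟮yt⟯ Ft := by
  obtain ⟨B⟩ := pc.nonempty_ONBasis
  rw [Module.finrank_eq_card_basis B.b, Module.finrank_eq_card_basis B.bt]

/-- (O2) -/
theorem ONBasis.red_repr (pc : IsPreChart V y yt) (B : ONBasis V y yt) {f : F} {ft : Ft}
    (h : V.Red f ft) (i : Fin B.n) :
    V.Red ((B.b.repr f i : K⟮y⟯) : F) ((B.bt.repr ft i : k⟮yt⟯) : Ft) := by
  have hf : V.Red (∑ l, B.b.repr f l • B.b l) ft := by rw [B.b.sum_repr]; exact h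
  obtain ⟨et, het, hsum⟩ := ONAux.red_coord pc.red_y pc.trans B.bt B.bt.linearIndependent B.b
    B.red_b (fun l => B.b.repr f l) hf
  have : B.bt.repr ft i = et i := by
    rw [hsum, B.bt.repr_sum_self]
  rw [this]
  exact het i

/-- (O3), matrix form. -/
theorem ONBasis.red_leftMulMatrix (pc : IsPreChart V y yt) (B : ONBasis V y yt) {f : F} {ft : Ft}
    (h : V.Red f ft) (i j : Fin B.n) :
    V.Red ((Algebra.leftMulMatrix B.b f i j : K⟮y⟯) : F)
      ((Algebra.leftMulMatrix B.bt ft i j : k⟮yt⟯) : Ft) := by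
  rw [Algebra.leftMulMatrix_eq_repr_mul, Algebra.leftMulMatrix_eq_repr_mul]
  exact B.red_repr pc (h.mul (B.red_b j)) i

omit [FF1 K F] [FF1 k Ft] in
/-- reduction commutes with determinants (entrywise reduction of matrices over subfields). -/
theorem VFF.red_det {n : ℕ} (M : Matrix (Fin n) (Fin n) K⟮y⟯) (Mt : Matrix (Fin n) (Fin n) k⟮yt⟯)
    (h : ∀ i j, V.Red ((M i j : K⟮y⟯) : F) ((Mt i j : k⟮yt⟯) : Ft)) :
    V.Red (algebraMap K⟮y⟯ F M.det) (algebraMap k⟮yt⟯ Ft Mt.det) := by
  rw [Matrix.det_apply', Matrix.det_apply', map_sum, map_sum]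
  refine V.red_sum _ _ _ fun σ _ => ?_
  rw [map_mul, map_mul, map_prod, map_prod, map_intCast, map_intCast]
  refine VFF.Red.mul ?_ (V.red_prod _ _ _ fun i _ => h _ _)
  rcases Int.units_eq_one_or (Equiv.Perm.sign σ) with hs | hs <;> rw [hs]
  · simpa using V.red_one
  · simpa using V.red_one.neg

/-- (O3) the norm commutes with reduction. -/
theorem IsPreChart.red_norm (pc : IsPreChart V y yt) {f : F} {ft : Ft} (h : V.Red f ft) :
    V.Red (algebraMap K⟮y⟯ F (Algebra.norm K⟮y⟯ f)) (algebraMap k⟮yt⟯ Ft (Algebra.norm k⟮yt⟯ ft)) := by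
  obtain ⟨B⟩ := pc.nonempty_ONBasis
  rw [Algebra.norm_eq_matrix_det B.b, Algebra.norm_eq_matrix_det B.bt]
  exact VFF.red_det _ _ fun i j => B.red_leftMulMatrix pc h i j

/-- (O3) the trace commutes with reduction. -/
theorem IsPreChart.red_trace (pc : IsPreChart V y yt) {f : F} {ft : Ft} (h : V.Red f ft) :
    V.Red (algebraMap K⟮y⟯ F (Algebra.trace K⟮y⟯ F f)) (algebraMap k⟮yt⟯ Ft (Algebra.trace k⟮yt⟯ Ft ft)) := by
  obtain ⟨B⟩ := pc.nonempty_ONBasis
  rw [Algebra.trace_eq_matrix_trace B.b, Algebra.trace_eq_matrix_trace B.bt, Matrix.trace,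
    Matrix.trace, map_sum, map_sum]
  exact V.red_sum _ _ _ fun i _ => B.red_leftMulMatrix pc h i i

/-- coefficients of the minimal polynomial of an element integral over an integrally closed ring -/
theorem Sat.coeff_minpoly_mem_range {R E F : Type*} [CommRing R] [IsDomain R] [IsIntegrallyClosed R]
    [Field E] [Algebra R E] [IsFractionRing R E] [Field F] [Algebra E F] (z : F) (P : R[X])
    (hP : P.Monic) (h0 : aeval z (P.map (algebraMap R E)) = 0) (i : ℕ) :
    (minpoly E z).coeff i ∈ Set.range (algebraMap R E) := by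
  have hint : IsIntegral E z := ⟨P.map (algebraMap R E), hP.map _, h0⟩
  have hdvd : minpoly E z ∣ P.map (algebraMap R E) := minpoly.dvd E z h0
  obtain ⟨g, hg⟩ := IsIntegrallyClosed.eq_map_mul_C_of_dvd E hP hdvd
  rw [(minpoly.monic hint).leadingCoeff, map_one, mul_one] at hg
  exact ⟨g.coeff i, by rw [← hg, coeff_map]⟩

open scoped IntermediateField.algebraAdjoinAdjoin in
theorem Sat.coeff_minpoly_mem_adjoin {K F : Type*} [Field K] [Field F] [Algebra K F] (y : F)
    (hy : Transcendental K y) (z : F) (P : (K[X])[X]) (hP : P.Monic)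
    (h0 : eval₂ ((aeval y : K[X] →ₐ[K] F).toRingHom) z P = 0) (i : ℕ) :
    ∃ p : K[X], (((minpoly K⟮y⟯ z).coeff i : K⟮y⟯) : F) = aeval y p := by
  have : IsIntegrallyClosed (Algebra.adjoin K {y}) :=
    IsIntegrallyClosed.of_equiv (Polynomial.algEquivOfTranscendental K y hy).toRingEquiv
  let e : K[X] →+* Algebra.adjoin K {y} := (Polynomial.algEquivOfTranscendental K y hy : K[X] →+* _)
  have he : ∀ p : K[X], ((e p : Algebra.adjoin K {y}) : F) = aeval y p := by
    intro p
    change (((aeval (⟨y, Algebra.self_mem_adjoin_singleton K y⟩ : Algebra.adjoin K {y})) p :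
      Algebra.adjoin K {y}) : F) = aeval y p
    exact Polynomial.coe_aeval_mk_apply ..
  obtain ⟨c, hc⟩ := Sat.coeff_minpoly_mem_range (R := Algebra.adjoin K {y}) (E := K⟮y⟯) z (P.map e)
    (hP.map _) (by
      rw [aeval_def, eval₂_map, eval₂_map, ← h0]
      congr 1
      exact RingHom.ext fun p => he p) i
  obtain ⟨p, rfl⟩ := (Polynomial.algEquivOfTranscendental K y hy).surjective c
  exact ⟨p, by rw [← hc]; exact he p⟩

theorem Sat.coeff_minpoly_mem_O (pc : IsPreChart V y yt) {z : F} (hzO : z ∈ V.O) (i : ℕ) :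
    (((minpoly K⟮y⟯ z).coeff i : K⟮y⟯) : F) ∈ V.O := by
  obtain ⟨B⟩ := pc.nonempty_ONBasis
  obtain ⟨zt, hzt⟩ := V.exists_red hzO
  let OE : ValuationSubring K⟮y⟯ := V.O.comap (algebraMap K⟮y⟯ F)
  have hM : ∀ i j, Algebra.leftMulMatrix B.b z i j ∈ OE :=
    fun i j => (B.red_leftMulMatrix pc hzt i j).mem
  let M' : Matrix (Fin B.n) (Fin B.n) OE := fun i j => ⟨Algebra.leftMulMatrix B.b z i j, hM i j⟩
  have hMM' : Algebra.leftMulMatrix B.b z = M'.map (algebraMap OE K⟮y⟯) := rfl
  obtain ⟨c, hc⟩ := Sat.coeff_minpoly_mem_range (R := OE) (E := K⟮y⟯) z M'.charpoly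
    (Matrix.charpoly_monic _) (by
      rw [← Matrix.charpoly_map, ← hMM']
      apply Algebra.leftMulMatrix_injective B.b
      rw [map_zero, ← Polynomial.aeval_algHom_apply]
      exact Matrix.aeval_self_charpoly _) i
  rw [← hc]
  exact c.2

/-- (O4) **saturation** (N1). -/
theorem IsPreChart.sat (pc : IsPreChart V y yt) {z : F} (hz : IntK K y z) (hzO : z ∈ V.O) :
    IntA A y z := by
  have hyT : Transcendental K y := transcendental_of_red V pc.red_y pc.trans
  obtain ⟨P, hP, hP0⟩ := hz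
  have hgK : ∀ p : K[X], ((aeval (AdjoinSimple.gen K y) p : K⟮y⟯) : F) = aeval y p :=
    fun p => AdjoinSimple.coe_aeval_gen_apply K y p
  have hint : IsIntegral K⟮y⟯ z := by
    refine ⟨P.map ((aeval (AdjoinSimple.gen K y) : K[X] →ₐ[K] K⟮y⟯).toRingHom), hP.map _, ?_⟩
    rw [eval₂_map, ← hP0]
    congr 1
    exact RingHom.ext fun p => hgK p
  -- the ring hom `A[X] → K(y)`
  let g : Polynomial A →+* K⟮y⟯ :=
    ((aeval (AdjoinSimple.gen K y) : K[X] →ₐ[K] K⟮y⟯).toRingHom).comp (mapRingHom A.subtype)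
  have hg : (algebraMap K⟮y⟯ F).comp g = evA A y :=
    RingHom.ext fun q => hgK (q.map A.subtype)
  have hlift : minpoly K⟮y⟯ z ∈ Polynomial.lifts g := by
    rw [Polynomial.lifts_iff_coeff_lifts]
    intro i
    obtain ⟨p, hp⟩ := Sat.coeff_minpoly_mem_adjoin y hyT z P hP hP0 i
    have hO := Sat.coeff_minpoly_mem_O pc hzO i
    rw [hp] at hO
    obtain ⟨q, rfl⟩ := (aeval_mem_O_iff V pc.red_y pc.trans p).1 hO
    refine ⟨q, Subtype.ext ?_⟩
    rw [hp]
    exact hgK (q.map A.subtype)
  obtain ⟨Q, hQ, -, hQm⟩ := Polynomial.lifts_and_natDegree_eq_and_monic hlift (minpoly.monic hint)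
  refine ⟨Q, hQm, ?_⟩
  rw [← hg, ← eval₂_map, hQ]
  exact minpoly.aeval _ _

end Fermat.Agent.S37.Red
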