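import Fermat.Agent.S26.FF.Nonspecial
import Fermat.Prelude.Def_AlgebraicCurve_BaseChangeGalois

/-!
# S37 / Red : values of functions at places (any characteristic)

`Ω` a field, `𝕃/Ω` a function field (`S26.FF1`), `v : Place Ω 𝕃`.

* `Reg v f`  : `f` is regular at `v` (`f ∈ O_v`);
* `Van v f`  : `f` vanishes at `v` (`f ∈ m_v`).  WARNING: the Prelude has `v.ord 0 = 0`, so
  `Van v f ↔ f = 0 ∨ 0 < v.ord f`;
* `val v f : Ω` : the value `f(v)` (the unique `c` with `Van v (f - c)`), junk value `0` if there is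
  no such `c` (e.g. if `f` has a pole at `v`).  If `Ω` is algebraically closed every regular `f` has a value.
-/

set_option autoImplicit false

namespace Fermat.Agent.S37.Red

open AlgebraicCurve Fermat.Agent.S26 Polynomial

variable {Ω 𝕃 : Type*} [Field Ω] [Field 𝕃] [Algebra Ω 𝕃]

/-- `f` is regular at `v`. -/
def Reg (v : Place Ω 𝕃) (f : 𝕃) : Prop := f ∈ v.toValuationSubring

/-- `f` vanishes at `v`. -/
def Van (v : Place Ω 𝕃) (f : 𝕃) : Prop := v.adicValuation f < 1

open Classical in
/-- The value of `f` at `v` (junk `0` if `f` has no value in `Ω` at `v`). -/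
noncomputable def val (v : Place Ω 𝕃) (f : 𝕃) : Ω :=
  if h : ∃ c : Ω, Van v (f - algebraMap Ω 𝕃 c) then h.choose else 0

variable (v : Place Ω 𝕃)

/-! ### `Reg` and `Van` -/

theorem reg_iff_ord {f : 𝕃} : Reg v f ↔ 0 ≤ v.ord f := by
  exact (Fermat.Agent.S24.FF.ord_nonneg_iff v).symm

theorem reg_iff_adic {f : 𝕃} : Reg v f ↔ v.adicValuation f ≤ 1 := by
  exact (Indep.val_le_one_iff v f).symm

theorem van_iff_ord {f : 𝕃} : Van v f ↔ f = 0 ∨ 0 < v.ord f := by
  rcases eq_or_ne f 0 with rfl | hf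
  · simp [Van]
  · rw [Van, Fermat.Agent.S24.FF.adicValuation_eq_exp v hf, ← WithZero.exp_zero,
      WithZero.exp_lt_exp]
    simp [hf]

theorem van_of_ord_pos {f : 𝕃} (h : 0 < v.ord f) : Van v f := by
  exact (van_iff_ord v).2 (Or.inr h)

theorem ord_pos_of_van {f : 𝕃} (h : Van v f) (hf : f ≠ 0) : 0 < v.ord f := by
  exact ((van_iff_ord v).1 h).resolve_left hf

theorem Van.reg {f : 𝕃} (h : Van v f) : Reg v f := by
  exact (reg_iff_adic v).2 (le_of_lt h)

theorem reg_zero : Reg v (0 : 𝕃) := by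
  exact zero_mem _

theorem reg_one : Reg v (1 : 𝕃) := by
  exact one_mem _

theorem reg_algebraMap (c : Ω) : Reg v (algebraMap Ω 𝕃 c) := by
  exact v.algebraMap_mem' c

theorem Reg.add {f g : 𝕃} (hf : Reg v f) (hg : Reg v g) : Reg v (f + g) := by
  exact add_mem hf hg

theorem Reg.sub {f g : 𝕃} (hf : Reg v f) (hg : Reg v g) : Reg v (f - g) := by
  exact sub_mem hf hg

theorem Reg.neg {f : 𝕃} (hf : Reg v f) : Reg v (-f) := by
  exact neg_mem hf

theorem Reg.mul {f g : 𝕃} (hf : Reg v f) (hg : Reg v g) : Reg v (f * g) := by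
  exact mul_mem hf hg

theorem Reg.pow {f : 𝕃} (hf : Reg v f) (n : ℕ) : Reg v (f ^ n) := by
  exact pow_mem hf n

theorem reg_sum {ι : Type*} (s : Finset ι) (f : ι → 𝕃) (h : ∀ i ∈ s, Reg v (f i)) :
    Reg v (∑ i ∈ s, f i) := by
  exact sum_mem h

theorem reg_prod {ι : Type*} (s : Finset ι) (f : ι → 𝕃) (h : ∀ i ∈ s, Reg v (f i)) :
    Reg v (∏ i ∈ s, f i) := by
  exact prod_mem h

theorem Reg.aeval {f : 𝕃} (hf : Reg v f) (p : Polynomial Ω) : Reg v (aeval f p) := by
  exact (reg_iff_adic v).2 (Indep.val_aeval_le_one v ((reg_iff_adic v).1 hf) p)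

theorem reg_or_reg_inv (f : 𝕃) : Reg v f ∨ Reg v f⁻¹ := by
  exact v.toValuationSubring.mem_or_inv_mem f

/-- if `f` is not regular then `f⁻¹` vanishes. -/
theorem van_inv_of_not_reg {f : 𝕃} (hf : ¬ Reg v f) : Van v f⁻¹ := by
  rw [reg_iff_adic, not_le] at hf
  rw [Van, map_inv₀]
  exact inv_lt_one_of_one_lt₀ hf

theorem not_reg_inv_of_van {f : 𝕃} (hf : Van v f) (hf0 : f ≠ 0) : ¬ Reg v f⁻¹ := by
  rw [reg_iff_adic, not_le, map_inv₀]
  exact (one_lt_inv₀ (zero_lt_iff.2 (v.adicValuation_ne_zero hf0))).2 hf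

theorem van_zero : Van v (0 : 𝕃) := by
  simp [Van]

theorem not_van_one : ¬ Van v (1 : 𝕃) := by
  simp [Van]

theorem van_algebraMap_iff {c : Ω} : Van v (algebraMap Ω 𝕃 c) ↔ c = 0 := by
  rw [van_iff_ord, Fermat.Agent.S24.FF.ord_algebraMap]
  simp

theorem Van.add {f g : 𝕃} (hf : Van v f) (hg : Van v g) : Van v (f + g) := by
  exact Valuation.map_add_lt _ hf hg

theorem Van.sub {f g : 𝕃} (hf : Van v f) (hg : Van v g) : Van v (f - g) := by
  rw [sub_eq_add_neg]
  exact Valuation.map_add_lt _ hf (by rw [Valuation.map_neg]; exact hg)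

theorem Van.neg {f : 𝕃} (hf : Van v f) : Van v (-f) := by
  rw [Van, Valuation.map_neg]; exact hf

theorem Van.mul_left {f g : 𝕃} (hf : Reg v f) (hg : Van v g) : Van v (f * g) := by
  rw [Van, map_mul]
  exact lt_of_le_of_lt (mul_le_of_le_one_left' ((reg_iff_adic v).1 hf)) hg

theorem Van.mul_right {f g : 𝕃} (hf : Van v f) (hg : Reg v g) : Van v (f * g) := by
  rw [mul_comm]
  exact Van.mul_left v hg hf

/-- `m_v` is prime. -/
theorem van_mul_iff {f g : 𝕃} (hf : Reg v f) (hg : Reg v g) : Van v (f * g) ↔ Van v f ∨ Van v g := by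
  constructor
  · intro h
    by_contra hcon
    rw [not_or] at hcon
    have h1 : v.adicValuation f = 1 :=
      le_antisymm ((reg_iff_adic v).1 hf) (not_lt.1 hcon.1)
    have h2 : v.adicValuation g = 1 :=
      le_antisymm ((reg_iff_adic v).1 hg) (not_lt.1 hcon.2)
    rw [Van, map_mul, h1, h2, one_mul] at h
    exact lt_irrefl _ h
  · rintro (h | h)
    · exact Van.mul_right v h hg
    · exact Van.mul_left v hf h

theorem van_pow_iff {f : 𝕃} {n : ℕ} (hn : n ≠ 0) : Van v (f ^ n) ↔ Van v f := by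
  rw [Van, Van, map_pow]
  exact pow_lt_one_iff hn

/-- a regular, non vanishing function has order `0` and a regular inverse. -/
theorem ord_eq_zero_of_reg_of_not_van {f : 𝕃} (hf : Reg v f) (hf' : ¬ Van v f) : v.ord f = 0 := by
  rw [reg_iff_ord] at hf
  rw [van_iff_ord, not_or] at hf'
  omega

theorem reg_inv_of_not_van {f : 𝕃} (hf' : ¬ Van v f) : Reg v f⁻¹ := by
  rw [Van, not_lt] at hf'
  rw [reg_iff_adic, map_inv₀]
  exact inv_le_one_of_one_le₀ hf'

/-! ### `val` -/

/-- uniqueness of the value. -/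
theorem val_eq_of_van {f : 𝕃} {c : Ω} (h : Van v (f - algebraMap Ω 𝕃 c)) : val v f = c := by
  have h' : ∃ c : Ω, Van v (f - algebraMap Ω 𝕃 c) := ⟨c, h⟩
  rw [val, dif_pos h']
  have h1 := Van.sub v h h'.choose_spec
  have h2 : f - algebraMap Ω 𝕃 c - (f - algebraMap Ω 𝕃 h'.choose) =
      algebraMap Ω 𝕃 (h'.choose - c) := by rw [map_sub]; ring
  rw [h2, van_algebraMap_iff] at h1
  exact sub_eq_zero.1 h1

theorem val_of_not_reg {f : 𝕃} (h : ¬ Reg v f) : val v f = 0 := by
  rw [val, dif_neg]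
  rintro ⟨c, hc⟩
  apply h
  have := Reg.add v (Van.reg v hc) (reg_algebraMap v c)
  rwa [sub_add_cancel] at this

@[simp] theorem val_algebraMap (c : Ω) : val v (algebraMap Ω 𝕃 c) = c := by
  exact val_eq_of_van v (by rw [sub_self]; exact van_zero v)

@[simp] theorem val_zero : val v (0 : 𝕃) = 0 := by
  have := val_algebraMap v (0 : Ω)
  rwa [map_zero] at this

@[simp] theorem val_one : val v (1 : 𝕃) = 1 := by
  have := val_algebraMap v (1 : Ω)
  rwa [map_one] at this

theorem val_eq_zero_of_van {f : 𝕃} (h : Van v f) : val v f = 0 := by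
  exact val_eq_of_van v (by rwa [map_zero, sub_zero])

section AlgClosed

variable [IsAlgClosed Ω] [FF1 Ω 𝕃]

/-- existence of the value (residue fields of places are `Ω`: `S26.deg_eq_one_of_isAlgClosed`). -/
theorem exists_van_sub {f : 𝕃} (hf : Reg v f) : ∃ c : Ω, Van v (f - algebraMap Ω 𝕃 c) := by
  have hfin := finite_residueField (Ω := Ω) v
  have hint : Algebra.IsIntegral Ω v.ResidueField := Algebra.IsIntegral.of_finite Ω v.ResidueField
  have hbij : Function.Bijective (algebraMap Ω v.ResidueField) :=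
    IsAlgClosed.algebraMap_bijective_of_isIntegral
  obtain ⟨c, hc⟩ := hbij.2 (IsLocalRing.residue v.toValuationSubring ⟨f, hf⟩)
  refine ⟨c, ?_⟩
  have h1 : IsLocalRing.residue v.toValuationSubring
      (⟨f, hf⟩ - algebraMap Ω v.toValuationSubring c) = 0 := by
    rw [map_sub, ← hc, sub_eq_zero]
    rfl
  rw [IsLocalRing.residue_eq_zero_iff, IsLocalRing.mem_maximalIdeal, mem_nonunits_iff,
    ← v.adicValuation_coe_eq_one_iff] at h1
  have h2 : v.adicValuation (((⟨f, hf⟩ - algebraMap Ω v.toValuationSubring c :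
      v.toValuationSubring)) : 𝕃) ≤ 1 := (reg_iff_adic v).1 (SetLike.coe_mem _)
  exact lt_of_le_of_ne h2 h1

theorem van_sub_val {f : 𝕃} (hf : Reg v f) : Van v (f - algebraMap Ω 𝕃 (val v f)) := by
  obtain ⟨c, hc⟩ := exists_van_sub v hf
  rwa [val_eq_of_van v hc]

theorem val_eq_iff {f : 𝕃} (hf : Reg v f) {c : Ω} : val v f = c ↔ Van v (f - algebraMap Ω 𝕃 c) := by
  constructor
  · rintro rfl
    exact van_sub_val v hf
  · exact val_eq_of_van v

theorem val_eq_zero_iff {f : 𝕃} (hf : Reg v f) : val v f = 0 ↔ Van v f := by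
  rw [val_eq_iff v hf, map_zero, sub_zero]

theorem val_add {f g : 𝕃} (hf : Reg v f) (hg : Reg v g) : val v (f + g) = val v f + val v g := by
  refine val_eq_of_van v ?_
  have := Van.add v (van_sub_val v hf) (van_sub_val v hg)
  convert this using 1
  rw [map_add]; ring

theorem val_sub {f g : 𝕃} (hf : Reg v f) (hg : Reg v g) : val v (f - g) = val v f - val v g := by
  refine val_eq_of_van v ?_
  have := Van.sub v (van_sub_val v hf) (van_sub_val v hg)
  convert this using 1
  rw [map_sub]; ring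

theorem val_neg {f : 𝕃} (hf : Reg v f) : val v (-f) = - val v f := by
  refine val_eq_of_van v ?_
  have := Van.neg v (van_sub_val v hf)
  convert this using 1
  rw [map_neg]; ring

theorem val_mul {f g : 𝕃} (hf : Reg v f) (hg : Reg v g) : val v (f * g) = val v f * val v g := by
  refine val_eq_of_van v ?_
  have := Van.add v (Van.mul_right v (van_sub_val v hf) hg)
    (Van.mul_left v (reg_algebraMap v (val v f)) (van_sub_val v hg))
  convert this using 1
  rw [map_mul]; ring

theorem val_pow {f : 𝕃} (hf : Reg v f) (n : ℕ) : val v (f ^ n) = val v f ^ n := by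
  induction n with
  | zero => simp
  | succ n ih => rw [pow_succ, val_mul v (Reg.pow v hf n) hf, ih, pow_succ]

theorem val_sum {ι : Type*} (s : Finset ι) (f : ι → 𝕃) (h : ∀ i ∈ s, Reg v (f i)) :
    val v (∑ i ∈ s, f i) = ∑ i ∈ s, val v (f i) := by
  classical
  induction s using Finset.induction_on with
  | empty => simp
  | insert a s ha ih =>
    rw [Finset.sum_insert ha, Finset.sum_insert ha,
      val_add v (h a (Finset.mem_insert_self a s))
        (reg_sum v s f fun i hi => h i (Finset.mem_insert_of_mem hi)),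
      ih fun i hi => h i (Finset.mem_insert_of_mem hi)]

theorem val_prod {ι : Type*} (s : Finset ι) (f : ι → 𝕃) (h : ∀ i ∈ s, Reg v (f i)) :
    val v (∏ i ∈ s, f i) = ∏ i ∈ s, val v (f i) := by
  classical
  induction s using Finset.induction_on with
  | empty => simp
  | insert a s ha ih =>
    rw [Finset.prod_insert ha, Finset.prod_insert ha,
      val_mul v (h a (Finset.mem_insert_self a s))
        (reg_prod v s f fun i hi => h i (Finset.mem_insert_of_mem hi)),
      ih fun i hi => h i (Finset.mem_insert_of_mem hi)]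

theorem val_aeval {f : 𝕃} (hf : Reg v f) (p : Polynomial Ω) : val v (aeval f p) = p.eval (val v f) := by
  rw [Polynomial.aeval_eq_sum_range, Polynomial.eval_eq_sum_range,
    val_sum v _ _ fun i _ => by
      rw [Algebra.smul_def]; exact Reg.mul v (reg_algebraMap v _) (Reg.pow v hf i)]
  refine Finset.sum_congr rfl fun i _ => ?_
  rw [Algebra.smul_def, val_mul v (reg_algebraMap v _) (Reg.pow v hf i), val_algebraMap,
    val_pow v hf]

/-- holds for ALL regular `f` (if `f` vanishes, both sides are the junk value `0`). -/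
theorem val_inv {f : 𝕃} (hf : Reg v f) : val v f⁻¹ = (val v f)⁻¹ := by
  by_cases hv : Van v f
  · rw [val_eq_zero_of_van v hv, inv_zero]
    rcases eq_or_ne f 0 with rfl | hf0
    · rw [inv_zero, val_zero]
    · exact val_of_not_reg v (not_reg_inv_of_van v hv hf0)
  · have hf0 : f ≠ 0 := by
      rintro rfl
      exact hv (van_zero v)
    have ha : val v f ≠ 0 := fun h => hv ((val_eq_zero_iff v hf).1 h)
    have h1 := val_mul v hf (reg_inv_of_not_van v hv)
    rw [mul_inv_cancel₀ hf0, val_one] at h1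
    exact eq_inv_of_mul_eq_one_right h1.symm

theorem val_div {f g : 𝕃} (hf : Reg v f) (hg : Reg v g) (hg' : ¬ Van v g) :
    val v (f / g) = val v f / val v g := by
  rw [div_eq_mul_inv, val_mul v hf (reg_inv_of_not_van v hg'), val_inv v hg, div_eq_mul_inv]

/-- the ring homomorphism `O_v → Ω`. -/
noncomputable def valHom : v.toValuationSubring →+* Ω where
  toFun f := val v (f : 𝕃)
  map_one' := val_one v
  map_mul' f g := val_mul v f.2 g.2
  map_zero' := val_zero v
  map_add' f g := val_add v f.2 g.2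

@[simp] theorem valHom_apply (f : v.toValuationSubring) : valHom v f = val v (f : 𝕃) := rfl

end AlgClosed

/-! ### semilinear automorphisms -/

theorem reg_smul_iff (g : SemilinearAut Ω 𝕃) {f : 𝕃} : Reg (g • v) (g • f) ↔ Reg v f := by
  rw [reg_iff_ord, reg_iff_ord, SemilinearAut.ord_smul]

theorem van_smul_iff (g : SemilinearAut Ω 𝕃) {f : 𝕃} : Van (g • v) (g • f) ↔ Van v f := by
  rw [van_iff_ord, van_iff_ord, SemilinearAut.ord_smul, smul_eq_zero_iff_eq]

theorem val_smul (g : SemilinearAut Ω 𝕃) (f : 𝕃) :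
    val (g • v) (g • f) = SemilinearAut.baseAut g (val v f) := by
  by_cases h : ∃ c : Ω, Van v (f - algebraMap Ω 𝕃 c)
  · obtain ⟨c, hc⟩ := h
    rw [val_eq_of_van v hc]
    refine val_eq_of_van _ ?_
    rw [← SemilinearAut.smul_algebraMap, ← smul_sub]
    exact (van_smul_iff v g).2 hc
  · have h' : ¬ ∃ c : Ω, Van (g • v) (g • f - algebraMap Ω 𝕃 c) := by
      rintro ⟨c, hc⟩
      apply h
      refine ⟨(SemilinearAut.baseAut g).symm c, ?_⟩
      rw [← van_smul_iff v g, smul_sub, SemilinearAut.smul_algebraMap,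
        RingEquiv.apply_symm_apply]
      exact hc
    rw [val, val, dif_neg h, dif_neg h', map_zero]

end Fermat.Agent.S37.Red
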